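/-
S15, block HG ("Hopf orders and Galois fixed points").  Owner: helper64.  Blueprint: report #1380.

Definitions only (no `sorry`).  Everything is abstract: Mathlib + the landed Hopf order layer `S19/Defs`.

* `conn A H`     : the "connected part" `U⁰ = {x | h x ≡ h 0 mod 𝔪_A for all h ∈ H}`;
* `resOrder`     : restriction of an order along `φ : M' → M`;
* `quotOrder`    : the functions on `M''` whose pull back along `φ : M → M''` lies in `H`;
* `eisOp g a`    : the operator `(g - 1)(g - a)`;
* `Hyp r k N U`  : the standing hypotheses of Theorem G on a finite Galois module `U`;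
* `fixedIn Y`    : the Galois fixed elements of a subgroup `Y`.
-/
import Fermat.Agent.S19.Defs
import Fermat.Agent.S19.Closure

set_option autoImplicit false

noncomputable section

namespace Fermat.Agent.S15.HG

open Fermat.Agent.S19

/-- The connected part of `M` with respect to the order `H` and the valuation ring `A` of `ℚ̄`. -/
def conn {r : ℕ} (A : ValuationSubring Qb) {M : Type} [AddCommGroup M]
    (H : Subalgebra (Rl r) (M → Qb)) : Set M :=
  {x | ∀ h ∈ H, h x - h 0 ∈ A.nonunits}

/-- Restriction of an order along `φ : M' → M`. -/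
def resOrder {r : ℕ} {M' M : Type} (φ : M' → M) (H : Subalgebra (Rl r) (M → Qb)) :
    Subalgebra (Rl r) (M' → Qb) :=
  H.map (pullback (Rl r) φ)

/-- The order of all functions on `M''` whose pull back along `φ : M → M''` lies in `H`. -/
def quotOrder {r : ℕ} {M M'' : Type} (φ : M → M'') (H : Subalgebra (Rl r) (M → Qb)) :
    Subalgebra (Rl r) (M'' → Qb) :=
  H.comap (pullback (Rl r) φ)

theorem mem_resOrder {r : ℕ} {M' M : Type} (φ : M' → M) (H : Subalgebra (Rl r) (M → Qb))
    (f : M' → Qb) : f ∈ resOrder φ H ↔ ∃ h ∈ H, f = fun x => h (φ x) := by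
  constructor
  · rintro ⟨h, hh, rfl⟩
    exact ⟨h, hh, rfl⟩
  · rintro ⟨h, hh, rfl⟩
    exact ⟨h, hh, rfl⟩

theorem mem_quotOrder {r : ℕ} {M M'' : Type} (φ : M → M'') (H : Subalgebra (Rl r) (M → Qb))
    (f : M'' → Qb) : f ∈ quotOrder φ H ↔ (fun x => f (φ x)) ∈ H := Iff.rfl

/-- The `A`-span of an order. -/
def aspan {r : ℕ} (A : ValuationSubring Qb) {M : Type} (H : Subalgebra (Rl r) (M → Qb)) :
    Submodule A (M → Qb) :=
  Submodule.span A (H : Set (M → Qb))

/-- The operator `(g - 1)(g - a) = g² - (a + 1) g + a` on a Galois module. -/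
def eisOp {U : Type} [AddCommGroup U] [DistribMulAction Gal U] (g : Gal) (a : ℕ) (x : U) : U :=
  g • g • x - (a + 1) • g • x + a • x

/-- The action of `Gal` on `U` is smooth (open stabilisers). -/
def Smooth (U : Type) [MulAction Gal U] : Prop :=
  ∀ x : U, ∃ F : IntermediateField ℚ Qb, FiniteDimensional ℚ F ∧
    ∀ σ ∈ F.fixingSubgroup, σ • x = x

/-- `U` is unramified at the prime `ℓ` (for at least one valuation ring over `ℓ`; the others are
conjugate). -/
def UnramAt (ℓ : ℕ) (U : Type) [MulAction Gal U] : Prop :=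
  ∃ A : ValuationSubring Qb, A.LiesOverPrime ℓ ∧
    ∀ σ ∈ A.inertiaSubgroupIn ℚ, ∀ x : U, σ • x = x

/-- The standing hypotheses of Theorem G: `U` is killed by `r ^ k`, the action is smooth,
unramified outside `r N`, and "Eisenstein": `(g - 1)(g - ε(g))` is nilpotent for every `g`. -/
structure Hyp (r k N : ℕ) (U : Type) [AddCommGroup U] [DistribMulAction Gal U] : Prop where
  tors : ∀ x : U, r ^ k • x = 0
  smooth : Smooth U
  unram : ∀ ℓ : ℕ, ℓ.Prime → ℓ ≠ r → ℓ ≠ N → UnramAt ℓ U
  eis : ∀ (g : Gal) (a : ℕ), (∀ ζ : Qb, ζ ^ r ^ k = 1 → g ζ = ζ ^ a) →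
    ∃ m : ℕ, ∀ x : U, (eisOp g a)^[m] x = 0

/-- The Galois fixed elements of a subgroup `Y`. -/
def fixedIn {U : Type} [AddCommGroup U] [DistribMulAction Gal U] (Y : AddSubgroup U) : Set U :=
  {x | x ∈ Y ∧ ∀ g : Gal, g • x = x}

/-- `Y` is fixed pointwise by the inertia group of `A`. -/
def InertiaFixed (A : ValuationSubring Qb) {U : Type} [AddCommGroup U] [DistribMulAction Gal U]
    (Y : AddSubgroup U) : Prop :=
  ∀ σ ∈ A.inertiaSubgroupIn ℚ, ∀ y ∈ Y, σ • y = y

/-- A Galois module of "type `μ_r`": there is an injective equivariant character. -/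
def IsMu (U : Type) [AddCommGroup U] [DistribMulAction Gal U] : Prop :=
  ∃ χ : U → Qb, χ 0 = 1 ∧ (∀ x y, χ (x + y) = χ x * χ y) ∧ (∀ x, χ x = 1 → x = 0) ∧
    ∀ (g : Gal) (x : U), χ (g • x) = g (χ x)

/-- A Galois module with trivial action. -/
def IsTriv (U : Type) [MulAction Gal U] : Prop := ∀ (g : Gal) (x : U), g • x = x

/-- A short exact sequence of Galois modules `0 → U' → U → U'' → 0`. -/
structure IsSES {U' U U'' : Type} [AddCommGroup U'] [AddCommGroup U] [AddCommGroup U'']
    [DistribMulAction Gal U'] [DistribMulAction Gal U] [DistribMulAction Gal U'']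
    (ι : U' →+ U) (π : U →+ U'') : Prop where
  inj : Function.Injective ι
  surj : Function.Surjective π
  exact : ∀ x : U, π x = 0 ↔ ∃ x' : U', ι x' = x
  ι_equiv : ∀ (g : Gal) (x : U'), ι (g • x) = g • ι x
  π_equiv : ∀ (g : Gal) (x : U), π (g • x) = g • π x

/-- The conclusion of Theorem G for `(U, H)`. -/
def Concl {r : ℕ} (Ar AN : ValuationSubring Qb) {U : Type} [AddCommGroup U]
    [DistribMulAction Gal U] (H : Subalgebra (Rl r) (U → Qb)) : Prop :=
  ∀ Y : AddSubgroup U, InertiaFixed AN Y →
    Nat.card Y ≤ Nat.card (fixedIn Y) * Nat.card (conn Ar H)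

/-- The Galois action on a stable subgroup. -/
@[reducible] def subAction {U : Type} [AddCommGroup U] [DistribMulAction Gal U] (U' : AddSubgroup U)
    (hst : ∀ (g : Gal), ∀ x ∈ U', g • x ∈ U') : DistribMulAction Gal U' where
  smul g x := ⟨g • (x : U), hst g x x.2⟩
  one_smul x := Subtype.ext (one_smul Gal (x : U))
  mul_smul g h x := Subtype.ext (mul_smul g h (x : U))
  smul_zero g := Subtype.ext (smul_zero g)
  smul_add g x y := Subtype.ext (smul_add g (x : U) (y : U))

/-- The Galois action on the quotient by a stable subgroup. -/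
@[reducible] def quotAction {U : Type} [AddCommGroup U] [DistribMulAction Gal U] (U' : AddSubgroup U)
    (hst : ∀ (g : Gal), ∀ x ∈ U', g • x ∈ U') : DistribMulAction Gal (U ⧸ U') where
  smul g := QuotientAddGroup.map U' U' (DistribSMul.toAddMonoidHom U g) (fun x hx => hst g x hx)
  one_smul x := by
    induction x using QuotientAddGroup.induction_on with
    | H x => exact congrArg _ (one_smul Gal x)
  mul_smul g h x := by
    induction x using QuotientAddGroup.induction_on with
    | H x => exact congrArg _ (mul_smul g h x)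
  smul_zero g := map_zero (QuotientAddGroup.map U' U' (DistribSMul.toAddMonoidHom U g) _)
  smul_add g x y := map_add (QuotientAddGroup.map U' U' (DistribSMul.toAddMonoidHom U g) _) x y

theorem isSES_sub_quot {U : Type} [AddCommGroup U] [DistribMulAction Gal U] (U' : AddSubgroup U)
    (hst : ∀ (g : Gal), ∀ x ∈ U', g • x ∈ U') :
    letI := subAction U' hst
    letI := quotAction U' hst
    IsSES U'.subtype (QuotientAddGroup.mk' U') := by
  let _ := subAction U' hst
  let _ := quotAction U' hst
  refine ⟨Subtype.val_injective, QuotientAddGroup.mk'_surjective U', fun x => ?_, fun _ _ => rfl,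
    fun _ _ => rfl⟩
  rw [QuotientAddGroup.mk'_apply, QuotientAddGroup.eq_zero_iff]
  exact ⟨fun h => ⟨⟨x, h⟩, rfl⟩, by rintro ⟨x', rfl⟩; exact x'.2⟩

end Fermat.Agent.S15.HG

end
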