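/-
S15, block HG, part DUAL (Cartier duality of Hopf orders).  Owner: helper64.  Blueprint: #1380.
Definitions only (no `sorry`).

`CD U = Hom(U, ℚ̄ˣ)` written additively, with the Galois action `(σ f)(x) = σ (f (σ⁻¹ x))`.
`dualOrder H` is generated by the Fourier transforms `f ↦ ∑ₓ b x * f x` of the equivariant
`b : U → ℚ̄` with `∑ₓ b x * h x ∈ ℤ_(r)` for all `h ∈ H`.
-/
import Fermat.Agent.S15.HG.Defs

set_option autoImplicit false

noncomputable section

namespace Fermat.Agent.S15.HG

open Fermat.Agent.S19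

/-- The Cartier dual of a finite abelian group (written additively). -/
def CD (U : Type) [AddCommGroup U] : Type := Additive (AddChar U Qb)

instance (U : Type) [AddCommGroup U] : AddCommGroup (CD U) :=
  inferInstanceAs (AddCommGroup (Additive (AddChar U Qb)))

/-- Evaluation of a character. -/
def CD.ev {U : Type} [AddCommGroup U] (f : CD U) (x : U) : Qb :=
  (Additive.toMul (α := AddChar U Qb) f) x

/-- Constructor. -/
def CD.mk {U : Type} [AddCommGroup U] (f : AddChar U Qb) : CD U := Additive.ofMul f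

@[simp] theorem CD.ev_mk {U : Type} [AddCommGroup U] (f : AddChar U Qb) (x : U) :
    (CD.mk f).ev x = f x := rfl

theorem CD.ext {U : Type} [AddCommGroup U] {f g : CD U} (h : ∀ x, f.ev x = g.ev x) : f = g := by
  have : (Additive.toMul (α := AddChar U Qb) f) = Additive.toMul (α := AddChar U Qb) g :=
    DFunLike.ext _ _ h
  exact Additive.toMul.injective this

theorem CD.ev_zero {U : Type} [AddCommGroup U] (x : U) : (0 : CD U).ev x = 1 := rfl

theorem CD.ev_add {U : Type} [AddCommGroup U] (f g : CD U) (x : U) :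
    (f + g).ev x = f.ev x * g.ev x := rfl

theorem CD.ev_map_zero {U : Type} [AddCommGroup U] (f : CD U) : f.ev 0 = 1 :=
  AddChar.map_zero_eq_one _

theorem CD.ev_map_add {U : Type} [AddCommGroup U] (f : CD U) (x y : U) :
    f.ev (x + y) = f.ev x * f.ev y :=
  AddChar.map_add_eq_mul _ x y

/-- The twisted character `x ↦ σ (f (σ⁻¹ x))`. -/
def CD.twist {U : Type} [AddCommGroup U] [DistribMulAction Gal U] (σ : Gal) (f : CD U) : CD U :=
  CD.mk
    { toFun := fun x => σ (f.ev (σ⁻¹ • x))
      map_zero_eq_one' := by rw [smul_zero, CD.ev_map_zero, map_one]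
      map_add_eq_mul' := fun x y => by rw [smul_add, CD.ev_map_add, map_mul] }

theorem CD.ev_twist {U : Type} [AddCommGroup U] [DistribMulAction Gal U] (σ : Gal) (f : CD U)
    (x : U) : (CD.twist σ f).ev x = σ (f.ev (σ⁻¹ • x)) := rfl

instance (U : Type) [AddCommGroup U] [DistribMulAction Gal U] : DistribMulAction Gal (CD U) where
  smul := CD.twist
  one_smul f := CD.ext fun x => by
    show (CD.twist 1 f).ev x = f.ev x
    rw [CD.ev_twist, inv_one, one_smul]; rfl
  mul_smul σ τ f := CD.ext fun x => by
    show (CD.twist (σ * τ) f).ev x = (CD.twist σ (CD.twist τ f)).ev x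
    rw [CD.ev_twist, CD.ev_twist, CD.ev_twist, mul_inv_rev, mul_smul]; rfl
  smul_zero σ := CD.ext fun x => by
    show (CD.twist σ 0).ev x = (0 : CD U).ev x
    rw [CD.ev_twist, CD.ev_zero, CD.ev_zero, map_one]
  smul_add σ f g := CD.ext fun x => by
    show (CD.twist σ (f + g)).ev x = (CD.twist σ f + CD.twist σ g).ev x
    rw [CD.ev_twist, CD.ev_add, CD.ev_add, CD.ev_twist, CD.ev_twist, map_mul]

theorem CD.ev_smul {U : Type} [AddCommGroup U] [DistribMulAction Gal U] (σ : Gal) (f : CD U)
    (x : U) : (σ • f).ev x = σ (f.ev (σ⁻¹ • x)) := rfl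

/-- The pairing of a function with an element of the group algebra. -/
def pair {U : Type} (h b : U → Qb) : Qb := ∑ᶠ x, b x * h x

/-- The Fourier transform of an element of the group algebra. -/
def fourier {U : Type} [AddCommGroup U] (b : U → Qb) : CD U → Qb := fun f => ∑ᶠ x, b x * f.ev x

/-- The dual lattice of `H` inside the group algebra. -/
def dualLattice {r : ℕ} {U : Type} [AddCommGroup U] [DistribMulAction Gal U]
    (H : Subalgebra (Rl r) (U → Qb)) : Set (U → Qb) :=
  {b | (∀ (σ : Gal) (x : U), b (σ • x) = σ (b x)) ∧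
    ∀ h ∈ H, ∃ c : Rl r, pair h b = algebraMap (Rl r) Qb c}

/-- The dual order. -/
def dualOrder {r : ℕ} {U : Type} [AddCommGroup U] [DistribMulAction Gal U]
    (H : Subalgebra (Rl r) (U → Qb)) : Subalgebra (Rl r) (CD U → Qb) :=
  Algebra.adjoin (Rl r) (fourier '' dualLattice H)

/-- Restriction of characters along `ι`. -/
def CD.res {U' U : Type} [AddCommGroup U'] [AddCommGroup U] (ι : U' →+ U) : CD U →+ CD U' where
  toFun f := CD.mk
    { toFun := fun x => f.ev (ι x)
      map_zero_eq_one' := by rw [map_zero, CD.ev_map_zero]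
      map_add_eq_mul' := fun x y => by rw [map_add, CD.ev_map_add] }
  map_zero' := CD.ext fun _ => rfl
  map_add' _ _ := CD.ext fun _ => rfl

theorem CD.ev_res {U' U : Type} [AddCommGroup U'] [AddCommGroup U] (ι : U' →+ U) (f : CD U)
    (x : U') : (CD.res ι f).ev x = f.ev (ι x) := rfl

end Fermat.Agent.S15.HG

end
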