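/-
S15, block HG.  Owner: helper64.  Blueprint: report #1380.

The nodes of Theorem G as `Prop`-valued definitions (no `sorry`): each leaf proves
`theorem xxx : XxxStatement` in its own file, the assembly files take the statements they use as
hypotheses, `HG/Final.lean` discharges everything.

Notation of the blueprint: `r` prime, `A` (or `Ar`) a valuation ring of `ℚ̄` over `r`, `AN` one over
the prime `N ≠ r`, `H` a Hopf order on the finite Galois module `U`, `U⁰ = conn A H`.
-/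
import Fermat.Agent.S15.HG.Defs

set_option autoImplicit false

namespace Fermat.Agent.S15.HG

open Fermat.Agent.S19

/-! ### O: orders -/

/-- O1: the restriction of a Hopf order to a submodule is a Hopf order (explicit form of the landed
`S19.HasHopfOrder.of_injective`; same proof). -/
def ResStatement : Prop :=
  ∀ (r : ℕ) [Fact r.Prime] (M' M : Type) [AddCommGroup M'] [AddCommGroup M] [Finite M]
    [DistribMulAction Gal M'] [DistribMulAction Gal M] (φ : M' →+ M),
    Function.Injective φ → (∀ (σ : Gal) (x : M'), φ (σ • x) = σ • φ x) →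
    ∀ H : Subalgebra (Rl r) (M → Qb), IsHopfOrder r H → IsHopfOrder r (resOrder φ H)

/-- O2: the quotient order is a Hopf order (explicit form of the landed
`S19.HasHopfOrder.of_surjective`; same proof, see `S19.ClosureQuot.of_surjective_aux`). -/
def QuotStatement : Prop :=
  ∀ (r : ℕ) [Fact r.Prime] (M M'' : Type) [AddCommGroup M] [AddCommGroup M''] [Finite M]
    [DistribMulAction Gal M] [DistribMulAction Gal M''] (φ : M →+ M''),
    Function.Surjective φ → (∀ (σ : Gal) (x : M), φ (σ • x) = σ • φ x) →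
    ∀ H : Subalgebra (Rl r) (M → Qb), IsHopfOrder r H → IsHopfOrder r (quotOrder φ H)

/-- O3: the values of the elements of a Hopf order lie in `A`. -/
def ValStatement : Prop :=
  ∀ (r : ℕ) [Fact r.Prime] (A : ValuationSubring Qb), A.LiesOverPrime r →
    ∀ (M : Type) [AddCommGroup M] [Finite M] [DistribMulAction Gal M]
      (H : Subalgebra (Rl r) (M → Qb)), IsHopfOrder r H → ∀ h ∈ H, ∀ x : M, h x ∈ A

/-- O4: `(x, x') ↦ h (x' - x)` lies in `H ⊗ H` (comultiplication and antipode). -/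
def SubStatement : Prop :=
  ∀ (r : ℕ) [Fact r.Prime] (M : Type) [AddCommGroup M] [Finite M] [DistribMulAction Gal M]
    (H : Subalgebra (Rl r) (M → Qb)), IsHopfOrder r H → ∀ h ∈ H,
      (fun q : M × M => h (q.2 - q.1)) ∈ Submodule.span (Rl r) (prodFun H H)

/-- O5: `A·H` is stable under products and translations. -/
def AspanStatement : Prop :=
  ∀ (r : ℕ) [Fact r.Prime] (A : ValuationSubring Qb), A.LiesOverPrime r →
    ∀ (M : Type) [AddCommGroup M] [Finite M] [DistribMulAction Gal M]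
      (H : Subalgebra (Rl r) (M → Qb)), IsHopfOrder r H →
      (∀ f ∈ aspan A H, ∀ f' ∈ aspan A H, f * f' ∈ aspan A H) ∧
      (∀ c ∈ A, (fun _ : M => c) ∈ aspan A H) ∧
      (∀ f ∈ aspan A H, ∀ y : M, (fun x => f (x + y)) ∈ aspan A H) ∧
      (∀ f ∈ aspan A H, ∀ x : M, f x ∈ A)

/-! ### C: the connected part -/

/-- C1: `U⁰` is a subgroup and its cosets are the classes of `x ∼ y ↔ ∀ h ∈ H, h x ≡ h y`. -/
def ConnSubStatement : Prop :=
  ∀ (r : ℕ) [Fact r.Prime] (A : ValuationSubring Qb), A.LiesOverPrime r →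
    ∀ (M : Type) [AddCommGroup M] [Finite M] [DistribMulAction Gal M]
      (H : Subalgebra (Rl r) (M → Qb)), IsHopfOrder r H →
      (∃ C : AddSubgroup M, (C : Set M) = conn A H) ∧
      ∀ x y : M, x - y ∈ conn A H ↔ ∀ h ∈ H, h x - h y ∈ A.nonunits

/-- C2 (= L2): inertia at `A` moves points inside their `U⁰`-coset. -/
def InertiaConnStatement : Prop :=
  ∀ (r : ℕ) [Fact r.Prime] (A : ValuationSubring Qb), A.LiesOverPrime r →
    ∀ (M : Type) [AddCommGroup M] [Finite M] [DistribMulAction Gal M]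
      (H : Subalgebra (Rl r) (M → Qb)), IsHopfOrder r H →
      ∀ σ ∈ A.inertiaSubgroupIn ℚ, ∀ x : M, σ • x - x ∈ conn A H

/-- I1: the indicator function of `U⁰` lies in `A·H`.
(`g_x = (h_x - h_x 0)/(h_x x - h_x 0)` for `x ∉ U⁰`; `e₀ = ∏_{x ∉ U⁰} (1 - g_x)` vanishes outside `U⁰`
and is `≡ 1` on `U⁰`; `P = ∏_{y ∈ U⁰} (T - e₀ y)`; the indicator is `1 - P(e₀)/P(0)`.) -/
def IndicatorStatement : Prop :=
  ∀ (r : ℕ) [Fact r.Prime] (A : ValuationSubring Qb), A.LiesOverPrime r →
    ∀ (M : Type) [AddCommGroup M] [Finite M] [DistribMulAction Gal M]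
      (H : Subalgebra (Rl r) (M → Qb)), IsHopfOrder r H →
      ∃ f ∈ aspan A H, (∀ x ∈ conn A H, f x = 1) ∧ ∀ x, x ∉ conn A H → f x = 0

/-- S1 (saturation): a function in `A·H` which factors through `φ` comes from `A·H''`. -/
def SaturationStatement : Prop :=
  ∀ (r : ℕ) [Fact r.Prime] (A : ValuationSubring Qb), A.LiesOverPrime r →
    ∀ (M M'' : Type) [AddCommGroup M] [AddCommGroup M''] [Finite M]
      [DistribMulAction Gal M] [DistribMulAction Gal M''] (φ : M →+ M''),
      Function.Surjective φ → (∀ (σ : Gal) (x : M), φ (σ • x) = σ • φ x) →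
      ∀ H : Subalgebra (Rl r) (M → Qb), IsHopfOrder r H →
        ∀ f : M'' → Qb, (fun x => f (φ x)) ∈ aspan A H → f ∈ aspan A (quotOrder φ H)

/-- L1: `U''⁰ = π (U⁰)`. -/
def L1Statement : Prop :=
  ∀ (r : ℕ) [Fact r.Prime] (A : ValuationSubring Qb), A.LiesOverPrime r →
    ∀ (M M'' : Type) [AddCommGroup M] [AddCommGroup M''] [Finite M]
      [DistribMulAction Gal M] [DistribMulAction Gal M''] (φ : M →+ M''),
      Function.Surjective φ → (∀ (σ : Gal) (x : M), φ (σ • x) = σ • φ x) →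
      ∀ H : Subalgebra (Rl r) (M → Qb), IsHopfOrder r H →
        conn A (quotOrder φ H) = φ '' conn A H

/-- L1c: `|U⁰| = |U'⁰| |U''⁰|` for the induced orders. -/
def CardConnStatement : Prop :=
  ∀ (r : ℕ) [Fact r.Prime] (A : ValuationSubring Qb), A.LiesOverPrime r →
    ∀ (U' U U'' : Type) [AddCommGroup U'] [AddCommGroup U] [AddCommGroup U''] [Finite U]
      [DistribMulAction Gal U'] [DistribMulAction Gal U] [DistribMulAction Gal U'']
      (ι : U' →+ U) (π : U →+ U''), IsSES ι π →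
      ∀ H : Subalgebra (Rl r) (U → Qb), IsHopfOrder r H →
        Nat.card (conn A H) = Nat.card (conn A (resOrder ι H)) * Nat.card (conn A (quotOrder π H))

/-! ### L3, L4, L5 and the arithmetic of `ℚ` -/

/-- L3: an equivariant character lies in every Hopf order. -/
def L3Statement : Prop :=
  ∀ (r : ℕ) [Fact r.Prime] (M : Type) [AddCommGroup M] [Finite M] [DistribMulAction Gal M]
    (H : Subalgebra (Rl r) (M → Qb)), IsHopfOrder r H →
    ∀ χ : M → Qb, χ 0 = 1 → (∀ x y, χ (x + y) = χ x * χ y) →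
      (∀ (g : Gal) (x : M), χ (g • x) = g (χ x)) → χ ∈ H

/-- L4: for `r` odd a Hopf order on the trivial module of order `r` is étale. -/
def L4Statement : Prop :=
  ∀ (r : ℕ) [Fact r.Prime], r ≠ 2 → ∀ (A : ValuationSubring Qb), A.LiesOverPrime r →
    ∀ (M : Type) [AddCommGroup M] [Finite M] [DistribMulAction Gal M], Nat.card M = r → IsTriv M →
      ∀ H : Subalgebra (Rl r) (M → Qb), IsHopfOrder r H → conn A H = {0}

/-- RAM: for `r` odd a Hopf order on a module of type `μ_r` is connected. -/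
def RamStatement : Prop :=
  ∀ (r : ℕ) [Fact r.Prime], r ≠ 2 → ∀ (A : ValuationSubring Qb), A.LiesOverPrime r →
    ∀ (M : Type) [AddCommGroup M] [Finite M] [DistribMulAction Gal M], Nat.card M = r → IsMu M →
      ∀ H : Subalgebra (Rl r) (M → Qb), IsHopfOrder r H → conn A H = Set.univ

/-- L5 (peu ramifié): `U' ≤ U` stable of order `r`, `h ∈ H` restricting to an injective character of
`U'`, `x₀` a point whose class modulo `U'` is Galois fixed, `θ` a Kummer generator of the cocycle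
`g ↦ h (g x₀ - x₀)`.  Then the valuation of `θ` is an integral power of that of `r`. -/
def L5Statement : Prop :=
  ∀ (r : ℕ) [Fact r.Prime] (A : ValuationSubring Qb), A.LiesOverPrime r →
    ∀ (U : Type) [AddCommGroup U] [Finite U] [DistribMulAction Gal U]
      (H : Subalgebra (Rl r) (U → Qb)), IsHopfOrder r H →
      ∀ U' : AddSubgroup U, Nat.card U' = r → (∀ (g : Gal), ∀ x ∈ U', g • x ∈ U') →
      ∀ h ∈ H, (∀ x ∈ U', ∀ y ∈ U', h (x + y) = h x * h y) → (∀ x ∈ U', h x = 1 → x = 0) →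
      ∀ x₀ : U, (∀ g : Gal, g • x₀ - x₀ ∈ U') →
      ∀ θ : Qb, θ ≠ 0 → (∀ g : Gal, g θ = h (g • x₀ - x₀) * θ) →
        ∃ k : ℤ, A.valuation θ = A.valuation (r : Qb) ^ k

/-- K1: an element of `ℚ̄ˣ` fixed by the inertia group of `A` (over `ℓ`) has the valuation of a power
of `ℓ` (immediate from the landed `Lib.InertiaField.exists_zpow_mul_unit`). -/
def UnramValStatement : Prop :=
  ∀ (ℓ : ℕ), ℓ.Prime → ∀ (A : ValuationSubring Qb), A.LiesOverPrime ℓ →
    ∀ θ : Qb, θ ≠ 0 → (∀ σ ∈ A.inertiaSubgroupIn ℚ, σ θ = θ) →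
      ∃ k : ℤ, A.valuation θ = A.valuation (ℓ : Qb) ^ k

/-- K2: if `θ ^ r ∈ ℚ` and at every prime `ℓ` the valuation of `θ` is an integral power of that of
`ℓ`, then `θ ^ r = ± t₁ ^ r` with `t₁ ∈ ℚˣ`. -/
def KummerQStatement : Prop :=
  ∀ (r : ℕ), r.Prime → ∀ θ : Qb, θ ≠ 0 → (∀ g : Gal, g (θ ^ r) = θ ^ r) →
    (∀ ℓ : ℕ, ℓ.Prime → ∃ A : ValuationSubring Qb, A.LiesOverPrime ℓ ∧
      ∃ k : ℤ, A.valuation θ = A.valuation (ℓ : Qb) ^ k) →
    ∃ t₁ : ℚ, t₁ ≠ 0 ∧ (θ ^ r = algebraMap ℚ Qb t₁ ^ r ∨ θ ^ r = - algebraMap ℚ Qb t₁ ^ r)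

/-- K3 (Hilbert 90 for `μ`-valued cocycles of finite level; from the landed
`S36.Desc.hilbert90_finite_level`). -/
def H90Statement : Prop :=
  ∀ (c : Gal → Qb), (∀ g, c g ≠ 0) → (∀ g g' : Gal, c (g * g') = g (c g') * c g) →
    (∃ F : IntermediateField ℚ Qb, FiniteDimensional ℚ F ∧ ∀ σ ∈ F.fixingSubgroup, c σ = 1) →
    ∃ θ : Qb, θ ≠ 0 ∧ ∀ g : Gal, g θ = c g * θ

/-- K4 (Minkowski): a homomorphism of finite level from `Gal` to an additive group which kills, for
every prime, the inertia group of some valuation ring over it, is zero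
(from the landed `S13.Minkowski.eq_top_of_inertia_le`). -/
def MinkowskiStatement : Prop :=
  ∀ (Z : Type) [AddCommGroup Z] (ξ : Gal → Z), (∀ g g' : Gal, ξ (g * g') = ξ g + ξ g') →
    (∃ F : IntermediateField ℚ Qb, FiniteDimensional ℚ F ∧ ∀ σ ∈ F.fixingSubgroup, ξ σ = 0) →
    (∀ ℓ : ℕ, ℓ.Prime → ∃ A : ValuationSubring Qb, A.LiesOverPrime ℓ ∧
      ∀ σ ∈ A.inertiaSubgroupIn ℚ, ξ σ = 0) →
    ∀ g, ξ g = 0

/-! ### Simple submodules -/

/-- E1: a nonzero module satisfying `Hyp` contains a stable subgroup of order `r` which is trivial or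
of type `μ_r`. -/
def SimpleStatement : Prop :=
  ∀ (r : ℕ) [Fact r.Prime] (k N : ℕ) (U : Type) [AddCommGroup U] [Finite U]
    [DistribMulAction Gal U], Hyp r k N U → Nontrivial U →
    ∃ (U' : AddSubgroup U) (hst : ∀ (g : Gal), ∀ x ∈ U', g • x ∈ U'), Nat.card U' = r ∧
      (letI := subAction U' hst; IsTriv U' ∨ IsMu U')

/-- E2: `Hyp` passes to quotients. -/
def HypQuotStatement : Prop :=
  ∀ (r k N : ℕ) (U U'' : Type) [AddCommGroup U] [AddCommGroup U'']
    [DistribMulAction Gal U] [DistribMulAction Gal U''] (π : U →+ U''),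
    Function.Surjective π → (∀ (g : Gal) (x : U), π (g • x) = g • π x) →
    Hyp r k N U → Hyp r k N U''

/-- E3: `Hyp` passes to submodules. -/
def HypSubStatement : Prop :=
  ∀ (r k N : ℕ) (U' U : Type) [AddCommGroup U'] [AddCommGroup U]
    [DistribMulAction Gal U'] [DistribMulAction Gal U] (ι : U' →+ U),
    Function.Injective ι → (∀ (g : Gal) (x : U'), ι (g • x) = g • ι x) →
    Hyp r k N U → Hyp r k N U'

/-! ### The induction step -/

/-- The inequality `(*)` of the induction step: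
`|U''^G ∩ π Y| · |Y ∩ U'| ≤ |U^G ∩ Y| · |U'⁰|`. -/
def StepIneq {r : ℕ} (Ar : ValuationSubring Qb) {U' U U'' : Type} [AddCommGroup U'] [AddCommGroup U]
    [AddCommGroup U''] [DistribMulAction Gal U'] [DistribMulAction Gal U]
    [DistribMulAction Gal U''] (ι : U' →+ U) (π : U →+ U'') (H : Subalgebra (Rl r) (U → Qb))
    (Y : AddSubgroup U) : Prop :=
  Nat.card (fixedIn (Y.map π)) * Nat.card (Y.comap ι) ≤
    Nat.card (fixedIn Y) * Nat.card (conn Ar (resOrder ι H))

/-- ST1: the étale case (`U'⁰ = 0`, trivial action on `U'`). -/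
def StepEtaleStatement : Prop :=
  ∀ (r : ℕ) [Fact r.Prime] (k N : ℕ), N.Prime → N ≠ r →
    ∀ (Ar AN : ValuationSubring Qb), Ar.LiesOverPrime r → AN.LiesOverPrime N →
    ∀ (U' U U'' : Type) [AddCommGroup U'] [AddCommGroup U] [AddCommGroup U''] [Finite U]
      [DistribMulAction Gal U'] [DistribMulAction Gal U] [DistribMulAction Gal U'']
      (ι : U' →+ U) (π : U →+ U''), IsSES ι π → Hyp r k N U →
      ∀ H : Subalgebra (Rl r) (U → Qb), IsHopfOrder r H →
      IsTriv U' → conn Ar (resOrder ι H) = {0} →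
      ∀ Y : AddSubgroup U, InertiaFixed AN Y → StepIneq Ar ι π H Y

/-- ST2: the connected case (`U' ≅ μ_r` of order `r`, `U'⁰ = U'`), all `r`. -/
def StepMuStatement : Prop :=
  ∀ (r : ℕ) [Fact r.Prime] (k N : ℕ), N.Prime → N ≠ r →
    ∀ (Ar AN : ValuationSubring Qb), Ar.LiesOverPrime r → AN.LiesOverPrime N →
    ∀ (U' U U'' : Type) [AddCommGroup U'] [AddCommGroup U] [AddCommGroup U''] [Finite U]
      [DistribMulAction Gal U'] [DistribMulAction Gal U] [DistribMulAction Gal U'']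
      (ι : U' →+ U) (π : U →+ U''), IsSES ι π → Hyp r k N U →
      ∀ H : Subalgebra (Rl r) (U → Qb), IsHopfOrder r H →
      Nat.card U' = r → IsMu U' → conn Ar (resOrder ι H) = Set.univ →
      ∀ Y : AddSubgroup U, InertiaFixed AN Y → StepIneq Ar ι π H Y

/-- ST3: the induction step. -/
def StepStatement : Prop :=
  ∀ (r : ℕ) [Fact r.Prime] (k N : ℕ), N.Prime → N ≠ r →
    ∀ (Ar AN : ValuationSubring Qb), Ar.LiesOverPrime r → AN.LiesOverPrime N →
    ∀ (U' U U'' : Type) [AddCommGroup U'] [AddCommGroup U] [AddCommGroup U''] [Finite U]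
      [DistribMulAction Gal U'] [DistribMulAction Gal U] [DistribMulAction Gal U'']
      (ι : U' →+ U) (π : U →+ U''), IsSES ι π → Hyp r k N U →
      ∀ H : Subalgebra (Rl r) (U → Qb), IsHopfOrder r H →
      Nat.card U' = r → (IsTriv U' ∨ IsMu U') →
      Concl Ar AN (quotOrder π H) → Concl Ar AN H

/-- **Theorem G.** -/
def TheoremG : Prop :=
  ∀ (r : ℕ) [Fact r.Prime] (k N : ℕ), N.Prime → N ≠ r →
    ∀ (Ar AN : ValuationSubring Qb), Ar.LiesOverPrime r → AN.LiesOverPrime N →
    ∀ (U : Type) [AddCommGroup U] [Finite U] [DistribMulAction Gal U], Hyp r k N U →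
      ∀ H : Subalgebra (Rl r) (U → Qb), IsHopfOrder r H → Concl Ar AN H

end Fermat.Agent.S15.HG
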