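/-
S15, block HG, second half: duality, tame inertia, the chain inequality.  Owner: helper64.
Blueprint: report #1380.  `Prop`-valued node statements only (no `sorry`).
-/
import Fermat.Agent.S15.HG.Statements
import Fermat.Agent.S15.HG.DualDefs

set_option autoImplicit false

namespace Fermat.Agent.S15.HG

open Fermat.Agent.S19

/-! ### D: Cartier duality of Hopf orders -/

/-- D0: the dual order is exactly the set of Fourier transforms of the dual lattice (the latter is
closed under convolution because `H` is closed under comultiplication). -/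
def DualMemStatement : Prop :=
  ∀ (r : ℕ) [Fact r.Prime] (U : Type) [AddCommGroup U] [Finite U] [DistribMulAction Gal U]
    (H : Subalgebra (Rl r) (U → Qb)), IsHopfOrder r H →
    ∀ F : CD U → Qb, F ∈ dualOrder H ↔ ∃ b ∈ dualLattice H, F = fourier b

/-- D1: the dual order is a Hopf order on the Cartier dual. -/
def DualHopfStatement : Prop :=
  ∀ (r : ℕ) [Fact r.Prime] (U : Type) [AddCommGroup U] [Finite U] [DistribMulAction Gal U]
    (H : Subalgebra (Rl r) (U → Qb)), IsHopfOrder r H → IsHopfOrder r (dualOrder H)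

/-- D2a: the dual of a short exact sequence is a short exact sequence; `CD U` is finite of the same
cardinality as `U`. -/
def DualSESStatement : Prop :=
  ∀ (U' U U'' : Type) [AddCommGroup U'] [AddCommGroup U] [AddCommGroup U''] [Finite U]
    [DistribMulAction Gal U'] [DistribMulAction Gal U] [DistribMulAction Gal U'']
    (ι : U' →+ U) (π : U →+ U''), IsSES ι π →
    IsSES (CD.res π) (CD.res ι) ∧ Finite (CD U) ∧ Nat.card (CD U) = Nat.card U

/-- D2b: compatibility of duality with induced orders (only the two inclusions which are needed). -/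
def DualOrderLeStatement : Prop :=
  ∀ (r : ℕ) [Fact r.Prime] (U' U U'' : Type) [AddCommGroup U'] [AddCommGroup U] [AddCommGroup U'']
    [Finite U] [DistribMulAction Gal U'] [DistribMulAction Gal U] [DistribMulAction Gal U'']
    (ι : U' →+ U) (π : U →+ U''), IsSES ι π →
    ∀ H : Subalgebra (Rl r) (U → Qb), IsHopfOrder r H →
      dualOrder (quotOrder π H) ≤ resOrder (CD.res π) (dualOrder H) ∧
      dualOrder (resOrder ι H) ≤ quotOrder (CD.res ι) (dualOrder H)

/-- D3: the dual of a connected order on a module of order `r` (trivial or of type `μ_r`) is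
étale. -/
def DualSimpleStatement : Prop :=
  ∀ (r : ℕ) [Fact r.Prime] (A : ValuationSubring Qb), A.LiesOverPrime r →
    ∀ (U : Type) [AddCommGroup U] [Finite U] [DistribMulAction Gal U], Nat.card U = r →
      (IsTriv U ∨ IsMu U) → ∀ H : Subalgebra (Rl r) (U → Qb), IsHopfOrder r H →
      conn A H = Set.univ → conn A (dualOrder H) = {0}

/-- D4: `|(U^D)⁰| |U⁰| ≤ |U|` for Eisenstein modules. -/
def DualConnStatement : Prop :=
  ∀ (r : ℕ) [Fact r.Prime] (k N : ℕ) (A : ValuationSubring Qb), A.LiesOverPrime r →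
    ∀ (U : Type) [AddCommGroup U] [Finite U] [DistribMulAction Gal U], Hyp r k N U →
      ∀ H : Subalgebra (Rl r) (U → Qb), IsHopfOrder r H →
        Nat.card (conn A (dualOrder H)) * Nat.card (conn A H) ≤ Nat.card U

/-- D5: `Hyp` passes to the Cartier dual. -/
def HypDualStatement : Prop :=
  ∀ (r : ℕ) [Fact r.Prime] (k N : ℕ) (U : Type) [AddCommGroup U] [Finite U]
    [DistribMulAction Gal U], Hyp r k N U → Hyp r k N (CD U)

/-! ### T: tame inertia -/

/-- T1: if every element of the inertia group at `N` acts on the finite set `U` with order prime to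
`N`, the image of inertia in the permutations of `U` is cyclic. -/
def TameStatement : Prop :=
  ∀ (N : ℕ), N.Prime → ∀ (A : ValuationSubring Qb), A.LiesOverPrime N →
    ∀ (U : Type) [Finite U] [MulAction Gal U], Smooth U →
      (∀ τ ∈ A.inertiaSubgroupIn ℚ, ∃ m : ℕ, ¬ N ∣ m ∧ ∀ x : U, τ ^ m • x = x) →
      ∃ τ₀ ∈ A.inertiaSubgroupIn ℚ, ∀ τ ∈ A.inertiaSubgroupIn ℚ,
        ∃ j : ℕ, ∀ x : U, τ • x = τ₀ ^ j • x

/-! ### L6 and the chain -/

open Classical in
/-- L6: one can adjoin to a Hopf order the indicator functions of the fibres of an invariant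
homomorphism. -/
def L6Statement : Prop :=
  ∀ (r : ℕ) [Fact r.Prime] (E Z : Type) [AddCommGroup E] [Finite E] [DistribMulAction Gal E]
    [AddCommGroup Z] (lam : E →+ Z), (∀ (g : Gal) (x : E), lam (g • x) = lam x) →
    HasHopfOrder r E →
    ∃ H : Subalgebra (Rl r) (E → Qb), IsHopfOrder r H ∧
      ∀ z : Z, (fun x => if lam x = z then (1 : Qb) else 0) ∈ H

/-- The local count at `N`: `n |V| ≤ |E^{I_N}| · |(V^D)^{I_N}|`. -/
def LocalNStatement : Prop :=
  ∀ (r : ℕ) [Fact r.Prime] (k N : ℕ), N.Prime → N ≠ r →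
    ∀ (AN : ValuationSubring Qb), AN.LiesOverPrime N →
    ∀ (V E : Type) [AddCommGroup V] [AddCommGroup E] [Finite E]
      [DistribMulAction Gal V] [DistribMulAction Gal E] (n : ℕ) [NeZero n]
      (ι : V →+ E) (lam : E →+ ZMod n),
      Function.Injective ι → Function.Surjective lam → (∀ x : E, lam x = 0 ↔ ∃ v : V, ι v = x) →
      (∀ (g : Gal) (v : V), ι (g • v) = g • ι v) → (∀ (g : Gal) (x : E), lam (g • x) = lam x) →
      (∀ x : E, r ^ k • x = 0) → Smooth E →
      (∀ τ ∈ AN.inertiaSubgroupIn ℚ, ∀ x : E, τ • τ • x - 2 • τ • x + x = 0) →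
      n * Nat.card V ≤
        Nat.card {x : E // ∀ τ ∈ AN.inertiaSubgroupIn ℚ, τ • x = x} *
          Nat.card {f : CD V // ∀ τ ∈ AN.inertiaSubgroupIn ℚ, τ • f = f}

/-- **The chain inequality** `n ≤ |E^G| · |Hom_G(V, μ)|`. -/
def ChainStatement : Prop :=
  ∀ (r : ℕ) [Fact r.Prime] (k N : ℕ), N.Prime → N ≠ r →
    ∀ (Ar AN : ValuationSubring Qb), Ar.LiesOverPrime r → AN.LiesOverPrime N →
    ∀ (V E : Type) [AddCommGroup V] [AddCommGroup E] [Finite E]
      [DistribMulAction Gal V] [DistribMulAction Gal E] (n : ℕ) [NeZero n]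
      (ι : V →+ E) (lam : E →+ ZMod n),
      Function.Injective ι → Function.Surjective lam → (∀ x : E, lam x = 0 ↔ ∃ v : V, ι v = x) →
      (∀ (g : Gal) (v : V), ι (g • v) = g • ι v) → (∀ (g : Gal) (x : E), lam (g • x) = lam x) →
      Hyp r k N E → HasHopfOrder r E →
      (∀ τ ∈ AN.inertiaSubgroupIn ℚ, ∀ x : E, τ • τ • x - 2 • τ • x + x = 0) →
      n ≤ Nat.card {x : E // ∀ g : Gal, g • x = x} * Nat.card {f : CD V // ∀ g : Gal, g • f = f}

end Fermat.Agent.S15.HG
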