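/-
S15, block HG, node D2a (helper82): the Cartier dual of a short exact sequence of finite Galois modules
is a short exact sequence, and `CD U` is finite of the same cardinality as `U`.
-/
import Fermat.Agent.S15.HG.Statements2
import Mathlib.GroupTheory.FiniteAbelian.Duality
import Mathlib.RingTheory.RootsOfUnity.AlgebraicallyClosed

set_option autoImplicit false

noncomputable section

namespace Fermat.Agent.S15.HG

open Fermat.Agent.S19

/-- characters as homomorphisms to the units. -/
def dualSESStatement_equiv (U : Type) [AddCommGroup U] : CD U ≃ (Multiplicative U →* Qbˣ) :=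
  (Additive.toMul (α := AddChar U Qb)).trans
    (AddChar.toMonoidHomEquiv.trans MonoidHom.toHomUnitsMulEquiv.toEquiv)

theorem dualSESStatement_equiv_apply (U : Type) [AddCommGroup U] (f : CD U) (x : U) :
    ((dualSESStatement_equiv U f (Multiplicative.ofAdd x) : Qbˣ) : Qb) = f.ev x := rfl

theorem dualSESStatement_enough (U : Type) [AddCommGroup U] [Finite U] :
    HasEnoughRootsOfUnity Qb (Monoid.exponent (Multiplicative U)) := by
  have h0 : Monoid.exponent (Multiplicative U) ≠ 0 := Monoid.exponent_ne_zero_of_finite
  have : NeZero ((Monoid.exponent (Multiplicative U) : ℕ) : ℚ) := ⟨by exact_mod_cast h0⟩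
  exact AlgebraicClosure.hasEnoughRootsOfUnity ℚ _

theorem dualSESStatement_finite (U : Type) [AddCommGroup U] [Finite U] : Finite (CD U) := by
  have := dualSESStatement_enough U
  obtain ⟨e⟩ := CommGroup.monoidHom_mulEquiv_of_hasEnoughRootsOfUnity (Multiplicative U) Qb
  exact Finite.of_equiv _ ((dualSESStatement_equiv U).trans e.toEquiv).symm

theorem dualSESStatement_card (U : Type) [AddCommGroup U] [Finite U] :
    Nat.card (CD U) = Nat.card U := by
  have := dualSESStatement_enough U
  rw [Nat.card_congr (dualSESStatement_equiv U),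
    CommGroup.card_monoidHom_of_hasEnoughRootsOfUnity (Multiplicative U) Qb]
  exact Nat.card_congr Multiplicative.toAdd

/-- extension of characters. -/
theorem dualSESStatement_res_surjective {U' U : Type} [AddCommGroup U'] [AddCommGroup U] [Finite U]
    (ι : U' →+ U) (hι : Function.Injective ι) : Function.Surjective (CD.res ι) := by
  intro g
  have := dualSESStatement_enough U
  let j : Multiplicative U' →* Multiplicative U := AddMonoidHom.toMultiplicative ι
  have hj : Function.Injective j := fun a b hab => hι hab
  let φ : j.range →* Qbˣ :=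
    (dualSESStatement_equiv U' g).comp (MonoidHom.ofInjective hj).symm.toMonoidHom
  obtain ⟨Φ, hΦ⟩ := MonoidHom.domRestrict_surjective (M := Qb) j.range φ
  refine ⟨(dualSESStatement_equiv U).symm Φ, CD.ext fun x => ?_⟩
  rw [CD.ev_res, ← dualSESStatement_equiv_apply, Equiv.apply_symm_apply,
    ← dualSESStatement_equiv_apply]
  have h1 := DFunLike.congr_fun hΦ (MonoidHom.ofInjective hj (Multiplicative.ofAdd x))
  have h2 : φ (MonoidHom.ofInjective hj (Multiplicative.ofAdd x)) =
      dualSESStatement_equiv U' g (Multiplicative.ofAdd x) := by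
    show dualSESStatement_equiv U' g ((MonoidHom.ofInjective hj).symm
      (MonoidHom.ofInjective hj (Multiplicative.ofAdd x))) = _
    rw [MulEquiv.symm_apply_apply]
  rw [h2] at h1
  rw [← h1]
  rfl

/-- a character which is trivial on the kernel of `π` factors through `π`. -/
theorem dualSESStatement_factor {U U'' : Type} [AddCommGroup U] [AddCommGroup U'']
    (π : U →+ U'') (hπ : Function.Surjective π) (f : CD U)
    (hf : ∀ x, π x = 0 → f.ev x = 1) : ∃ g : CD U'', CD.res π g = f := by
  have key : ∀ a b : U, π a = π b → f.ev a = f.ev b := by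
    intro a b hab
    have h1 : f.ev (a - b) = 1 := hf _ (by rw [map_sub, hab, sub_self])
    have h2 : a = (a - b) + b := by abel
    rw [h2, CD.ev_map_add, h1, one_mul]
  refine ⟨CD.mk
    { toFun := fun y => f.ev (Function.surjInv hπ y)
      map_zero_eq_one' := hf _ (Function.surjInv_eq hπ 0)
      map_add_eq_mul' := fun y y' => by
        rw [← CD.ev_map_add]
        refine key _ _ ?_
        rw [map_add, Function.surjInv_eq hπ, Function.surjInv_eq hπ, Function.surjInv_eq hπ] },
    CD.ext fun x => ?_⟩
  rw [CD.ev_res, CD.ev_mk]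
  exact key _ _ (Function.surjInv_eq hπ _)

theorem dualSESStatement_res_equiv {U' U : Type} [AddCommGroup U'] [AddCommGroup U]
    [DistribMulAction Gal U'] [DistribMulAction Gal U] (ι : U' →+ U)
    (hι : ∀ (g : Gal) (x : U'), ι (g • x) = g • ι x) (σ : Gal) (f : CD U) :
    CD.res ι (σ • f) = σ • CD.res ι f :=
  CD.ext fun x => by
    rw [CD.ev_res, CD.ev_smul, CD.ev_smul, CD.ev_res, hι]

/-- D2a -/
theorem dualSESStatement : DualSESStatement := by
  intro U' U U'' _ _ _ _ _ _ _ ι π h
  refine ⟨⟨?_, dualSESStatement_res_surjective ι h.inj, fun f => ⟨fun hf => ?_, ?_⟩,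
    dualSESStatement_res_equiv π h.π_equiv, dualSESStatement_res_equiv ι h.ι_equiv⟩,
    dualSESStatement_finite U, dualSESStatement_card U⟩
  · intro g g' hgg
    refine CD.ext fun y => ?_
    obtain ⟨x, rfl⟩ := h.surj y
    rw [← CD.ev_res, hgg, CD.ev_res]
  · refine dualSESStatement_factor π h.surj f fun x hx => ?_
    obtain ⟨x', rfl⟩ := (h.exact x).1 hx
    rw [← CD.ev_res, hf, CD.ev_zero]
  · rintro ⟨g, rfl⟩
    refine CD.ext fun x => ?_
    rw [CD.ev_res, CD.ev_res, (h.exact (ι x)).2 ⟨x, rfl⟩, CD.ev_map_zero, CD.ev_zero]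

end Fermat.Agent.S15.HG

end
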