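/-
S15, block HG, node D5 (task HG-D5, helper198): the standing hypotheses `Hyp` pass to the Cartier
dual.
-/
import Fermat.Agent.S15.HG.Statements2
import Fermat.Agent.Lib.InertiaField.Hensel

set_option autoImplicit false

noncomputable section

namespace Fermat.Agent.S15.HG

open Fermat.Agent.S19

theorem hypDualStatement_isIntegral (a : Qb) : IsIntegral ℚ a := by
  have h : (DivisionRing.toRatAlgebra : Algebra ℚ (AlgebraicClosure ℚ)) =
      AlgebraicClosure.instAlgebra ℚ := Subsingleton.elim _ _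
  have h2 : @IsIntegral ℚ Qb _ _ (AlgebraicClosure.instAlgebra ℚ) a :=
    (AlgebraicClosure.isAlgebraic ℚ).isAlgebraic a |>.isIntegral
  convert h2

theorem hypDualStatement_ev_ne_zero {U : Type} [AddCommGroup U] (f : CD U) (x : U) :
    f.ev x ≠ 0 := by
  intro h0
  have h1 : f.ev (x + -x) = 1 := by rw [add_neg_cancel, CD.ev_map_zero]
  rw [CD.ev_map_add, h0, zero_mul] at h1
  exact zero_ne_one h1

theorem hypDualStatement_ev_map_neg {U : Type} [AddCommGroup U] (f : CD U) (x : U) :
    f.ev (-x) = (f.ev x)⁻¹ := by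
  have h1 : f.ev (x + -x) = 1 := by rw [add_neg_cancel, CD.ev_map_zero]
  rw [CD.ev_map_add] at h1
  exact eq_inv_of_mul_eq_one_right h1

theorem hypDualStatement_ev_map_sub {U : Type} [AddCommGroup U] (f : CD U) (x y : U) :
    f.ev (x - y) = f.ev x / f.ev y := by
  rw [sub_eq_add_neg, CD.ev_map_add, hypDualStatement_ev_map_neg, div_eq_mul_inv]

theorem hypDualStatement_ev_map_nsmul {U : Type} [AddCommGroup U] (f : CD U) (n : ℕ) (x : U) :
    f.ev (n • x) = f.ev x ^ n := by
  induction n with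
  | zero => rw [zero_smul, CD.ev_map_zero, pow_zero]
  | succ n ih => rw [succ_nsmul, CD.ev_map_add, ih, pow_succ]

theorem hypDualStatement_ev_neg {U : Type} [AddCommGroup U] (f : CD U) (x : U) :
    (-f).ev x = (f.ev x)⁻¹ := by
  have h1 : (f + -f).ev x = 1 := by rw [add_neg_cancel, CD.ev_zero]
  rw [CD.ev_add] at h1
  exact eq_inv_of_mul_eq_one_right h1

theorem hypDualStatement_ev_sub {U : Type} [AddCommGroup U] (f f' : CD U) (x : U) :
    (f - f').ev x = f.ev x / f'.ev x := by
  rw [sub_eq_add_neg, CD.ev_add, hypDualStatement_ev_neg, div_eq_mul_inv]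

theorem hypDualStatement_ev_nsmul {U : Type} [AddCommGroup U] (f : CD U) (n : ℕ) (x : U) :
    (n • f).ev x = f.ev x ^ n := by
  induction n with
  | zero => rw [zero_smul, CD.ev_zero, pow_zero]
  | succ n ih => rw [succ_nsmul, CD.ev_add, ih, pow_succ]

/-- the operator on `U` which is adjoint to `eisOp g a` on `CD U` -/
def hypDualStatement_S {U : Type} [AddCommGroup U] [DistribMulAction Gal U] (g : Gal) (a : ℕ)
    (x : U) : U := a • g⁻¹ • g⁻¹ • x

theorem hypDualStatement_commute {U : Type} [AddCommGroup U] [DistribMulAction Gal U] (g : Gal)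
    (a : ℕ) : Function.Commute (hypDualStatement_S (U := U) g a) (eisOp g a) := by
  intro x
  unfold hypDualStatement_S eisOp
  simp only [smul_add, smul_sub, smul_comm g (_ : ℕ) (_ : U), smul_comm g⁻¹ (_ : ℕ) (_ : U),
    smul_inv_smul, inv_smul_smul]
  simp only [smul_comm a (a + 1) (_ : U)]

theorem hypDualStatement_adj {U : Type} [AddCommGroup U] [DistribMulAction Gal U] (g : Gal)
    (a : ℕ) (hga : ∀ (f : CD U) (x : U), g (f.ev x) = f.ev x ^ a) (f : CD U) (x : U) :
    (eisOp g a f).ev x = f.ev (hypDualStatement_S g a (eisOp g a x)) := by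
  have h1 : ∀ (f : CD U) (x : U), (g • f).ev x = f.ev (g⁻¹ • x) ^ a := fun f x => by
    rw [CD.ev_smul, hga]
  unfold hypDualStatement_S eisOp
  rw [CD.ev_add, hypDualStatement_ev_sub, hypDualStatement_ev_nsmul, hypDualStatement_ev_nsmul,
    h1, h1, h1, hypDualStatement_ev_map_nsmul]
  have h2 : g⁻¹ • g⁻¹ • (g • g • x - (a + 1) • g • x + a • x) =
      x - (a + 1) • g⁻¹ • x + a • g⁻¹ • g⁻¹ • x := by
    simp only [smul_add, smul_sub, smul_comm g⁻¹ (_ : ℕ) (_ : U), inv_smul_smul]
  rw [h2, CD.ev_map_add, hypDualStatement_ev_map_sub, hypDualStatement_ev_map_nsmul,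
    hypDualStatement_ev_map_nsmul, mul_pow, div_pow]
  ring

theorem hypDualStatement_adj_iterate {U : Type} [AddCommGroup U] [DistribMulAction Gal U] (g : Gal)
    (a : ℕ) (hga : ∀ (f : CD U) (x : U), g (f.ev x) = f.ev x ^ a) (m : ℕ) (f : CD U) (x : U) :
    ((eisOp g a)^[m] f).ev x = f.ev ((hypDualStatement_S g a ∘ eisOp g a)^[m] x) := by
  induction m generalizing f x with
  | zero => rfl
  | succ m ih =>
    rw [Function.iterate_succ_apply, ih, hypDualStatement_adj g a hga,
      Function.iterate_succ_apply']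
    rfl

theorem hypDualStatement : HypDualStatement := by
  intro r _ k N U _ _ _ h
  have hr : r.Prime := Fact.out
  have hpow : ∀ (f : CD U) (x : U), f.ev x ^ r ^ k = 1 := fun f x => by
    rw [← hypDualStatement_ev_map_nsmul, h.tors, CD.ev_map_zero]
  refine ⟨fun f => CD.ext fun x => ?_, fun f => ?_, fun ℓ hℓ h1 h2 => ?_, fun g a hg => ?_⟩
  · rw [hypDualStatement_ev_nsmul, hpow, CD.ev_zero]
  · choose F hF hx using h.smooth
    have : Fintype U := Fintype.ofFinite U
    have hFd : ∀ x, FiniteDimensional ℚ (F x) := hF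
    have hAd : ∀ x : U, FiniteDimensional ℚ (IntermediateField.adjoin ℚ {f.ev x}) := fun x =>
      IntermediateField.adjoin.finiteDimensional (hypDualStatement_isIntegral (f.ev x))
    have hsup : ∀ x : U, FiniteDimensional ℚ
        (F x ⊔ IntermediateField.adjoin ℚ {f.ev x} : IntermediateField ℚ Qb) := fun x =>
      IntermediateField.finiteDimensional_sup _ _
    refine ⟨⨆ x : U, (F x ⊔ IntermediateField.adjoin ℚ {f.ev x}),
      IntermediateField.finiteDimensional_iSup_of_finite, fun σ hσ => CD.ext fun x => ?_⟩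
    have hle : (F x ⊔ IntermediateField.adjoin ℚ {f.ev x} : IntermediateField ℚ Qb) ≤
        ⨆ x : U, (F x ⊔ IntermediateField.adjoin ℚ {f.ev x}) :=
      le_iSup (fun x : U => (F x ⊔ IntermediateField.adjoin ℚ {f.ev x} : IntermediateField ℚ Qb)) x
    have hσ' := (IntermediateField.mem_fixingSubgroup_iff _ σ).1 hσ
    have hσx : σ • x = x := hx x σ ((IntermediateField.mem_fixingSubgroup_iff _ σ).2
      fun y hy => hσ' y (hle (le_sup_left (a := F x) hy)))
    have hσx' : σ⁻¹ • x = x := by
      conv_lhs => rw [← hσx]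
      rw [inv_smul_smul]
    rw [CD.ev_smul, hσx']
    exact hσ' _ (hle (le_sup_right (a := F x)
      (IntermediateField.mem_adjoin_simple_self ℚ (f.ev x))))
  · obtain ⟨A, hA, hx⟩ := h.unram ℓ hℓ h1 h2
    refine ⟨A, hA, fun σ hσ f => CD.ext fun x => ?_⟩
    have hσx' : σ⁻¹ • x = x := by
      conv_lhs => rw [← hx σ hσ x]
      rw [inv_smul_smul]
    rw [CD.ev_smul, hσx']
    have hnd : ¬ ℓ ∣ r ^ k := fun hd => h1 ((Nat.prime_dvd_prime_iff_eq hℓ hr).1
      (hℓ.dvd_of_dvd_pow hd))
    exact (Fermat.Agent.Lib.InertiaField.mem_K0_iff A _).1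
      (Fermat.Agent.Lib.InertiaField.rootOfUnity_mem_K0 A ℓ hℓ hA hnd (hpow f x)) σ hσ
  · obtain ⟨m, hm⟩ := h.eis g a hg
    refine ⟨m, fun f => CD.ext fun x => ?_⟩
    rw [hypDualStatement_adj_iterate g a (fun f x => hg _ (hpow f x)),
      (hypDualStatement_commute g a).comp_iterate, Function.comp_apply, hm, CD.ev_zero]
    have h0 : hypDualStatement_S g a (0 : U) = 0 := by
      unfold hypDualStatement_S
      rw [smul_zero, smul_zero, smul_zero]
    rw [Function.iterate_fixed h0, CD.ev_map_zero]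

end Fermat.Agent.S15.HG

end
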