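/-
S15, block HG, node O5 (task HG-O5, helper157): `A·H` is stable under products and translations.
-/
import Fermat.Agent.S15.HG.Statements
import Fermat.Agent.S19.BaseRing

set_option autoImplicit false

noncomputable section

namespace Fermat.Agent.S15.HG

open Fermat.Agent.S19

private theorem aspanStatement_mul {r : ℕ} (A : ValuationSubring Qb) {M : Type}
    (H : Subalgebra (Rl r) (M → Qb)) :
    ∀ f ∈ aspan A H, ∀ f' ∈ aspan A H, f * f' ∈ aspan A H := by
  intro f hf f' hf'
  unfold aspan at *
  induction hf using Submodule.span_induction with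
  | mem h hh =>
    induction hf' using Submodule.span_induction with
    | mem h' hh' => exact Submodule.subset_span (H.mul_mem hh hh')
    | zero => rw [mul_zero]; exact zero_mem _
    | add a b _ _ ha hb => rw [mul_add]; exact add_mem ha hb
    | smul c a _ ha => rw [mul_smul_comm]; exact Submodule.smul_mem _ c ha
  | zero => rw [zero_mul]; exact zero_mem _
  | add a b _ _ ha hb => rw [add_mul]; exact add_mem ha hb
  | smul c a _ ha => rw [smul_mul_assoc]; exact Submodule.smul_mem _ c ha

private theorem aspanStatement_const {r : ℕ} (A : ValuationSubring Qb) {M : Type}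
    (H : Subalgebra (Rl r) (M → Qb)) : ∀ c ∈ A, (fun _ : M => c) ∈ aspan A H := by
  intro c hc
  have e : (fun _ : M => c) = (⟨c, hc⟩ : A) • (1 : M → Qb) := by
    funext x
    show c = c * 1
    rw [mul_one]
  rw [e]
  exact Submodule.smul_mem _ _ (Submodule.subset_span H.one_mem)

/-- freezing the second variable of an element of `H ⊗ H` -/
private theorem aspanStatement_freeze {r : ℕ} (A : ValuationSubring Qb) (hA : A.LiesOverPrime r)
    {M : Type} (H : Subalgebra (Rl r) (M → Qb)) (hval : ∀ h ∈ H, ∀ x : M, h x ∈ A) (y : M)
    {F : M × M → Qb} (hF : F ∈ Submodule.span (Rl r) (prodFun H H)) :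
    (fun x => F (x, y)) ∈ aspan A H := by
  induction hF using Submodule.span_induction with
  | mem F hF =>
    obtain ⟨a, ha, b, hb, rfl⟩ := hF
    have e : (fun x => a x * b y) = (⟨b y, hval b hb y⟩ : A) • a := by
      funext x
      exact mul_comm _ _
    show (fun x => a x * b y) ∈ aspan A H
    rw [e]
    exact Submodule.smul_mem _ _ (Submodule.subset_span ha)
  | zero => exact zero_mem (aspan A H)
  | add F G _ _ hF hG => exact add_mem hF hG
  | smul c F _ hF =>
    have e : (fun x => (c • F) (x, y)) =
        (⟨algebraMap (Rl r) Qb c, BaseRing.algebraMap_mem A hA c⟩ : A) • (fun x => F (x, y)) := by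
      funext x
      show c • F (x, y) = algebraMap (Rl r) Qb c * F (x, y)
      rw [Algebra.smul_def]
    rw [e]
    exact Submodule.smul_mem _ _ hF

theorem aspanStatement (hV : ValStatement) : AspanStatement := by
  intro r _ A hA M _ _ _ H hH
  have hval : ∀ h ∈ H, ∀ x : M, h x ∈ A := hV r A hA M H hH
  refine ⟨aspanStatement_mul A H, aspanStatement_const A H, ?_, ?_⟩
  · intro f hf y
    induction hf using Submodule.span_induction with
    | mem h hh => exact aspanStatement_freeze A hA H hval y (hH.comul h hh)
    | zero => exact zero_mem (aspan A H)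
    | add a b _ _ ha hb => exact add_mem ha hb
    | smul c a _ ha => exact Submodule.smul_mem _ c ha
  · intro f hf x
    induction hf using Submodule.span_induction with
    | mem h hh => exact hval h hh x
    | zero => exact zero_mem A
    | add a b _ _ ha hb => exact add_mem ha hb
    | smul c a _ ha => exact mul_mem c.2 ha

end Fermat.Agent.S15.HG

end
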