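/-
S15, block HG, node L1c (task HG-L1c, helper252): `|U⁰| = |U'⁰| |U''⁰|` for the induced orders.
-/
import Fermat.Agent.S15.HG.Statements

set_option autoImplicit false

namespace Fermat.Agent.S15.HG

open Fermat.Agent.S19

/-- `U'⁰ = ι⁻¹ (U⁰)` for the restricted order. -/
theorem cardConnStatement_conn_resOrder {r : ℕ} (A : ValuationSubring Qb) {U' U : Type}
    [AddCommGroup U'] [AddCommGroup U] (ι : U' →+ U) (H : Subalgebra (Rl r) (U → Qb)) :
    conn A (resOrder ι H) = ι ⁻¹' conn A H := by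
  ext x
  constructor
  · intro hx h hh
    have := hx (fun y => h (ι y)) ((mem_resOrder ι H _).2 ⟨h, hh, rfl⟩)
    simpa only [map_zero] using this
  · intro hx f hf
    obtain ⟨h, hh, rfl⟩ := (mem_resOrder ι H f).1 hf
    have := hx h hh
    simpa only [map_zero] using this

/-- the counting lemma: `|C| = |ι⁻¹ C| |π C|` for a short exact sequence. -/
theorem cardConnStatement_card {U' U U'' : Type} [AddCommGroup U'] [AddCommGroup U]
    [AddCommGroup U''] (ι : U' →+ U) (π : U →+ U'') (hinj : Function.Injective ι)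
    (hex : ∀ x : U, π x = 0 ↔ ∃ x' : U', ι x' = x) (C : AddSubgroup U) :
    Nat.card (C : Set U) = Nat.card (ι ⁻¹' (C : Set U)) * Nat.card (π '' (C : Set U)) := by
  set φ : C →+ U'' := π.comp C.subtype with hφ
  have h1 : Nat.card φ.ker * Nat.card φ.range = Nat.card C := by
    rw [← AddSubgroup.index_ker]
    exact AddSubgroup.card_mul_index _
  have h2 : Nat.card (ι ⁻¹' (C : Set U)) = Nat.card φ.ker := by
    refine Nat.card_congr (Equiv.ofBijective
      (fun x => ⟨⟨ι x.1, x.2⟩, (AddMonoidHom.mem_ker).2 ((hex _).2 ⟨x.1, rfl⟩)⟩) ⟨?_, ?_⟩)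
    · intro x y hxy
      have : ι x.1 = ι y.1 := congrArg (fun z : φ.ker => ((z : C) : U)) hxy
      exact Subtype.ext (hinj this)
    · rintro ⟨⟨y, hy⟩, hker⟩
      obtain ⟨x', rfl⟩ := (hex y).1 ((AddMonoidHom.mem_ker).1 hker)
      exact ⟨⟨x', hy⟩, rfl⟩
  have h3 : Nat.card (π '' (C : Set U)) = Nat.card φ.range := by
    refine Nat.card_congr (Equiv.setCongr ?_)
    ext z
    constructor
    · rintro ⟨y, hy, rfl⟩
      exact ⟨⟨y, hy⟩, rfl⟩
    · rintro ⟨⟨y, hy⟩, rfl⟩
      exact ⟨y, hy, rfl⟩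
  rw [h2, h3, h1]
  rfl

theorem cardConnStatement (hL1 : L1Statement) (hC : ConnSubStatement) : CardConnStatement := by
  intro r _ A hA U' U U'' _ _ _ _ _ _ _ ι π hS H hH
  obtain ⟨C, hCeq⟩ := (hC r A hA U H hH).1
  rw [cardConnStatement_conn_resOrder, hL1 r A hA U U'' π hS.surj hS.π_equiv H hH, ← hCeq]
  exact cardConnStatement_card ι π hS.inj hS.exact C

end Fermat.Agent.S15.HG
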