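/-
S15, block HG (blueprint helper64, report #1380), node CH: the chain inequality
`n ≤ |E^G| · |Hom_G(V, μ)|`.
-/
import Fermat.Agent.S15.HG.Statements2

set_option autoImplicit false

namespace Fermat.Agent.S15.HG

open Fermat.Agent.S19

/-- The elements fixed by the inertia group of `A`. -/
private def chainFix (A : ValuationSubring Qb) (U : Type) [AddCommGroup U]
    [DistribMulAction Gal U] : AddSubgroup U where
  carrier := {x | ∀ τ ∈ A.inertiaSubgroupIn ℚ, τ • x = x}
  zero_mem' := fun τ _ => smul_zero τ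
  add_mem' := fun {a b} ha hb τ hτ => by rw [smul_add, ha τ hτ, hb τ hτ]
  neg_mem' := fun {a} ha τ hτ => by rw [smul_neg, ha τ hτ]

/-- Theorem G for the subgroup of all inertia invariants. -/
private theorem chain_concl {r : ℕ} (Ar AN : ValuationSubring Qb) {U : Type} [AddCommGroup U]
    [Finite U] [DistribMulAction Gal U] (H : Subalgebra (Rl r) (U → Qb)) (h : Concl Ar AN H) :
    Nat.card {x : U // ∀ τ ∈ AN.inertiaSubgroupIn ℚ, τ • x = x} ≤
      Nat.card {x : U // ∀ g : Gal, g • x = x} * Nat.card (conn Ar H) := by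
  have h1 := h (chainFix AN U) (fun σ hσ y hy => hy σ hσ)
  have h2 : Nat.card (fixedIn (chainFix AN U)) ≤ Nat.card {x : U // ∀ g : Gal, g • x = x} :=
    Nat.card_le_card_of_injective
      (fun x : fixedIn (chainFix AN U) => (⟨x.1, x.2.2⟩ : {x : U // ∀ g : Gal, g • x = x}))
      (fun x y hxy => Subtype.ext (congrArg
        (Subtype.val : {x : U // ∀ g : Gal, g • x = x} → U) hxy))
  exact h1.trans (Nat.mul_le_mul_right _ h2)

/-- The connected part of the restricted order. -/
private theorem chain_mem_conn_res {r : ℕ} (A : ValuationSubring Qb) {V E : Type} [AddCommGroup V]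
    [AddCommGroup E] (ι : V →+ E) (H : Subalgebra (Rl r) (E → Qb)) (v : V) :
    v ∈ conn A (resOrder ι H) ↔ ι v ∈ conn A H := by
  constructor
  · intro hv h hh
    have := hv (fun x => h (ι x)) ((mem_resOrder ι H _).2 ⟨h, hh, rfl⟩)
    simpa only [map_zero] using this
  · intro hv f hf
    obtain ⟨h, hh, rfl⟩ := (mem_resOrder ι H f).1 hf
    have := hv h hh
    simpa only [map_zero] using this

theorem chainStatement (hG : TheoremG) (hL6 : L6Statement) (hRes : ResStatement)
    (hHS : HypSubStatement) (hHD : HypDualStatement) (hD1 : DualHopfStatement)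
    (hD4 : DualConnStatement) (hLN : LocalNStatement) (hSES : DualSESStatement) :
    ChainStatement := by
  intro r _ k N hN hNr Ar AN hAr hAN V E _ _ _ _ _ n _ ι lam hinj hsurj hex hι hlam hyp hHopf huni
  have hfinV : Finite V := Finite.of_injective ι hinj
  obtain ⟨H, hH, hind⟩ := hL6 r E (ZMod n) lam hlam hHopf
  -- the connected part lies in the image of `ι`
  have hker : ∀ x ∈ conn Ar H, lam x = 0 := by
    intro x hx
    by_contra hne
    have h1 := hx _ (hind 0)
    simp only [map_zero, if_true, if_neg hne] at h1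
    rw [ValuationSubring.mem_nonunits_iff, zero_sub, Valuation.map_neg, map_one] at h1
    exact lt_irrefl _ h1
  have hcard : Nat.card (conn Ar (resOrder ι H)) = Nat.card (conn Ar H) := by
    refine Nat.card_congr (Equiv.ofBijective
      (fun v : conn Ar (resOrder ι H) =>
        (⟨ι v.1, (chain_mem_conn_res Ar ι H v.1).1 v.2⟩ : conn Ar H)) ⟨?_, ?_⟩)
    · intro v w hvw
      exact Subtype.ext (hinj (congrArg Subtype.val hvw))
    · rintro ⟨x, hx⟩
      obtain ⟨v, rfl⟩ := (hex x).1 (hker x hx)
      exact ⟨⟨v, (chain_mem_conn_res Ar ι H v).2 hx⟩, rfl⟩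
  -- (i)
  have h1 := chain_concl Ar AN H (hG r k N hN hNr Ar AN hAr hAN E hyp H hH)
  -- (ii)
  have hHV : IsHopfOrder r (resOrder ι H) := hRes r V E ι hinj hι H hH
  have hypV : Hyp r k N V := hHS r k N V E ι hinj hι hyp
  have hypD : Hyp r k N (CD V) := hHD r k N V hypV
  have hfinD : Finite (CD V) := by
    have hst : ∀ (g : Gal), ∀ x ∈ (⊥ : AddSubgroup V), g • x ∈ (⊥ : AddSubgroup V) := by
      intro g x hx
      rw [AddSubgroup.mem_bot] at hx ⊢
      rw [hx, smul_zero]
    letI := subAction (⊥ : AddSubgroup V) hst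
    letI := quotAction (⊥ : AddSubgroup V) hst
    exact (hSES _ V _ _ _ (isSES_sub_quot (⊥ : AddSubgroup V) hst)).2.1
  have h2 := chain_concl Ar AN (dualOrder (resOrder ι H))
    (hG r k N hN hNr Ar AN hAr hAN (CD V) hypD _ (hD1 r V _ hHV))
  -- (iii)
  have h3 := hD4 r k N Ar hAr V hypV _ hHV
  rw [hcard] at h3
  -- (iv)
  have h4 := hLN r k N hN hNr AN hAN V E n ι lam hinj hsurj hex hι hlam hyp.tors hyp.smooth huni
  -- conclusion
  have hVpos : 0 < Nat.card V := Nat.card_pos
  refine Nat.le_of_mul_le_mul_right ?_ hVpos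
  calc n * Nat.card V
      ≤ Nat.card {x : E // ∀ τ ∈ AN.inertiaSubgroupIn ℚ, τ • x = x} *
          Nat.card {f : CD V // ∀ τ ∈ AN.inertiaSubgroupIn ℚ, τ • f = f} := h4
    _ ≤ (Nat.card {x : E // ∀ g : Gal, g • x = x} * Nat.card (conn Ar H)) *
          (Nat.card {f : CD V // ∀ g : Gal, g • f = f} *
            Nat.card (conn Ar (dualOrder (resOrder ι H)))) := Nat.mul_le_mul h1 h2
    _ = (Nat.card {x : E // ∀ g : Gal, g • x = x} * Nat.card {f : CD V // ∀ g : Gal, g • f = f}) *
          (Nat.card (conn Ar (dualOrder (resOrder ι H))) * Nat.card (conn Ar H)) := by ring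
    _ ≤ (Nat.card {x : E // ∀ g : Gal, g • x = x} * Nat.card {f : CD V // ∀ g : Gal, g • f = f}) *
          Nat.card V := Nat.mul_le_mul_left _ h3

end Fermat.Agent.S15.HG
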