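/-
S15, block HG, node C1: the connected part `U⁰ = conn A H` is a subgroup and its cosets are the
classes of `x ∼ y ↔ ∀ h ∈ H, h x ≡ h y`.    Proofs: helper168.
-/
import Fermat.Agent.S15.HG.Statements

set_option autoImplicit false

namespace Fermat.Agent.S15.HG

open Fermat.Agent.S19

private theorem connSub_add {A : ValuationSubring Qb} {x y : Qb} (hx : x ∈ A.nonunits)
    (hy : y ∈ A.nonunits) : x + y ∈ A.nonunits := by
  rw [ValuationSubring.mem_nonunits_iff] at hx hy ⊢
  exact A.valuation.map_add_lt hx hy

private theorem connSub_zero {A : ValuationSubring Qb} : (0 : Qb) ∈ A.nonunits := by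
  rw [ValuationSubring.mem_nonunits_iff, map_zero]
  exact zero_lt_one

private theorem connSub_mul {A : ValuationSubring Qb} {x y : Qb} (hx : x ∈ A.nonunits)
    (hy : y ∈ A) : x * y ∈ A.nonunits := by
  rw [ValuationSubring.mem_nonunits_iff] at hx ⊢
  rw [← A.valuation_le_one_iff] at hy
  rw [map_mul]
  exact (mul_le_of_le_one_right' hy).trans_lt hx

/-- KEY: a function in `H ⊗ H` is constant modulo `𝔪` on the classes of `∼`. -/
private theorem connSub_key {r : ℕ} {A : ValuationSubring Qb} {M : Type}
    {H : Subalgebra (Rl r) (M → Qb)} (hval : ∀ h ∈ H, ∀ x : M, h x ∈ A) [Nonempty M]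
    {F : M × M → Qb} (hF : F ∈ Submodule.span (Rl r) (prodFun H H)) {x x' y y' : M}
    (hx : ∀ h ∈ H, h x - h x' ∈ A.nonunits) (hy : ∀ h ∈ H, h y - h y' ∈ A.nonunits) :
    F (x, y) - F (x', y') ∈ A.nonunits := by
  induction hF using Submodule.span_induction with
  | mem F hF =>
    obtain ⟨a, ha, b, hb, rfl⟩ := hF
    have e : a x * b y - a x' * b y' = (a x - a x') * b y + (b y - b y') * a x' := by ring
    show a x * b y - a x' * b y' ∈ A.nonunits
    rw [e]
    exact connSub_add (connSub_mul (hx a ha) (hval b hb y)) (connSub_mul (hy b hb) (hval a ha x'))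
  | zero =>
    show (0 : Qb) - 0 ∈ A.nonunits
    rw [sub_zero]
    exact connSub_zero
  | add F G _ _ hF hG =>
    have e : (F + G) (x, y) - (F + G) (x', y') =
        (F (x, y) - F (x', y')) + (G (x, y) - G (x', y')) := by
      simp only [Pi.add_apply]; ring
    rw [e]
    exact connSub_add hF hG
  | smul c F _ hF =>
    have hc : algebraMap (Rl r) Qb c ∈ A :=
      hval _ (H.algebraMap_mem c) (Classical.arbitrary M)
    have e : (c • F) (x, y) - (c • F) (x', y') =
        (F (x, y) - F (x', y')) * algebraMap (Rl r) Qb c := by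
      simp only [Pi.smul_apply, Algebra.smul_def]; ring
    rw [e]
    exact connSub_mul hF hc

theorem connSubStatement (hV : ValStatement) (hS : SubStatement) : ConnSubStatement := by
  intro r _ A hA M _ _ _ H hH
  have hval : ∀ h ∈ H, ∀ x : M, h x ∈ A := hV r A hA M H hH
  have hrefl : ∀ z : M, ∀ h ∈ H, h z - h z ∈ A.nonunits := by
    intro z h _
    rw [sub_self]
    exact connSub_zero
  have hzero : (0 : M) ∈ conn A H := hrefl 0
  have hadd : ∀ {x y : M}, x ∈ conn A H → y ∈ conn A H → x + y ∈ conn A H := by
    intro x y hx hy h hh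
    have := connSub_key hval (hH.comul h hh) (x := x) (x' := 0) (y := y) (y' := 0) hx hy
    simpa using this
  have hneg : ∀ {x : M}, x ∈ conn A H → -x ∈ conn A H := by
    intro x hx h hh
    have := connSub_key hval (hS r M H hH h hh) (x := x) (x' := 0) (y := 0) (y' := 0) hx (hrefl 0)
    simpa using this
  refine ⟨⟨{ carrier := conn A H, zero_mem' := hzero, add_mem' := hadd, neg_mem' := hneg }, rfl⟩,
    ?_⟩
  · intro x y
    constructor
    · intro hxy h hh
      have := connSub_key hval (hH.comul h hh) (x := x - y) (x' := 0) (y := y) (y' := y) hxy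
        (hrefl y)
      simpa using this
    · intro hxy h hh
      have := connSub_key hval (hS r M H hH h hh) (x := y) (x' := y) (y := x) (y' := y) (hrefl y)
        hxy
      simpa using this

end Fermat.Agent.S15.HG
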