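/-
S15, block HG, node D4: `|(U^D)⁰| |U⁰| ≤ |U|` for Eisenstein modules.  (helper218; task 2539.)

Strong induction on `|U|`: split off a simple submodule `U'` of order `r`, use multiplicativity of
`|conn|` in short exact sequences for `H` and for `dualOrder H`, the two inclusions of D2b together with
the antitonicity of `conn`, the induction hypothesis for `U ⧸ U'` and D3 for `U'`.
-/
import Fermat.Agent.S15.HG.Statements2

set_option autoImplicit false

namespace Fermat.Agent.S15.HG

open Fermat.Agent.S19

/-- `conn` is antitone in the order. -/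
private theorem dualConnStatement_conn_anti {r : ℕ} (A : ValuationSubring Qb) {M : Type}
    [AddCommGroup M] {H₁ H₂ : Subalgebra (Rl r) (M → Qb)} (h : H₁ ≤ H₂) :
    conn A H₂ ⊆ conn A H₁ :=
  fun _ hx f hf => hx f (h hf)

private theorem dualConnStatement_card_anti {r : ℕ} (A : ValuationSubring Qb) {M : Type}
    [AddCommGroup M] [Finite M] {H₁ H₂ : Subalgebra (Rl r) (M → Qb)} (h : H₁ ≤ H₂) :
    Nat.card (conn A H₂) ≤ Nat.card (conn A H₁) :=
  Nat.card_mono (Set.toFinite _) (dualConnStatement_conn_anti A h)

private theorem dualConnStatement_card_le {r : ℕ} (A : ValuationSubring Qb) {M : Type}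
    [AddCommGroup M] [Finite M] (H : Subalgebra (Rl r) (M → Qb)) :
    Nat.card (conn A H) ≤ Nat.card M :=
  Nat.card_le_card_of_injective _ Subtype.val_injective

/-- The cardinality (and finiteness) of the Cartier dual, extracted from D2a. -/
private theorem dualConnStatement_card_CD (hSES : DualSESStatement) (U : Type) [AddCommGroup U]
    [Finite U] [DistribMulAction Gal U] : Finite (CD U) ∧ Nat.card (CD U) = Nat.card U := by
  have hst : ∀ (g : Gal), ∀ x ∈ (⊥ : AddSubgroup U), g • x ∈ (⊥ : AddSubgroup U) := by
    intro g x hx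
    rw [AddSubgroup.mem_bot] at hx ⊢
    rw [hx, smul_zero]
  let _ := subAction (⊥ : AddSubgroup U) hst
  let _ := quotAction (⊥ : AddSubgroup U) hst
  exact (hSES _ U _ _ _ (isSES_sub_quot (⊥ : AddSubgroup U) hst)).2

/-- The case of a module of order `r`. -/
private theorem dualConnStatement_simple (hSES : DualSESStatement) (hD3 : DualSimpleStatement)
    (hC : ConnSubStatement) (r : ℕ) [Fact r.Prime] (A : ValuationSubring Qb)
    (hA : A.LiesOverPrime r) (U : Type) [AddCommGroup U] [Finite U] [DistribMulAction Gal U]
    (hcard : Nat.card U = r) (hty : IsTriv U ∨ IsMu U) (H : Subalgebra (Rl r) (U → Qb))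
    (hH : IsHopfOrder r H) :
    Nat.card (conn A (dualOrder H)) * Nat.card (conn A H) ≤ Nat.card U := by
  obtain ⟨hfin, hcd⟩ := dualConnStatement_card_CD hSES U
  obtain ⟨⟨C, hCeq⟩, -⟩ := hC r A hA U H hH
  have hp : (Nat.card U).Prime := hcard ▸ (Fact.out : r.Prime)
  rcases AddSubgroup.eq_bot_or_eq_top_of_prime_card C (hp := ⟨hp⟩) with hbot | htop
  · have h1 : Nat.card (conn A H) = 1 := by
      rw [← hCeq, hbot]
      exact Nat.card_eq_one_iff_unique.2 ⟨inferInstanceAs (Subsingleton (⊥ : AddSubgroup U)),
        ⟨0⟩⟩
    rw [h1, mul_one, ← hcd]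
    exact dualConnStatement_card_le A _
  · have huniv : conn A H = Set.univ := by
      rw [← hCeq, htop]; rfl
    have h0 := hD3 r A hA U hcard hty H hH huniv
    rw [h0, huniv, Nat.card_coe_set_eq, Nat.card_coe_set_eq, Set.ncard_singleton, one_mul,
      Set.ncard_univ]

private theorem dualConnStatement_aux (hSimple : SimpleStatement) (hCard : CardConnStatement)
    (hHQ : HypQuotStatement) (hQ : QuotStatement) (hRes : ResStatement)
    (hD1 : DualHopfStatement) (hSES : DualSESStatement) (hLe : DualOrderLeStatement)
    (hD3 : DualSimpleStatement) (hC : ConnSubStatement)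
    (r : ℕ) [Fact r.Prime] (k N : ℕ) (A : ValuationSubring Qb) (hA : A.LiesOverPrime r) :
    ∀ (n : ℕ) (U : Type) [AddCommGroup U] [Finite U] [DistribMulAction Gal U],
      Nat.card U = n → Hyp r k N U → ∀ H : Subalgebra (Rl r) (U → Qb), IsHopfOrder r H →
        Nat.card (conn A (dualOrder H)) * Nat.card (conn A H) ≤ Nat.card U := by
  intro n
  induction n using Nat.strong_induction_on with
  | _ n ih =>
    intro U _ _ _ hn hyp H hH
    rcases subsingleton_or_nontrivial U with hsub | hnt
    · -- trivial module
      obtain ⟨hfin, hcd⟩ := dualConnStatement_card_CD hSES U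
      have h1 : Nat.card U = 1 := Nat.card_of_subsingleton 0
      have ha : Nat.card (conn A (dualOrder H)) ≤ 1 := by
        have := dualConnStatement_card_le A (dualOrder H)
        rwa [hcd, h1] at this
      have hb : Nat.card (conn A H) ≤ 1 := by
        have := dualConnStatement_card_le A H
        rwa [h1] at this
      rw [h1]
      calc _ ≤ 1 * 1 := Nat.mul_le_mul ha hb
        _ = 1 := one_mul 1
    · obtain ⟨U', hst, hcard', hty⟩ := hSimple r k N U hyp hnt
      let _ := subAction U' hst
      let _ := quotAction U' hst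
      have ses : IsSES U'.subtype (QuotientAddGroup.mk' U') := isSES_sub_quot U' hst
      have hcU : Nat.card U = Nat.card (U ⧸ U') * Nat.card U' :=
        AddSubgroup.card_eq_card_quotient_mul_card_addSubgroup U'
      have hr2 : 2 ≤ r := (Fact.out : r.Prime).two_le
      have hpos : 0 < Nat.card (U ⧸ U') := Nat.card_pos
      have hlt : Nat.card (U ⧸ U') < n := by
        rw [← hn, hcU, hcard']
        nlinarith
      -- the induced orders
      have hH' : IsHopfOrder r (resOrder U'.subtype H) :=
        hRes r U' U U'.subtype ses.inj ses.ι_equiv H hH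
      have hH'' : IsHopfOrder r (quotOrder (QuotientAddGroup.mk' U') H) :=
        hQ r U (U ⧸ U') (QuotientAddGroup.mk' U') ses.surj ses.π_equiv H hH
      have hyp'' : Hyp r k N (U ⧸ U') :=
        hHQ r k N U (U ⧸ U') (QuotientAddGroup.mk' U') ses.surj ses.π_equiv hyp
      have ih'' := ih _ hlt (U ⧸ U') rfl hyp'' _ hH''
      have ih' := dualConnStatement_simple hSES hD3 hC r A hA U' hcard' hty _ hH'
      -- multiplicativity
      have hm := hCard r A hA U' U (U ⧸ U') U'.subtype (QuotientAddGroup.mk' U') ses H hH
      obtain ⟨sesD, hfinD, -⟩ := hSES U' U (U ⧸ U') U'.subtype (QuotientAddGroup.mk' U') ses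
      have hmD := hCard r A hA (CD (U ⧸ U')) (CD U) (CD U') (CD.res (QuotientAddGroup.mk' U'))
        (CD.res U'.subtype) sesD (dualOrder H) (hD1 r U H hH)
      obtain ⟨hle1, hle2⟩ := hLe r U' U (U ⧸ U') U'.subtype (QuotientAddGroup.mk' U') ses H hH
      obtain ⟨hfin', -⟩ := dualConnStatement_card_CD hSES U'
      obtain ⟨hfin'', -⟩ := dualConnStatement_card_CD hSES (U ⧸ U')
      have hc1 := dualConnStatement_card_anti A hle1
      have hc2 := dualConnStatement_card_anti A hle2
      rw [hm, hmD, hcU]
      calc _ ≤ (Nat.card (conn A (dualOrder (quotOrder (QuotientAddGroup.mk' U') H))) *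
              Nat.card (conn A (dualOrder (resOrder U'.subtype H)))) *
            (Nat.card (conn A (resOrder U'.subtype H)) *
              Nat.card (conn A (quotOrder (QuotientAddGroup.mk' U') H))) :=
            Nat.mul_le_mul_right _ (Nat.mul_le_mul hc1 hc2)
        _ = (Nat.card (conn A (dualOrder (quotOrder (QuotientAddGroup.mk' U') H))) *
              Nat.card (conn A (quotOrder (QuotientAddGroup.mk' U') H))) *
            (Nat.card (conn A (dualOrder (resOrder U'.subtype H))) *
              Nat.card (conn A (resOrder U'.subtype H))) := by ring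
        _ ≤ _ := Nat.mul_le_mul ih'' ih'

/-- **D4**: `|(U^D)⁰| |U⁰| ≤ |U|` for Eisenstein modules. -/
theorem dualConnStatement (hSimple : SimpleStatement) (hCard : CardConnStatement)
    (hHQ : HypQuotStatement) (hQ : QuotStatement) (hRes : ResStatement)
    (hD1 : DualHopfStatement) (hSES : DualSESStatement) (hLe : DualOrderLeStatement)
    (hD3 : DualSimpleStatement) (hC : ConnSubStatement) : DualConnStatement := by
  intro r _ k N A hA U _ _ _ hyp H hH
  exact dualConnStatement_aux hSimple hCard hHQ hQ hRes hD1 hSES hLe hD3 hC r k N A hA _ U rfl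
    hyp H hH

end Fermat.Agent.S15.HG
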