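/-
S15, block HG, node D1 (task HG-D1, helper292): the dual order of a Hopf order is a Hopf order on the
Cartier dual.  Uses the node D0 (`DualMemStatement`) as an explicit hypothesis.
-/
import Fermat.Agent.S15.HG.Statements2
import Fermat.Agent.S19.FullLattice

set_option autoImplicit false

noncomputable section

namespace Fermat.Agent.S15.HG

open Fermat.Agent.S19

/-! ### the pairing -/

section Pair

variable {U : Type} [Fintype U]

theorem dualHopf_pair_eq (h b : U → Qb) : pair h b = b ⬝ᵥ h :=
  finsum_eq_sum_of_fintype _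

theorem dualHopf_pair_sum_smul_left {ι : Type} [Fintype ι] (a : ι → Qb) (B : ι → U → Qb)
    (c : U → Qb) : pair (∑ i, a i • B i) c = ∑ i, a i * pair (B i) c := by
  simp only [dualHopf_pair_eq, dotProduct_sum, dotProduct_smul, smul_eq_mul]

theorem dualHopf_pair_sum_smul_right {ι : Type} [Fintype ι] (a : ι → Qb) (β : ι → U → Qb)
    (h : U → Qb) : pair h (∑ i, a i • β i) = ∑ i, a i * pair h (β i) := by
  simp only [dualHopf_pair_eq, sum_dotProduct, smul_dotProduct, smul_eq_mul]

theorem dualHopf_pair_single [DecidableEq U] (x : U) (c : U → Qb) :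
    pair (Pi.single x 1) c = c x := by
  rw [dualHopf_pair_eq, dotProduct_single, mul_one]

/-- the pairing is Galois equivariant -/
theorem dualHopf_pair_conj [MulAction Gal U] (σ : Gal) (h c : U → Qb) :
    pair (fun x => σ⁻¹ (h (σ • x))) (fun x => σ⁻¹ (c (σ • x))) = σ⁻¹ (pair h c) := by
  rw [dualHopf_pair_eq, dualHopf_pair_eq, dotProduct, dotProduct, map_sum,
    ← Equiv.sum_comp (MulAction.toPerm σ) (fun y => σ⁻¹ (c y * h y))]
  refine Finset.sum_congr rfl fun x _ => ?_
  rw [map_mul]
  rfl

end Pair

/-! ### the dual basis -/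

/-- **The dual basis.**  `B i` is a basis of `H`, `β i` is the dual basis of the dual lattice. -/
theorem dualHopf_exists_dualBasis {r : ℕ} [Fact r.Prime] {U : Type} [AddCommGroup U] [Finite U]
    [DistribMulAction Gal U] {H : Subalgebra (Rl r) (U → Qb)} (hH : IsHopfOrder r H) :
    ∃ (ι : Type) (_ : Fintype ι) (B β : ι → U → Qb),
      (∀ i, B i ∈ H) ∧ (∀ i, β i ∈ dualLattice H) ∧
      (∀ h : U → Qb, h = ∑ i, pair h (β i) • B i) ∧
      (∀ c : U → Qb, c = ∑ i, pair (B i) c • β i) := by
  classical
  have := Fintype.ofFinite U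
  obtain ⟨ι, hι, b, hli, hsp⟩ := hH.isFullLattice
  let BB : Module.Basis ι Qb (U → Qb) := Module.Basis.mk hli hsp.ge
  have hBB : ∀ i, BB i = ((b i : H) : U → Qb) := fun i => Module.Basis.mk_apply hli hsp.ge i
  let β : ι → U → Qb := fun i x => BB.repr (Pi.single x 1) i
  -- (P1)
  have P1 : ∀ (h : U → Qb) (i : ι), pair h (β i) = BB.repr h i := by
    intro h i
    have h1 : h = ∑ x, h x • (Pi.single x (1 : Qb) : U → Qb) := by
      funext y
      simp [Finset.sum_apply, Pi.single_apply]
    conv_rhs => rw [h1]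
    rw [dualHopf_pair_eq, dotProduct, map_sum, Finsupp.coe_finsetSum, Finset.sum_apply]
    refine Finset.sum_congr rfl fun x _ => ?_
    rw [map_smul, Finsupp.smul_apply, smul_eq_mul, mul_comm]
  -- (P2)
  have P2 : ∀ h : U → Qb, h = ∑ i, pair h (β i) • ((b i : H) : U → Qb) := by
    intro h
    conv_lhs => rw [← BB.sum_repr h]
    refine Finset.sum_congr rfl fun i _ => ?_
    rw [P1, hBB]
  -- (P3)
  have P3 : ∀ c : U → Qb, c = ∑ i, pair ((b i : H) : U → Qb) c • β i := by
    intro c
    funext x
    rw [← dualHopf_pair_single x c]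
    conv_lhs => rw [P2 (Pi.single x 1)]
    rw [dualHopf_pair_sum_smul_left, Finset.sum_apply]
    refine Finset.sum_congr rfl fun i _ => ?_
    rw [dualHopf_pair_single, Pi.smul_apply, smul_eq_mul, mul_comm]
  -- orthogonality
  have P0 : ∀ i j, pair ((b j : H) : U → Qb) (β i) = if j = i then 1 else 0 := by
    intro i j
    rw [P1, ← hBB, BB.repr_self, Finsupp.single_apply]
  -- (P4)
  have P4 : ∀ (i : ι) (σ : Gal) (x : U), β i (σ • x) = σ (β i x) := by
    intro i σ x
    have h1 : (fun y => σ⁻¹ (β i (σ • y))) = β i := by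
      rw [P3 (fun y => σ⁻¹ (β i (σ • y)))]
      conv_rhs => rw [P3 (β i)]
      refine Finset.sum_congr rfl fun j _ => ?_
      congr 1
      have h2 : ((b j : H) : U → Qb) = fun y => σ⁻¹ (((b j : H) : U → Qb) (σ • y)) := by
        funext y
        rw [hH.equivariant _ (b j).2 σ y]
        exact (σ.symm_apply_apply _).symm
      conv_lhs => rw [h2]
      rw [dualHopf_pair_conj, P0]
      split_ifs
      · exact map_one _
      · exact map_zero _
    have h3 := congrFun h1 x
    have h4 : σ (σ⁻¹ (β i (σ • x))) = σ (β i x) := congrArg σ h3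
    rw [← h4]
    exact (σ.apply_symm_apply _).symm
  -- (P5)
  have P5 : ∀ (i : ι), ∀ h ∈ H, ∃ c : Rl r, pair h (β i) = algebraMap (Rl r) Qb c := by
    intro i h hh
    refine ⟨b.repr ⟨h, hh⟩ i, ?_⟩
    have h1 : h = ∑ j, algebraMap (Rl r) Qb (b.repr ⟨h, hh⟩ j) • ((b j : H) : U → Qb) := by
      have h0 := congrArg (fun z : H => (z : U → Qb)) (b.sum_repr ⟨h, hh⟩)
      have h3 : ((∑ j, b.repr ⟨h, hh⟩ j • b j : H) : U → Qb) =
          ∑ j, b.repr ⟨h, hh⟩ j • ((b j : H) : U → Qb) := by
        rw [← Subalgebra.coe_val, map_sum]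
        rfl
      refine (h0.symm.trans h3).trans ?_
      refine Finset.sum_congr rfl fun j _ => ?_
      rw [algebraMap_smul]
    conv_lhs => rw [h1]
    rw [dualHopf_pair_sum_smul_left]
    simp only [P0, mul_ite, mul_one, mul_zero, Finset.sum_ite_eq', Finset.mem_univ, if_true]
  exact ⟨ι, hι, fun i => ((b i : H) : U → Qb), β, fun i => (b i).2, fun i => ⟨P4 i, P5 i⟩, P2, P3⟩

/-! ### the theorem -/

theorem dualHopf_fourier_eq {U : Type} [AddCommGroup U] (b : U → Qb) (f : CD U) :
    fourier b f = pair f.ev b := rfl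

/-- **D1**: the dual order is a Hopf order on the Cartier dual. -/
theorem dualHopfStatement (hD0 : DualMemStatement) : DualHopfStatement := by
  intro r _ U _ _ _ H hH
  classical
  have := Fintype.ofFinite U
  obtain ⟨ι, hι, B, β, hB, hβ, P2, P3⟩ := dualHopf_exists_dualBasis hH
  have hmem : ∀ F ∈ dualOrder H, ∃ b ∈ dualLattice H, F = fourier b :=
    fun F hF => (hD0 r U H hH F).1 hF
  have hβmem : ∀ i, fourier (β i) ∈ dualOrder H :=
    fun i => Algebra.subset_adjoin ⟨β i, hβ i, rfl⟩
  refine ⟨?_, ?_, ?_, ?_⟩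
  · -- equivariance
    intro F hF σ f
    obtain ⟨c, hc, rfl⟩ := hmem F hF
    have h1 := dualHopf_pair_conj σ⁻¹ f.ev c
    rw [inv_inv] at h1
    have h2 : (fun x => σ (c (σ⁻¹ • x))) = c := by
      funext x
      rw [hc.1 σ⁻¹ x]
      exact σ.apply_symm_apply _
    rw [h2] at h1
    exact h1
  · -- finite generation
    have hspan : Subalgebra.toSubmodule (dualOrder H) =
        Submodule.span (Rl r) (Set.range fun i => fourier (β i)) := by
      apply le_antisymm
      · intro F hF
        obtain ⟨c, hc, rfl⟩ := hmem F hF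
        choose m hm using fun i => hc.2 (B i) (hB i)
        have h1 : fourier c = ∑ i, m i • fourier (β i) := by
          funext f
          rw [dualHopf_fourier_eq]
          conv_lhs => rw [P3 c]
          rw [dualHopf_pair_sum_smul_right, Finset.sum_apply]
          refine Finset.sum_congr rfl fun i _ => ?_
          rw [hm, Pi.smul_apply, Algebra.smul_def]
          rfl
        rw [h1]
        exact Submodule.sum_mem _ fun i _ =>
          Submodule.smul_mem _ _ (Submodule.subset_span ⟨i, rfl⟩)
      · rw [Submodule.span_le]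
        rintro _ ⟨i, rfl⟩
        exact hβmem i
    rw [hspan]
    exact Submodule.fg_span (Set.finite_range _)
  · -- separation of points
    intro f f' hne
    by_contra hcon
    push Not at hcon
    apply hne
    have h1 : f.ev = f'.ev := by
      calc f.ev = ∑ i, pair f.ev (β i) • B i := P2 _
        _ = ∑ i, pair f'.ev (β i) • B i := by
            refine Finset.sum_congr rfl fun i _ => ?_
            rw [show pair f.ev (β i) = pair f'.ev (β i) from hcon _ (hβmem i)]
        _ = f'.ev := (P2 _).symm
    exact CD.ext fun x => congrFun h1 x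
  · -- comultiplication
    intro F hF
    obtain ⟨c, hc, rfl⟩ := hmem F hF
    choose m hm using fun ij : ι × ι => hc.2 (B ij.1 * B ij.2) (H.mul_mem (hB _) (hB _))
    have h1 : (fun q : CD U × CD U => fourier c (q.1 + q.2)) =
        ∑ ij : ι × ι, m ij •
          (fun q : CD U × CD U => fourier (β ij.1) q.1 * fourier (β ij.2) q.2) := by
      funext q
      have e1 : (q.1 + q.2).ev = q.1.ev * q.2.ev := by
        funext x
        exact CD.ev_add _ _ _
      have e2 : q.1.ev * q.2.ev = ∑ ij : ι × ι,
          (pair q.1.ev (β ij.1) * pair q.2.ev (β ij.2)) • (B ij.1 * B ij.2) := by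
        conv_lhs => rw [P2 q.1.ev, P2 q.2.ev]
        rw [Finset.sum_mul_sum, ← Finset.sum_product']
        refine Finset.sum_congr rfl fun ij _ => ?_
        rw [smul_mul_smul_comm]
      rw [dualHopf_fourier_eq, e1, e2, dualHopf_pair_sum_smul_left, Finset.sum_apply]
      refine Finset.sum_congr rfl fun ij _ => ?_
      rw [hm, Pi.smul_apply, Algebra.smul_def]
      show _ = _ * (pair _ _ * pair _ _)
      ring
    rw [h1]
    exact Submodule.sum_mem _ fun ij _ => Submodule.smul_mem _ _
      (Submodule.subset_span ⟨_, hβmem _, _, hβmem _, rfl⟩)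

end Fermat.Agent.S15.HG

end
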