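/-
S15, block HG, node D0: the dual order is exactly the set of Fourier transforms of the dual lattice.
The dual lattice is closed under convolution since `H` is closed under comultiplication.
-/
import Fermat.Agent.S15.HG.Statements2
import Fermat.Agent.S19.FlatOfOrder

set_option autoImplicit false

noncomputable section

namespace Fermat.Agent.S15.HG

open Fermat.Agent.S19

/-- Convolution on the group algebra. -/
private def dualMem_conv {U : Type} [AddCommGroup U] [Fintype U] (b b' : U → Qb) : U → Qb :=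
  fun z => ∑ x, b x * b' (z - x)

private theorem dualMem_pair_eq {U : Type} [Fintype U] (h b : U → Qb) :
    pair h b = ∑ x, b x * h x := finsum_eq_sum_of_fintype _

private theorem dualMem_fourier_apply {U : Type} [AddCommGroup U] [Fintype U] (b : U → Qb)
    (f : CD U) : fourier b f = ∑ x, b x * f.ev x := finsum_eq_sum_of_fintype _

private theorem dualMem_conv_sum {U : Type} [AddCommGroup U] [Fintype U] (b b' G : U → Qb) :
    ∑ z, dualMem_conv b b' z * G z = ∑ x, ∑ y, b x * b' y * G (x + y) := by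
  unfold dualMem_conv
  simp_rw [Finset.sum_mul]
  rw [Finset.sum_comm]
  refine Finset.sum_congr rfl fun x _ => ?_
  rw [← Equiv.sum_comp (Equiv.addLeft x)]
  refine Finset.sum_congr rfl fun y _ => ?_
  simp only [Equiv.coe_addLeft, add_sub_cancel_left]

private theorem dualMem_fourier_conv {U : Type} [AddCommGroup U] [Fintype U] (b b' : U → Qb) :
    fourier (dualMem_conv b b') = fourier b * fourier b' := by
  funext f
  rw [Pi.mul_apply, dualMem_fourier_apply, dualMem_fourier_apply, dualMem_fourier_apply,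
    dualMem_conv_sum, Finset.sum_mul_sum]
  refine Finset.sum_congr rfl fun x _ => Finset.sum_congr rfl fun y _ => ?_
  rw [CD.ev_map_add]
  ring

private theorem dualMem_conv_equiv {U : Type} [AddCommGroup U] [Fintype U]
    [DistribMulAction Gal U] (b b' : U → Qb)
    (hb : ∀ (σ : Gal) (x : U), b (σ • x) = σ (b x))
    (hb' : ∀ (σ : Gal) (x : U), b' (σ • x) = σ (b' x)) (σ : Gal) (z : U) :
    dualMem_conv b b' (σ • z) = σ (dualMem_conv b b' z) := by
  unfold dualMem_conv
  rw [map_sum, ← Equiv.sum_comp (MulAction.toPerm σ)]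
  refine Finset.sum_congr rfl fun x _ => ?_
  rw [MulAction.toPerm_apply, ← smul_sub, hb, hb', map_mul]

private theorem dualMem_span_pair {r : ℕ} {U : Type} [Fintype U]
    (H : Subalgebra (Rl r) (U → Qb)) (b b' : U → Qb)
    (hb : ∀ h ∈ H, ∃ c : Rl r, pair h b = algebraMap (Rl r) Qb c)
    (hb' : ∀ h ∈ H, ∃ c : Rl r, pair h b' = algebraMap (Rl r) Qb c)
    (F : U × U → Qb) (hF : F ∈ Submodule.span (Rl r) (prodFun H H)) :
    ∃ c : Rl r, ∑ x, ∑ y, b x * b' y * F (x, y) = algebraMap (Rl r) Qb c := by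
  induction hF using Submodule.span_induction with
  | mem F hF =>
    obtain ⟨a, ha, a', ha', rfl⟩ := hF
    obtain ⟨c, hc⟩ := hb a ha
    obtain ⟨c', hc'⟩ := hb' a' ha'
    refine ⟨c * c', ?_⟩
    rw [map_mul, ← hc, ← hc', dualMem_pair_eq, dualMem_pair_eq, Finset.sum_mul_sum]
    refine Finset.sum_congr rfl fun x _ => Finset.sum_congr rfl fun y _ => ?_
    ring
  | zero => exact ⟨0, by simp⟩
  | add F G _ _ hF hG =>
    obtain ⟨c, hc⟩ := hF
    obtain ⟨c', hc'⟩ := hG
    refine ⟨c + c', ?_⟩
    rw [map_add, ← hc, ← hc', ← Finset.sum_add_distrib]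
    refine Finset.sum_congr rfl fun x _ => ?_
    rw [← Finset.sum_add_distrib]
    refine Finset.sum_congr rfl fun y _ => ?_
    rw [Pi.add_apply, mul_add]
  | smul t F _ hF =>
    obtain ⟨c, hc⟩ := hF
    refine ⟨t * c, ?_⟩
    rw [map_mul, ← hc, Finset.mul_sum]
    refine Finset.sum_congr rfl fun x _ => ?_
    rw [Finset.mul_sum]
    refine Finset.sum_congr rfl fun y _ => ?_
    rw [Pi.smul_apply, Algebra.smul_def]
    ring

private theorem dualMem_conv_mem {r : ℕ} {U : Type} [AddCommGroup U] [Fintype U]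
    [DistribMulAction Gal U] (H : Subalgebra (Rl r) (U → Qb)) (hH : IsHopfOrder r H)
    (b b' : U → Qb) (hb : b ∈ dualLattice H) (hb' : b' ∈ dualLattice H) :
    dualMem_conv b b' ∈ dualLattice H := by
  refine ⟨dualMem_conv_equiv b b' hb.1 hb'.1, fun h hh => ?_⟩
  obtain ⟨c, hc⟩ := dualMem_span_pair H b b' hb.2 hb'.2 _ (hH.comul h hh)
  exact ⟨c, by rw [dualMem_pair_eq, dualMem_conv_sum, ← hc]⟩

private theorem dualMem_add_mem {r : ℕ} {U : Type} [AddCommGroup U] [Fintype U]
    [DistribMulAction Gal U] (H : Subalgebra (Rl r) (U → Qb))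
    (b b' : U → Qb) (hb : b ∈ dualLattice H) (hb' : b' ∈ dualLattice H) :
    b + b' ∈ dualLattice H := by
  refine ⟨fun σ x => by rw [Pi.add_apply, Pi.add_apply, hb.1, hb'.1, map_add], fun h hh => ?_⟩
  obtain ⟨c, hc⟩ := hb.2 h hh
  obtain ⟨c', hc'⟩ := hb'.2 h hh
  refine ⟨c + c', ?_⟩
  rw [map_add, ← hc, ← hc', dualMem_pair_eq, dualMem_pair_eq, dualMem_pair_eq,
    ← Finset.sum_add_distrib]
  refine Finset.sum_congr rfl fun x _ => ?_
  rw [Pi.add_apply, add_mul]

private theorem dualMem_fourier_add {U : Type} [AddCommGroup U] [Fintype U] (b b' : U → Qb) :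
    fourier (b + b') = fourier b + fourier b' := by
  funext f
  rw [Pi.add_apply, dualMem_fourier_apply, dualMem_fourier_apply, dualMem_fourier_apply,
    ← Finset.sum_add_distrib]
  refine Finset.sum_congr rfl fun x _ => ?_
  rw [Pi.add_apply, add_mul]

/-- The multiple of the delta function at the origin. -/
private def dualMem_delta {U : Type} [AddCommGroup U] [DecidableEq U] (c : Qb) : U → Qb :=
  fun x => if x = 0 then c else 0

private theorem dualMem_delta_sum {U : Type} [AddCommGroup U] [Fintype U] [DecidableEq U] (c : Qb)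
    (G : U → Qb) : ∑ x, dualMem_delta c x * G x = c * G 0 := by
  unfold dualMem_delta
  simp [ite_mul]

private theorem dualMem_delta_mem {r : ℕ} [Fact r.Prime] {U : Type} [AddCommGroup U] [Fintype U]
    [DecidableEq U] [DistribMulAction Gal U] (H : Subalgebra (Rl r) (U → Qb))
    (hH : IsHopfOrder r H) (c : Rl r) :
    dualMem_delta (algebraMap (Rl r) Qb c) ∈ dualLattice H := by
  refine ⟨fun σ x => ?_, fun h hh => ?_⟩
  · unfold dualMem_delta
    have h0 : σ • x = 0 ↔ x = 0 := smul_eq_zero_iff_eq σ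
    by_cases hx : x = 0
    · rw [if_pos (h0.2 hx), if_pos hx]
      exact (σ.commutes (c : ℚ)).symm
    · rw [if_neg (fun h => hx (h0.1 h)), if_neg hx, map_zero]
  · obtain ⟨d, hd⟩ := hH.zero_mem hh
    exact ⟨c * d, by rw [dualMem_pair_eq, dualMem_delta_sum, map_mul, hd]⟩

private theorem dualMem_fourier_delta {U : Type} [AddCommGroup U] [Fintype U] [DecidableEq U]
    (c : Qb) : fourier (dualMem_delta (U := U) c) = fun _ => c := by
  funext f
  rw [dualMem_fourier_apply, dualMem_delta_sum, CD.ev_map_zero, mul_one]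

/-- D0. -/
theorem dualMemStatement : DualMemStatement := by
  intro r _ U _ _ _ H hH F
  classical
  have := Fintype.ofFinite U
  constructor
  · intro hF
    induction hF using Algebra.adjoin_induction with
    | mem F hF =>
      obtain ⟨b, hb, rfl⟩ := hF
      exact ⟨b, hb, rfl⟩
    | algebraMap c =>
      exact ⟨_, dualMem_delta_mem H hH c, (dualMem_fourier_delta _).symm⟩
    | add F G _ _ hF hG =>
      obtain ⟨b, hb, rfl⟩ := hF
      obtain ⟨b', hb', rfl⟩ := hG
      exact ⟨_, dualMem_add_mem H b b' hb hb', (dualMem_fourier_add b b').symm⟩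
    | mul F G _ _ hF hG =>
      obtain ⟨b, hb, rfl⟩ := hF
      obtain ⟨b', hb', rfl⟩ := hG
      exact ⟨_, dualMem_conv_mem H hH b b' hb hb', (dualMem_fourier_conv b b').symm⟩
  · rintro ⟨b, hb, rfl⟩
    exact Algebra.subset_adjoin ⟨b, hb, rfl⟩

end Fermat.Agent.S15.HG

end
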