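/-
S15, block HG, node D2b: compatibility of Cartier duality of Hopf orders with induced orders
(the two inclusions which are needed).

* SECOND inclusion: extension by zero along `ι`.
* FIRST inclusion: the `ℚ̄`-linear projection `PK` of `S19.ClosureQuot.exists_projK` onto the functions
  which are constant on the fibres of `π` preserves `H`; the functional `f ↦ ⟨PK f, b''⟩` is of the
  form `⟨·, b⟩`; it takes values in `ℤ_(r)` on `H`, so `b` is equivariant (`H` spans all functions).
-/
import Fermat.Agent.S15.HG.Statements2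
import Fermat.Agent.S19.ClosureQuot

set_option autoImplicit false

namespace Fermat.Agent.S15.HG

open Fermat.Agent.S19

theorem dualOrderLeStatement_pair_eq_sum {U : Type} [Fintype U] (h b : U → Qb) :
    pair h b = ∑ x, b x * h x := finsum_eq_sum_of_fintype _

/-- An element of the group algebra which pairs `H` into `ℤ_(r)` is equivariant. -/
theorem dualOrderLeStatement_equivariant {r : ℕ} [Fact r.Prime] {U : Type} [AddCommGroup U]
    [Finite U] [DistribMulAction Gal U] {H : Subalgebra (Rl r) (U → Qb)} (hH : IsHopfOrder r H)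
    (b : U → Qb) (hb : ∀ h ∈ H, ∃ c : Rl r, pair h b = algebraMap (Rl r) Qb c) (σ : Gal) (x : U) :
    b (σ • x) = σ (b x) := by
  classical
  have : Fintype U := Fintype.ofFinite U
  obtain ⟨ι, _, b₀, hli, hsp⟩ := hH.isFullLattice
  let B : Module.Basis ι Qb (U → Qb) := Module.Basis.mk hli (by rw [hsp])
  have hBb : ∀ i, B i = ((b₀ i : H) : U → Qb) := fun i => Module.Basis.mk_apply hli _ i
  have hB : ∀ i, B i ∈ H := fun i => by rw [hBb]; exact (b₀ i).2
  -- the two functionals
  let D₁ : (U → Qb) →ₗ[Qb] Qb := ∑ y : U, (σ (b (σ⁻¹ • y))) • (LinearMap.proj y)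
  let D₂ : (U → Qb) →ₗ[Qb] Qb := ∑ y : U, (b y) • (LinearMap.proj y)
  have hD₁ : ∀ f : U → Qb, D₁ f = ∑ y, σ (b (σ⁻¹ • y)) * f y := fun f => by
    simp [D₁, LinearMap.sum_apply]
  have hD₂ : ∀ f : U → Qb, D₂ f = ∑ y, b y * f y := fun f => by
    simp [D₂, LinearMap.sum_apply]
  have hH12 : ∀ h ∈ H, D₁ h = D₂ h := by
    intro h hh
    obtain ⟨c, hc⟩ := hb h hh
    rw [dualOrderLeStatement_pair_eq_sum] at hc
    have h1 : D₁ h = σ (∑ y, b y * h y) := by
      rw [hD₁, map_sum, ← Equiv.sum_comp (MulAction.toPerm σ)]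
      refine Finset.sum_congr rfl fun y _ => ?_
      rw [MulAction.toPerm_apply, inv_smul_smul, map_mul, hH.equivariant h hh]
    rw [h1, hD₂, hc]
    exact σ.commutes (c : ℚ)
  have h12 : D₁ = D₂ := B.ext fun i => hH12 _ (hB i)
  have h3 := LinearMap.congr_fun h12 (Pi.single (σ • x) 1)
  rw [hD₁, hD₂] at h3
  simp only [Pi.single_apply, mul_ite, mul_one, mul_zero, Finset.sum_ite_eq', Finset.mem_univ,
    if_true, inv_smul_smul] at h3
  exact h3.symm

/-- Lifting elements of the dual lattice of the quotient order. -/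
theorem dualOrderLeStatement_exists_lift {r : ℕ} [Fact r.Prime] {U U'' : Type} [AddCommGroup U]
    [AddCommGroup U''] [Finite U] [DistribMulAction Gal U] [DistribMulAction Gal U'']
    (π : U →+ U'') (hπ : Function.Surjective π) (heq : ∀ (g : Gal) (x : U), π (g • x) = g • π x)
    {H : Subalgebra (Rl r) (U → Qb)} (hH : IsHopfOrder r H) {b'' : U'' → Qb}
    (hb'' : b'' ∈ dualLattice (quotOrder π H)) :
    ∃ b ∈ dualLattice H, ∀ g : U'' → Qb, pair (fun x => g (π x)) b = pair g b'' := by
  classical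
  have := Rl_isPrincipalIdealRing r
  have : Fintype U := Fintype.ofFinite U
  have : Finite U'' := Finite.of_surjective π hπ
  have : Fintype U'' := Fintype.ofFinite U''
  obtain ⟨ι, _, b₀, hli, hsp⟩ := hH.isFullLattice
  let B : Module.Basis ι Qb (U → Qb) := Module.Basis.mk hli (by rw [hsp])
  have hBb : ∀ i, B i = ((b₀ i : H) : U → Qb) := fun i => Module.Basis.mk_apply hli _ i
  obtain ⟨PK, hPK1, hPK2, hPK3⟩ :=
    ClosureQuot.exists_projK exists_rat_of_fixed π heq hH.equivariant hH.fg b₀ B hBb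
  let s : U'' → U := Function.surjInv hπ
  have hs : ∀ z, π (s z) = z := Function.surjInv_eq hπ
  let β : (U → Qb) →ₗ[Qb] Qb := ∑ z : U'', (b'' z) • ((LinearMap.proj (s z)) ∘ₗ PK)
  have hβ : ∀ f : U → Qb, β f = pair (fun z => PK f (s z)) b'' := fun f => by
    rw [dualOrderLeStatement_pair_eq_sum]
    simp [β, LinearMap.sum_apply]
  let b : U → Qb := fun x => β (fun j => if x = j then 1 else 0)
  have hb : ∀ f : U → Qb, pair f b = β f := fun f => by
    rw [dualOrderLeStatement_pair_eq_sum, LinearMap.pi_apply_eq_sum_univ β f]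
    exact Finset.sum_congr rfl fun x _ => by rw [smul_eq_mul, mul_comm]
  have hbH : ∀ h ∈ H, ∃ c : Rl r, pair h b = algebraMap (Rl r) Qb c := by
    intro h hh
    rw [hb, hβ]
    refine hb''.2 _ ?_
    rw [mem_quotOrder]
    have : (fun x => PK h (s (π x))) = PK h := funext fun x => hPK2 h hh _ _ (hs _)
    rw [this]
    exact hPK1 h hh
  refine ⟨b, ⟨dualOrderLeStatement_equivariant hH b hbH, hbH⟩, fun g => ?_⟩
  rw [hb, hβ, hPK3 _ (fun x y hxy => by rw [hxy])]
  simp only [hs]

/-- Extension by zero. -/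
theorem dualOrderLeStatement_pair_extend {U' U : Type} [Finite U] (ι : U' → U)
    (hι : Function.Injective ι) (b' : U' → Qb) (g : U → Qb) :
    pair g (Function.extend ι b' 0) = pair (fun x => g (ι x)) b' := by
  classical
  have : Fintype U := Fintype.ofFinite U
  have : Finite U' := Finite.of_injective ι hι
  have : Fintype U' := Fintype.ofFinite U'
  rw [dualOrderLeStatement_pair_eq_sum, dualOrderLeStatement_pair_eq_sum]
  refine (Fintype.sum_of_injective ι hι _ _ (fun x hx => ?_) (fun x => ?_)).symm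
  · rw [Function.extend_apply' _ _ _ hx, Pi.zero_apply, zero_mul]
  · rw [hι.extend_apply]

theorem dualOrderLeStatement (hQ : QuotStatement) : DualOrderLeStatement := by
  have _ := hQ
  intro r _ U' U U'' _ _ _ _ _ _ _ ι π hses H hH
  constructor
  · refine Algebra.adjoin_le ?_
    rintro _ ⟨b'', hb'', rfl⟩
    obtain ⟨b, hb, hpair⟩ := dualOrderLeStatement_exists_lift π hses.surj hses.π_equiv hH hb''
    rw [SetLike.mem_coe, mem_resOrder]
    exact ⟨fourier b, Algebra.subset_adjoin ⟨b, hb, rfl⟩,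
      funext fun f => (hpair (fun x => f.ev x)).symm⟩
  · refine Algebra.adjoin_le ?_
    rintro _ ⟨b', hb', rfl⟩
    rw [SetLike.mem_coe, mem_quotOrder]
    have h1 : (fun f : CD U => fourier b' (CD.res ι f)) = fourier (Function.extend ι b' 0) :=
      funext fun f => (dualOrderLeStatement_pair_extend ι hses.inj b' (fun x => f.ev x)).symm
    rw [h1]
    refine Algebra.subset_adjoin ⟨_, ⟨fun σ x => ?_, fun h hh => ?_⟩, rfl⟩
    · by_cases hx : ∃ x', ι x' = x
      · obtain ⟨x', rfl⟩ := hx
        rw [← hses.ι_equiv, hses.inj.extend_apply, hses.inj.extend_apply, hb'.1]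
      · have hx2 : ¬ ∃ x', ι x' = σ • x := by
          rintro ⟨x', hx'⟩
          refine hx ⟨σ⁻¹ • x', ?_⟩
          rw [hses.ι_equiv, hx', inv_smul_smul]
        rw [Function.extend_apply' _ _ _ hx, Function.extend_apply' _ _ _ hx2, Pi.zero_apply,
          Pi.zero_apply, map_zero]
    · rw [dualOrderLeStatement_pair_extend ι hses.inj]
      exact hb'.2 _ ((mem_resOrder ι H _).2 ⟨h, hh, rfl⟩)

end Fermat.Agent.S15.HG
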