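/-
S15, block HG, node D3 (task HG-D3, helper270): the dual of a connected order on a module of order `r`
(trivial or of type `μ_r`) is étale.
-/
import Fermat.Agent.S15.HG.Statements2
import Fermat.Agent.Lib.InertiaField.Unram
import Fermat.Agent.Lib.Frobenius.Integers

set_option autoImplicit false

noncomputable section

namespace Fermat.Agent.S15.HG

open Fermat.Agent.S19

/-- a rational number in the maximal ideal of `A` is divisible by `p` in `ℤ_(p)` -/
theorem dualSimpleStatement_div_mem (p : ℕ) (hp : p.Prime) (A : ValuationSubring Qb)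
    (hA : A.LiesOverPrime p) (c : ℚ) (hc : algebraMap ℚ Qb c ∈ A.nonunits) :
    c / p ∈ Rl p := by
  have hcv : A.valuation (algebraMap ℚ Qb c) < 1 := (A.mem_nonunits_iff).mp hc
  have h1 : algebraMap ℚ Qb c = (c.num : Qb) / ((c.den : ℤ) : Qb) := by
    rw [eq_ratCast, Rat.cast_def]
    push_cast
    rfl
  have hden0 : ((c.den : ℤ) : Qb) ≠ 0 := by
    have := c.den_ne_zero
    exact_mod_cast this
  have hvden0 : A.valuation ((c.den : ℤ) : Qb) ≠ 0 := (map_ne_zero _).mpr hden0
  rw [h1, map_div₀] at hcv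
  by_cases hd : p ∣ c.den
  · exfalso
    have hnum : ¬ (p : ℤ) ∣ c.num := by
      intro h
      have h2 : p ∣ c.num.natAbs := Int.natCast_dvd.mp h
      have h3 := Nat.dvd_gcd h2 hd
      rw [c.reduced] at h3
      exact hp.one_lt.ne' (Nat.dvd_one.mp h3)
    rw [Lib.InertiaField.Unram.valuation_intCast_eq_one hp hA hnum] at hcv
    have hle : A.valuation ((c.den : ℤ) : Qb) ≤ 1 :=
      (A.valuation_le_one_iff _).mpr (intCast_mem A _)
    rw [div_lt_one₀ (zero_lt_iff.mpr hvden0)] at hcv
    exact absurd hle (not_le.mpr hcv)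
  · have hd' : ¬ (p : ℤ) ∣ (c.den : ℤ) := fun h => hd (Int.natCast_dvd_natCast.mp h)
    rw [Lib.InertiaField.Unram.valuation_intCast_eq_one hp hA hd', div_one] at hcv
    have hnum : (p : ℤ) ∣ c.num := by
      by_contra h
      rw [Lib.InertiaField.Unram.valuation_intCast_eq_one hp hA h] at hcv
      exact lt_irrefl _ hcv
    obtain ⟨n', hn'⟩ := hnum
    have hp0 : (p : ℚ) ≠ 0 := by exact_mod_cast hp.ne_zero
    have h2 : c / p = (n' : ℚ) / ((c.den : ℤ) : ℚ) := by
      conv_lhs => rw [← Rat.num_div_den c, hn']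
      push_cast
      field_simp
    show (c / p).den.Coprime p
    rw [h2]
    have h3 : (((n' : ℚ) / ((c.den : ℤ) : ℚ)).den : ℤ) ∣ (c.den : ℤ) := by
      have h4 := Rat.den_dvd n' (c.den : ℤ)
      rwa [Rat.divInt_eq_div] at h4
    exact Nat.Coprime.coprime_dvd_left (Int.natCast_dvd_natCast.mp h3)
      ((Nat.Prime.coprime_iff_not_dvd hp).2 hd).symm

theorem dualSimpleStatement_exists_rat (x : Qb) (hx : ∀ σ : Gal, σ x = x) :
    ∃ q : ℚ, algebraMap ℚ Qb q = x := by
  have : IsGalois ℚ Qb := Fermat.Agent.Lib.Frobenius.isGalois_rat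
  exact (InfiniteGalois.mem_range_algebraMap_iff_fixed x).mpr hx

theorem dualSimpleStatement_ev_nsmul {U : Type} [AddCommGroup U] (f : CD U) (n : ℕ) (x : U) :
    f.ev (n • x) = f.ev x ^ n := by
  induction n with
  | zero => rw [zero_smul, pow_zero, CD.ev_map_zero]
  | succ n ih => rw [succ_nsmul, CD.ev_map_add, ih, pow_succ]

/-- the Cartier dual of a module of type `μ_r` of order `r` has trivial action -/
theorem dualSimpleStatement_isTriv (r : ℕ) [Fact r.Prime] (U : Type) [AddCommGroup U] [Finite U]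
    [DistribMulAction Gal U] (hU : Nat.card U = r) (hμ : IsMu U) : IsTriv (CD U) := by
  have hr : r.Prime := Fact.out
  obtain ⟨χ, χ0, χadd, χinj, χeq⟩ := hμ
  have χn : ∀ (n : ℕ) (x : U), χ (n • x) = χ x ^ n := by
    intro n x
    induction n with
    | zero => rw [zero_smul, pow_zero, χ0]
    | succ n ih => rw [succ_nsmul, χadd, ih, pow_succ]
  have hnt : Nontrivial U := by
    rw [← Finite.one_lt_card_iff_nontrivial, hU]
    exact hr.one_lt
  obtain ⟨x₁, hx₁⟩ := exists_ne (0 : U)
  have hrx : ∀ x : U, r • x = 0 := by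
    intro x
    rw [← hU]
    exact card_nsmul_eq_zero'
  have hζ1 : χ x₁ ≠ 1 := fun h => hx₁ (χinj x₁ h)
  have hζr : χ x₁ ^ r = 1 := by rw [← χn, hrx, χ0]
  have hprim : IsPrimitiveRoot (χ x₁) r := by
    have := IsPrimitiveRoot.orderOf (χ x₁)
    rwa [orderOf_eq_prime hζr hζ1] at this
  have : NeZero r := ⟨hr.ne_zero⟩
  intro σ f
  have hfr : f.ev x₁ ^ r = 1 := by
    rw [← dualSimpleStatement_ev_nsmul, hrx, CD.ev_map_zero]
  obtain ⟨j, -, hj⟩ := hprim.eq_pow_of_pow_eq_one hfr
  have hf : ∀ x : U, f.ev x = χ x ^ j := by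
    intro x
    obtain ⟨n, rfl⟩ := (AddSubmonoid.mem_multiples_iff _ _).mp
      (mem_multiples_of_prime_card hU hx₁ (g' := x))
    rw [dualSimpleStatement_ev_nsmul, χn, ← hj, ← pow_mul, ← pow_mul, mul_comm]
  apply CD.ext
  intro x
  rw [CD.ev_smul, hf, hf, χeq, map_pow]
  have : σ (σ⁻¹ (χ x)) = (σ * σ⁻¹) (χ x) := rfl
  rw [this, mul_inv_cancel]
  rfl

theorem dualSimpleStatement_isSES (U : Type) [AddCommGroup U] [DistribMulAction Gal U] :
    IsSES (AddMonoidHom.id U) (0 : U →+ PUnit) where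
  inj := Function.injective_id
  surj := fun _ => ⟨0, Subsingleton.elim _ _⟩
  exact := fun x => ⟨fun _ => ⟨x, rfl⟩, fun _ => rfl⟩
  ι_equiv := fun _ _ => rfl
  π_equiv := fun _ _ => rfl

open Classical in
/-- the case `r = 2` -/
theorem dualSimpleStatement_two [Fact (Nat.Prime 2)] (A : ValuationSubring Qb)
    (hA : A.LiesOverPrime 2) (U : Type) [AddCommGroup U] [Finite U] [DistribMulAction Gal U]
    (hU : Nat.card U = 2) (H : Subalgebra (Rl 2) (U → Qb)) (hH : IsHopfOrder 2 H)
    (hconn : conn A H = Set.univ) : conn A (dualOrder H) = {0} := by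
  obtain ⟨x₁, hx₁, huniq⟩ := (Nat.card_eq_two_iff' (0 : U)).mp hU
  have hx₁ : x₁ ≠ 0 := hx₁
  have hcases : ∀ x : U, x = 0 ∨ x = x₁ := by
    intro x
    by_cases h : x = 0
    · exact Or.inl h
    · exact Or.inr (huniq x h)
  have hact : ∀ (σ : Gal) (x : U), σ • x = x := by
    intro σ x
    rcases hcases x with rfl | rfl
    · exact smul_zero σ
    · exact huniq _ (fun h => hx₁ ((smul_eq_zero_iff_eq σ).mp h))
  have hsum : ∀ g : U → Qb, ∑ᶠ x, g x = g 0 + g x₁ := by
    intro g
    rw [finsum_eq_sum_of_support_subset g (s := {0, x₁}) (by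
      intro x _
      rcases hcases x with rfl | rfl <;> simp), Finset.sum_pair hx₁.symm]
  have h2x : x₁ + x₁ = 0 := by
    have : Nat.card U • x₁ = 0 := card_nsmul_eq_zero'
    rwa [hU, two_nsmul] at this
  let b : U → Qb := fun x => if x = 0 then 1 / 2 else -(1 / 2)
  have hb0 : b 0 = 1 / 2 := if_pos rfl
  have hb1 : b x₁ = -(1 / 2) := if_neg hx₁
  have hb : b ∈ dualLattice H := by
    refine ⟨?_, ?_⟩
    · intro σ x
      rw [hact]
      rcases hcases x with rfl | rfl
      · rw [hb0, map_div₀, map_one, map_ofNat]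
      · rw [hb1, map_neg, map_div₀, map_one, map_ofNat]
    · intro h hh
      have hfix : ∀ (x : U) (σ : Gal), σ (h x) = h x := by
        intro x σ
        rw [← hH.equivariant h hh σ x, hact]
      obtain ⟨q0, hq0⟩ := dualSimpleStatement_exists_rat (h 0) (hfix 0)
      obtain ⟨q1, hq1⟩ := dualSimpleStatement_exists_rat (h x₁) (hfix x₁)
      have hmem : x₁ ∈ conn A H := by rw [hconn]; exact Set.mem_univ _
      have hnu : algebraMap ℚ Qb (q1 - q0) ∈ A.nonunits := by
        rw [map_sub, hq0, hq1]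
        exact hmem h hh
      have hc := dualSimpleStatement_div_mem 2 Nat.prime_two A hA _ hnu
      refine ⟨-⟨_, hc⟩, ?_⟩
      have e : algebraMap (Rl 2) Qb (-⟨_, hc⟩) = algebraMap ℚ Qb (-((q1 - q0) / (2 : ℕ))) := rfl
      rw [e, pair, hsum, hb0, hb1, map_neg, map_div₀, map_sub, hq0, hq1, map_natCast]
      push_cast
      ring
  have hF : fourier b ∈ dualOrder H := Algebra.subset_adjoin ⟨b, hb, rfl⟩
  have hFv : ∀ f : CD U, fourier b f = 1 / 2 - 1 / 2 * f.ev x₁ := by
    intro f
    rw [fourier, hsum, hb0, hb1, CD.ev_map_zero]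
    ring
  ext f
  rw [Set.mem_singleton_iff]
  constructor
  · intro hf
    by_contra hne
    have h1 := hf (fourier b) hF
    have hsq : f.ev x₁ * f.ev x₁ = 1 := by rw [← CD.ev_map_add, h2x, CD.ev_map_zero]
    have hne1 : f.ev x₁ ≠ 1 := by
      intro h
      apply hne
      apply CD.ext
      intro x
      rcases hcases x with rfl | rfl
      · rw [CD.ev_map_zero, CD.ev_zero]
      · rw [h, CD.ev_zero]
    have hm1 : f.ev x₁ = -1 := (mul_self_eq_one_iff.mp hsq).resolve_left hne1
    rw [hFv, hFv, hm1, CD.ev_zero] at h1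
    have h2 : (1 / 2 - 1 / 2 * (-1) - (1 / 2 - 1 / 2 * 1) : Qb) = 1 := by ring
    rw [h2, ValuationSubring.mem_nonunits_iff, map_one] at h1
    exact lt_irrefl _ h1
  · rintro rfl
    intro h _
    rw [sub_self, ValuationSubring.mem_nonunits_iff, map_zero]
    exact zero_lt_one

set_option linter.unusedVariables false in
theorem dualSimpleStatement (hL4 : L4Statement) (hD1 : DualHopfStatement)
    (hSES : DualSESStatement) (hV : ValStatement) (hC : ConnSubStatement) :
    DualSimpleStatement := by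
  intro r _ A hA U _ _ _ hU hTM H hH hconn
  have hrp : r.Prime := Fact.out
  by_cases hr : r = 2
  · subst hr
    exact dualSimpleStatement_two A hA U hU H hH hconn
  · rcases hTM with hT | hM
    · exfalso
      have h1 := hL4 r hr A hA U hU hT H hH
      rw [hconn] at h1
      have h2 : Nat.card U ≤ 1 := by
        rw [Finite.card_le_one_iff_subsingleton]
        refine ⟨fun x y => ?_⟩
        have hx : x ∈ ({0} : Set U) := h1 ▸ Set.mem_univ x
        have hy : y ∈ ({0} : Set U) := h1 ▸ Set.mem_univ y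
        rw [Set.mem_singleton_iff] at hx hy
        rw [hx, hy]
      rw [hU] at h2
      exact absurd hrp.one_lt (not_lt.mpr h2)
    · obtain ⟨-, hfin, hcard⟩ := hSES U U PUnit (AddMonoidHom.id U) 0 (dualSimpleStatement_isSES U)
      exact hL4 r hr A hA (CD U) (hcard.trans hU) (dualSimpleStatement_isTriv r U hU hM)
        (dualOrder H) (hD1 r U H hH)

end Fermat.Agent.S15.HG

end
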