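/-
S15, block HG, node K3: Hilbert 90 for cocycles of finite level with values in `ℚ̄ˣ`
(from the landed `S36.Desc.hilbert90_finite_level`).
-/
import Fermat.Agent.S15.HG.Statements
import Fermat.Agent.S36.Desc.Hilbert90

set_option autoImplicit false

namespace Fermat.Agent.S15.HG

open Fermat.Agent.S19

theorem h90Statement : H90Statement := by
  rintro c hc hmul ⟨F, hF, hone⟩
  obtain ⟨b, hb, h⟩ := Fermat.Agent.S36.Desc.hilbert90_finite_level (K := ℚ) (Ω := Qb) (F := Qb)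
    (fun σ => σ.toRingEquiv) (fun σ x => rfl) ⊤ c (fun σ _ => hc σ)
    (fun σ _ τ _ => hmul σ τ) F
    (fun σ _ hσ => hone σ ((IntermediateField.mem_fixingSubgroup_iff F σ).2 hσ))
  refine ⟨b⁻¹, inv_ne_zero hb, fun g => ?_⟩
  have h1 : g b * c g = b := h g (Subgroup.mem_top g)
  have h2 : b⁻¹ = (g b)⁻¹ * (c g)⁻¹ := by rw [← mul_inv, h1]
  rw [map_inv₀, h2, mul_comm (g b)⁻¹, mul_inv_cancel_left₀ (hc g)]

end Fermat.Agent.S15.HG
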