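/-
S15, block HG, node I1: the indicator function of the connected part lies in `A·H`.
-/
import Fermat.Agent.S15.HG.Statements

set_option autoImplicit false

namespace Fermat.Agent.S15.HG

open Fermat.Agent.S19

/-- abstract form: a ring `S` of `A`-valued functions on a finite set, containing the constants,
which separates the points outside `C` from `C` modulo the maximal ideal, contains the indicator
function of `C`. -/
theorem indicatorStatement_aux {K : Type*} [Field K] (A : ValuationSubring K) {M : Type*}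
    [Finite M] (S : Set (M → K)) (C : Set M)
    (hsub : ∀ f ∈ S, ∀ f' ∈ S, f - f' ∈ S)
    (hmul : ∀ f ∈ S, ∀ f' ∈ S, f * f' ∈ S)
    (hconst : ∀ c ∈ A, (fun _ : M => c) ∈ S)
    (hval : ∀ f ∈ S, ∀ x, f x ∈ A)
    (hsep : ∀ x, x ∉ C → ∃ g ∈ S, g x = 1 ∧ ∀ y ∈ C, A.valuation (g y) < 1) :
    ∃ f ∈ S, (∀ x ∈ C, f x = 1) ∧ ∀ x, x ∉ C → f x = 0 := by
  classical
  have := Fintype.ofFinite M
  choose! g hgS hg1 hgC using hsep
  have hone : (1 : M → K) ∈ S := hconst 1 A.one_mem
  have hprod : ∀ (s : Finset M) (F : M → M → K), (∀ x ∈ s, F x ∈ S) → ∏ x ∈ s, F x ∈ S :=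
    fun s F hF => Finset.prod_induction F (· ∈ S) (fun a b ha hb => hmul a ha b hb) hone hF
  set e₀ : M → K := ∏ x ∈ Finset.univ.filter (· ∉ C), (1 - g x) with he₀
  have he₀S : e₀ ∈ S := hprod _ _ fun x hx => hsub _ hone _ (hgS x (Finset.mem_filter.1 hx).2)
  have he₀0 : ∀ x, x ∉ C → e₀ x = 0 := by
    intro x hx
    rw [he₀, Finset.prod_apply]
    exact Finset.prod_eq_zero (Finset.mem_filter.2 ⟨Finset.mem_univ x, hx⟩) (by simp [hg1 x hx])
  have he₀1 : ∀ y ∈ C, A.valuation (e₀ y - 1) < 1 := by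
    intro y hy
    rw [he₀, Finset.prod_apply]
    refine Finset.prod_induction (fun x => (1 - g x) y) (fun a => A.valuation (a - 1) < 1) ?_ ?_ ?_
    · intro a b ha hb
      have e : a * b - 1 = (a - 1) * (b - 1) + ((a - 1) + (b - 1)) := by ring
      rw [e]
      refine Valuation.map_add_lt _ ?_ (Valuation.map_add_lt _ ha hb)
      rw [map_mul]
      exact mul_lt_one' ha hb
    · simp
    · intro x hx
      have e : (1 - g x) y - 1 = - g x y := by simp
      rw [e, Valuation.map_neg]
      exact hgC x (Finset.mem_filter.1 hx).2 y hy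
  have he₀u : ∀ y ∈ C, A.valuation (e₀ y) = 1 := by
    intro y hy
    have e : e₀ y = (e₀ y - 1) + 1 := by ring
    have h1 : A.valuation (e₀ y - 1) < A.valuation 1 := by rw [map_one]; exact he₀1 y hy
    rw [e, Valuation.map_add_eq_of_lt_right _ h1, map_one]
  set P0 : K := ∏ y ∈ Finset.univ.filter (· ∈ C), (0 - e₀ y) with hP0
  have hP0v : A.valuation P0 = 1 := by
    rw [hP0, map_prod]
    refine Finset.prod_eq_one fun y hy => ?_
    rw [zero_sub, Valuation.map_neg]
    exact he₀u y (Finset.mem_filter.1 hy).2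
  have hP0ne : P0 ≠ 0 := by
    intro h
    rw [h, map_zero] at hP0v
    exact zero_ne_one hP0v
  have hP0inv : P0⁻¹ ∈ A := by
    rw [← A.valuation_le_one_iff, map_inv₀, hP0v, inv_one]
  refine ⟨1 - (∏ y ∈ Finset.univ.filter (· ∈ C), (e₀ - fun _ => e₀ y)) * fun _ => P0⁻¹,
    hsub _ hone _ (hmul _ (hprod _ _ fun y _ => hsub _ he₀S _ (hconst _ (hval _ he₀S y))) _
      (hconst _ hP0inv)), ?_, ?_⟩
  · intro x hx
    have e : (∏ y ∈ Finset.univ.filter (· ∈ C), (e₀ - fun _ => e₀ y) : M → K) x = 0 := by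
      rw [Finset.prod_apply]
      exact Finset.prod_eq_zero (Finset.mem_filter.2 ⟨Finset.mem_univ x, hx⟩) (by simp)
    simp [e]
  · intro x hx
    have e : (∏ y ∈ Finset.univ.filter (· ∈ C), (e₀ - fun _ => e₀ y) : M → K) x = P0 := by
      rw [Finset.prod_apply, hP0]
      refine Finset.prod_congr rfl fun y _ => ?_
      simp [he₀0 x hx]
    simp [e, hP0ne]

theorem indicatorStatement (hV : ValStatement) (hAs : AspanStatement) : IndicatorStatement := by
  intro r _ A hA M _ _ _ H hH
  obtain ⟨hmul, hconst, -, hval⟩ := hAs r A hA M H hH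
  have hHA : ∀ h ∈ H, ∀ x : M, h x ∈ A := hV r A hA M H hH
  obtain ⟨f, hf, h1, h0⟩ := indicatorStatement_aux A (aspan A H : Set (M → Qb)) (conn A H)
    (fun f hf f' hf' => (aspan A H).sub_mem hf hf') hmul hconst hval (by
      intro x hx
      simp only [conn, Set.mem_ofPred_eq, not_forall] at hx
      obtain ⟨h, hh, hu⟩ := hx
      have huA : h x - h 0 ∈ A := A.sub_mem (hHA h hh x) (hHA h hh 0)
      have hu1 : A.valuation (h x - h 0) = 1 := by
        rw [ValuationSubring.mem_nonunits_iff, not_lt] at hu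
        exact le_antisymm ((A.valuation_le_one_iff _).2 huA) hu
      have hune : h x - h 0 ≠ 0 := by
        intro h0
        rw [h0, map_zero] at hu1
        exact zero_ne_one hu1
      have huinv : (h x - h 0)⁻¹ ∈ A := by
        rw [← A.valuation_le_one_iff, map_inv₀, hu1, inv_one]
      refine ⟨(fun _ => (h x - h 0)⁻¹) * (h - fun _ => h 0), hmul _ (hconst _ huinv) _
        ((aspan A H).sub_mem (Submodule.subset_span hh) (hconst _ (hHA h hh 0))), ?_, ?_⟩
      · simp only [Pi.mul_apply, Pi.sub_apply]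
        exact inv_mul_cancel₀ hune
      · intro y hy
        have h2 := hy h hh
        rw [ValuationSubring.mem_nonunits_iff] at h2
        simp only [Pi.mul_apply, Pi.sub_apply]
        rw [map_mul, map_inv₀, hu1, inv_one, one_mul]
        exact h2)
  exact ⟨f, hf, h1, h0⟩

end Fermat.Agent.S15.HG
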