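/-
S15, block HG, node C2 (= L2) (blueprint helper64, proof helper187):
inertia at `A` moves points inside their `U⁰`-coset.
-/
import Fermat.Agent.S15.HG.Statements
import Fermat.Agent.Lib.InertiaField.Defs

set_option autoImplicit false

namespace Fermat.Agent.S15.HG

open Fermat.Agent.S19

theorem inertiaConnStatement (hV : ValStatement) (hC : ConnSubStatement) :
    InertiaConnStatement := by
  intro r _ A hA M _ _ _ H hH σ hσ x
  rw [(hC r A hA M H hH).2 (σ • x) x]
  intro h hh
  rw [hH.equivariant h hh σ x]
  exact Fermat.Agent.Lib.InertiaField.apply_sub_mem_nonunits A hσ (hV r A hA M H hH h hh x)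

end Fermat.Agent.S15.HG
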