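/-
S15, block HG, node K2 (helper11): `θ ^ r ∈ ℚ` with valuations divisible by `r` everywhere is
`± t₁ ^ r`.
-/
import Fermat.Agent.S15.HG.Statements
import Fermat.Agent.S19.BaseRing
import Fermat.Agent.Lib.InertiaField.Unram

set_option autoImplicit false

namespace Fermat.Agent.S15.HG

open Fermat.Agent.S19

private theorem kummerQStatement_val_natCast (A : ValuationSubring Qb) {ℓ : ℕ} (hℓ : ℓ.Prime)
    (hA : A.LiesOverPrime ℓ) {n : ℕ} (hn : n ≠ 0) :
    A.valuation (n : Qb) = A.valuation (ℓ : Qb) ^ (n.factorization ℓ) := by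
  have h := Nat.ordProj_mul_ordCompl_eq_self n ℓ
  have h2 : ¬ ℓ ∣ n / ℓ ^ n.factorization ℓ := Nat.not_dvd_ordCompl hℓ hn
  have h3 : A.valuation (((n / ℓ ^ n.factorization ℓ : ℕ) : ℤ) : Qb) = 1 :=
    Fermat.Agent.Lib.InertiaField.Unram.valuation_intCast_eq_one hℓ hA (by exact_mod_cast h2)
  rw [Int.cast_natCast] at h3
  conv_lhs => rw [← h]
  rw [Nat.cast_mul, Nat.cast_pow, map_mul, map_pow, h3, mul_one]

private theorem kummerQStatement_nat_pow {r n : ℕ} (hn : n ≠ 0)
    (h : ∀ ℓ : ℕ, ℓ.Prime → r ∣ n.factorization ℓ) : ∃ m : ℕ, n = m ^ r := by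
  refine ⟨n.factorization.prod fun p e => p ^ (e / r), ?_⟩
  conv_lhs => rw [← Nat.prod_factorization_pow_eq_self hn]
  rw [Finsupp.prod, Finsupp.prod, ← Finset.prod_pow]
  refine Finset.prod_congr rfl fun p hp => ?_
  rw [Nat.support_factorization] at hp
  rw [← pow_mul, Nat.div_mul_cancel (h p (Nat.prime_of_mem_primeFactors hp))]

theorem kummerQStatement : KummerQStatement := by
  intro r hr θ hθ hfix hval
  obtain ⟨q, hq⟩ := exists_rat_of_fixed (θ ^ r) hfix
  have hq0 : q ≠ 0 := by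
    rintro rfl
    rw [map_zero] at hq
    exact pow_ne_zero r hθ hq.symm
  have hn0 : q.num.natAbs ≠ 0 := Int.natAbs_ne_zero.2 (Rat.num_ne_zero.2 hq0)
  have hd0 : q.den ≠ 0 := q.den_nz
  have hqc : algebraMap ℚ Qb q = (q.num : Qb) / (q.den : Qb) := by
    rw [eq_ratCast, Rat.cast_def]
  have key : ∀ ℓ : ℕ, ℓ.Prime →
      r ∣ q.num.natAbs.factorization ℓ ∧ r ∣ q.den.factorization ℓ := by
    intro ℓ hℓ
    obtain ⟨A, hA, k, hk⟩ := hval ℓ hℓ
    have hℓ0 : (ℓ : Qb) ≠ 0 := by exact_mod_cast hℓ.ne_zero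
    have hv0 : A.valuation (ℓ : Qb) ≠ 0 := (Valuation.ne_zero_iff _).2 hℓ0
    have hv1 : A.valuation (ℓ : Qb) ≠ 1 := ((ValuationSubring.mem_nonunits_iff A).1 hA).ne
    have hnum : A.valuation (q.num : Qb) = A.valuation ((q.num.natAbs : ℕ) : Qb) := by
      rcases Int.natAbs_eq q.num with h | h
      · conv_lhs => rw [h]
        rw [Int.cast_natCast]
      · conv_lhs => rw [h]
        rw [Int.cast_neg, Int.cast_natCast, Valuation.map_neg]
    have e1 : A.valuation (ℓ : Qb) ^ (k * r) =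
        A.valuation (ℓ : Qb) ^ ((q.num.natAbs.factorization ℓ : ℤ) - (q.den.factorization ℓ : ℤ)) := by
      rw [zpow_mul, ← hk, zpow_natCast, ← map_pow, ← hq, hqc, map_div₀, hnum,
        kummerQStatement_val_natCast A hℓ hA hn0, kummerQStatement_val_natCast A hℓ hA hd0,
        zpow_sub₀ hv0, zpow_natCast, zpow_natCast]
    have e2 : k * r = (q.num.natAbs.factorization ℓ : ℤ) - (q.den.factorization ℓ : ℤ) :=
      zpow_right_injective₀ (zero_lt_iff.2 hv0) hv1 e1
    by_cases hdvd : ℓ ∣ q.den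
    · have hnd : ¬ ℓ ∣ q.num.natAbs := by
        intro h
        have := Nat.Coprime.eq_one_of_dvd ((Nat.Coprime.coprime_dvd_left h q.reduced)) hdvd
        exact hℓ.one_lt.ne' this
      have h0 : q.num.natAbs.factorization ℓ = 0 := Nat.factorization_eq_zero_of_not_dvd hnd
      refine ⟨by rw [h0]; exact dvd_zero r, ?_⟩
      rw [h0] at e2
      have : (r : ℤ) ∣ (q.den.factorization ℓ : ℤ) := ⟨-k, by push_cast at e2 ⊢; linarith⟩
      exact_mod_cast this
    · have h0 : q.den.factorization ℓ = 0 := Nat.factorization_eq_zero_of_not_dvd hdvd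
      refine ⟨?_, by rw [h0]; exact dvd_zero r⟩
      rw [h0] at e2
      have : (r : ℤ) ∣ (q.num.natAbs.factorization ℓ : ℤ) := ⟨k, by push_cast at e2 ⊢; linarith⟩
      exact_mod_cast this
  obtain ⟨m, hm⟩ := kummerQStatement_nat_pow hn0 fun ℓ hℓ => (key ℓ hℓ).1
  obtain ⟨m', hm'⟩ := kummerQStatement_nat_pow hd0 fun ℓ hℓ => (key ℓ hℓ).2
  have hm0 : (m : ℚ) ≠ 0 := by
    have : m ≠ 0 := by
      rintro rfl
      rw [zero_pow hr.ne_zero] at hm
      exact hn0 hm
    exact_mod_cast this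
  have hm'0 : (m' : ℚ) ≠ 0 := by
    have : m' ≠ 0 := by
      rintro rfl
      rw [zero_pow hr.ne_zero] at hm'
      exact hd0 hm'
    exact_mod_cast this
  refine ⟨(m : ℚ) / m', div_ne_zero hm0 hm'0, ?_⟩
  have hden : (q.den : ℚ) = (m' : ℚ) ^ r := by rw [hm']; push_cast; rfl
  have habs : ((q.num.natAbs : ℕ) : ℚ) = (m : ℚ) ^ r := by rw [hm]; push_cast; rfl
  rcases Int.natAbs_eq q.num with h | h
  · left
    have : q = ((m : ℚ) / m') ^ r := by
      conv_lhs => rw [← Rat.num_div_den q, h]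
      rw [Int.cast_natCast, habs, hden, div_pow]
    rw [← hq, ← map_pow, ← this]
  · right
    have : q = -((m : ℚ) / m') ^ r := by
      conv_lhs => rw [← Rat.num_div_den q, h]
      rw [Int.cast_neg, Int.cast_natCast, habs, hden, div_pow, neg_div]
    rw [← hq, ← map_pow, ← map_neg, ← this]

end Fermat.Agent.S15.HG
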