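/-
S15, block HG.  Node HG-L1 (task 2518, helper122): `U''⁰ = π (U⁰)`.
-/
import Fermat.Agent.S15.HG.Statements

set_option autoImplicit false

namespace Fermat.Agent.S15.HG

open Fermat.Agent.S19

/-- The sum of two non units of a valuation ring is a non unit. -/
private theorem l1Statement_add_mem (A : ValuationSubring Qb) {a b : Qb} (ha : a ∈ A.nonunits)
    (hb : b ∈ A.nonunits) : a + b ∈ A.nonunits := by
  rw [ValuationSubring.mem_nonunits_iff] at ha hb ⊢
  exact lt_of_le_of_lt (A.valuation.map_add a b) (max_lt ha hb)

/-- An element of the ring times a non unit is a non unit. -/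
private theorem l1Statement_mul_mem (A : ValuationSubring Qb) {a b : Qb} (ha : a ∈ A)
    (hb : b ∈ A.nonunits) : a * b ∈ A.nonunits := by
  rw [ValuationSubring.mem_nonunits_iff] at hb ⊢
  rw [map_mul]
  exact lt_of_le_of_lt (mul_le_of_le_one_left' ((A.valuation_le_one_iff a).2 ha)) hb

/-- Elements of `A·H` are constant modulo the maximal ideal on the connected part. -/
private theorem l1Statement_aspan_conn {r : ℕ} (A : ValuationSubring Qb) {M : Type}
    [AddCommGroup M] (H : Subalgebra (Rl r) (M → Qb)) {f : M → Qb} (hf : f ∈ aspan A H)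
    {s : M} (hs : s ∈ conn A H) : f s - f 0 ∈ A.nonunits := by
  unfold aspan at hf
  induction hf using Submodule.span_induction with
  | mem h hh => exact hs h hh
  | zero =>
    rw [ValuationSubring.mem_nonunits_iff]
    simp
  | add f g _ _ hf hg =>
    have h1 : (f + g) s - (f + g) 0 = (f s - f 0) + (g s - g 0) := by
      simp only [Pi.add_apply]; ring
    rw [h1]
    exact l1Statement_add_mem A hf hg
  | smul a f _ hf =>
    have h1 : (a • f) s - (a • f) 0 = (a : Qb) * (f s - f 0) := by
      have h2 : ∀ z : Qb, a • z = (a : Qb) * z := fun _ => rfl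
      simp only [Pi.smul_apply, h2]; ring
    rw [h1]
    exact l1Statement_mul_mem A a.2 hf

/-- **L1**: `U''⁰ = π (U⁰)`. -/
theorem l1Statement (hI : IndicatorStatement) (hSat : SaturationStatement) (hAs : AspanStatement)
    (hC : ConnSubStatement) (hQ : QuotStatement) : L1Statement := by
  intro r _ A hA M M'' _ _ _ _ _ φ hsurj hequiv H hH
  classical
  have := Fintype.ofFinite M
  apply Set.Subset.antisymm
  · -- `⊆`
    intro s hs
    obtain ⟨e, he, he1, he0⟩ := hI r A hA M H hH
    obtain ⟨hmul, hconst, htrans, -⟩ := hAs r A hA M H hH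
    -- the kernel of `φ`
    set T : Finset M := Finset.univ.filter (fun k => φ k = 0) with hT
    -- the indicator of `C + ker φ`
    set P : M → Qb := ∏ k ∈ T, ((fun _ : M => (1 : Qb)) - fun x => e (x + k)) with hP
    have hone : (fun _ : M => (1 : Qb)) ∈ aspan A H := hconst 1 A.one_mem
    have hPmem : P ∈ aspan A H := by
      rw [hP]
      refine Finset.prod_induction _ (fun g => g ∈ aspan A H) (fun a b ha hb => hmul a ha b hb)
        hone (fun k _ => ?_)
      exact Submodule.sub_mem _ hone (htrans e he k)
    set f : M'' → Qb := fun t => if ∃ x ∈ conn A H, φ x = t then 1 else 0 with hf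
    have hFf : (fun x => f (φ x)) = (fun _ : M => (1 : Qb)) - P := by
      funext x
      rw [Pi.sub_apply, hP, Finset.prod_apply]
      by_cases hx : ∃ y ∈ conn A H, φ y = φ x
      · have h1 : f (φ x) = 1 := if_pos hx
        obtain ⟨y, hy, hyx⟩ := hx
        have hk : y - x ∈ T := by
          rw [hT, Finset.mem_filter]
          exact ⟨Finset.mem_univ _, by rw [map_sub, hyx, sub_self]⟩
        rw [h1, Finset.prod_eq_zero hk, sub_zero]
        rw [Pi.sub_apply]
        have h2 : x + (y - x) = y := by abel
        rw [h2, he1 y hy, sub_self]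
      · have h1 : f (φ x) = 0 := if_neg hx
        rw [h1, Finset.prod_eq_one, sub_self]
        intro k hk
        rw [hT, Finset.mem_filter] at hk
        rw [Pi.sub_apply, he0 (x + k), sub_zero]
        intro hxk
        exact hx ⟨x + k, hxk, by rw [map_add, hk.2, add_zero]⟩
    have hfmem : f ∈ aspan A (quotOrder φ H) := by
      apply hSat r A hA M M'' φ hsurj hequiv H hH f
      rw [hFf]
      exact Submodule.sub_mem _ hone hPmem
    have hdiff := l1Statement_aspan_conn A (quotOrder φ H) hfmem hs
    have h0 : (0 : M) ∈ conn A H := by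
      intro h _
      rw [sub_self, ValuationSubring.mem_nonunits_iff, map_zero]
      exact zero_lt_one
    have hf0 : f 0 = 1 := if_pos ⟨0, h0, map_zero φ⟩
    by_contra hcon
    have hfs : f s = 0 := if_neg hcon
    rw [hf0, hfs, zero_sub, ValuationSubring.mem_nonunits_iff, Valuation.map_neg, map_one] at hdiff
    exact lt_irrefl _ hdiff
  · -- `⊇`
    rintro _ ⟨x, hx, rfl⟩ g hg
    have h1 := hx (fun y => g (φ y)) ((mem_quotOrder φ H g).1 hg)
    simpa using h1

end Fermat.Agent.S15.HG
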