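/-
S15, block HG, node L3.  Owner: helper50.  Architect: helper64.

An equivariant character of a finite Galois module lies in every Hopf order on it.

Proof.  Let `b i` be an `Rl`-basis of `H` which is a `ℚ̄`-basis of the function space, write
`χ = ∑ c i • b i`.  The coordinates are Galois fixed, hence rational.  The comultiplication gives
structure constants `γ k (i, j) ∈ Rl`, and multiplicativity of `χ` gives
`c i * c j = ∑ k, γ k (i, j) * c k`.  So the `Rl`-span of the `c i` is a nonzero finitely generated
module stable under every `c i`; the `c i` are integral over `Rl`, hence in `Rl`.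
-/
import Fermat.Agent.S15.HG.Statements
import Fermat.Agent.S19.Lattice
import Fermat.Agent.S19.FullLattice
import Fermat.Agent.S19.BaseRing

set_option autoImplicit false

namespace Fermat.Agent.S15.HG

open Fermat.Agent.S19

/-- The structure constants of the comultiplication in a basis. -/
theorem l3_exists_gamma {R K X : Type} [CommRing R] [Field K] [Algebra R K]
    {H : Subalgebra R (X → K)} {ι : Type} [Fintype ι] (b : Module.Basis ι R H)
    (F : X × X → K) (hF : F ∈ Submodule.span R (prodFun H H)) :
    ∃ γ : ι × ι → R, ∀ x y : X,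
      F (x, y) = ∑ ij : ι × ι, algebraMap R K (γ ij) *
        (((b ij.1 : H) : X → K) x * ((b ij.2 : H) : X → K) y) := by
  classical
  rw [← range_mulMap_toSubmodule] at hF
  obtain ⟨t, rfl⟩ : ∃ t, mulMap H H t = F := by
    simpa using hF
  set B := b.tensorProduct b with hB
  refine ⟨fun ij => B.repr t ij, fun x y => ?_⟩
  have hsum : t = ∑ ij, B.repr t ij • B ij := (B.sum_repr t).symm
  conv_lhs => rw [hsum]
  rw [map_sum, Finset.sum_apply]
  refine Finset.sum_congr rfl fun ij _ => ?_
  rw [map_smul, hB, LatticeAux.mulMap_basis, ← hB, Pi.smul_apply, Algebra.smul_def]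

/-- The coordinates of an equivariant function in an equivariant basis are Galois fixed. -/
theorem l3_coord_fixed {M : Type} [AddCommGroup M] [DistribMulAction Gal M] {ι : Type} [Fintype ι]
    (B : ι → M → Qb) (hB : ∀ (i : ι) (σ : Gal) (x : M), B i (σ • x) = σ (B i x))
    (hli : LinearIndependent Qb B) (χ : M → Qb) (hχ : ∀ (g : Gal) (x : M), χ (g • x) = g (χ x))
    (c : ι → Qb) (hc : ∑ i, c i • B i = χ) (σ : Gal) (i : ι) : σ (c i) = c i := by
  classical
  have h1 : ∑ i, σ (c i) • B i = χ := by
    funext x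
    have hx : x = σ • (σ⁻¹ • x) := by simp
    have h2 : χ x = σ (χ (σ⁻¹ • x)) := by rw [← hχ, ← hx]
    rw [h2, ← hc]
    simp only [Finset.sum_apply, Pi.smul_apply, smul_eq_mul, map_sum, map_mul]
    refine Finset.sum_congr rfl fun i _ => ?_
    rw [← hB, ← hx]
  have h3 : ∑ i, (σ (c i) - c i) • B i = 0 := by
    simp only [sub_smul, Finset.sum_sub_distrib, h1, hc, sub_self]
  have := (Fintype.linearIndependent_iff.1 hli) _ h3 i
  exact sub_eq_zero.1 this

theorem l3Statement : L3Statement := by
  classical
  intro r _ M _ _ _ H hH χ hχ0 hχmul hχeq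
  obtain ⟨ι, _, b, hli, hsp⟩ := hH.isFullLattice
  set B : ι → M → Qb := fun i => ((b i : H) : M → Qb) with hBdef
  have hBeq : ∀ (i : ι) (σ : Gal) (x : M), B i (σ • x) = σ (B i x) :=
    fun i σ x => hH.equivariant _ (b i).2 σ x
  -- coordinates
  obtain ⟨c, hc⟩ : ∃ c : ι → Qb, ∑ i, c i • B i = χ := by
    have : χ ∈ Submodule.span Qb (Set.range B) := by rw [hsp]; trivial
    exact (Submodule.mem_span_range_iff_exists_fun Qb).1 this
  have hcx : ∀ x, χ x = ∑ i, c i * B i x := by
    intro x
    rw [← hc]
    simp only [Finset.sum_apply, Pi.smul_apply, smul_eq_mul]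
  -- rationality
  have hrat : ∀ i, ∃ q : ℚ, algebraMap ℚ Qb q = c i := fun i =>
    exists_rat_of_fixed (c i) fun σ => l3_coord_fixed B hBeq hli χ hχeq c hc σ i
  choose q hq using hrat
  -- structure constants
  have hγ : ∀ k : ι, ∃ γ : ι × ι → Rl r, ∀ x y : M,
      B k (x + y) = ∑ ij : ι × ι, algebraMap (Rl r) Qb (γ ij) * (B ij.1 x * B ij.2 y) := fun k =>
    l3_exists_gamma b (fun q : M × M => B k (q.1 + q.2)) (hH.comul _ (b k).2)
  choose γ hγ using hγ
  have hind := LatticeAux.linearIndependent_prod (X := M) (Y := M) hli hli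
  have hmul : ∀ ij : ι × ι, c ij.1 * c ij.2 = ∑ k, algebraMap (Rl r) Qb (γ k ij) * c k := by
    intro ij
    have h0 : ∑ ij : ι × ι, (c ij.1 * c ij.2 - ∑ k, algebraMap (Rl r) Qb (γ k ij) * c k) •
        (fun q : M × M => B ij.1 q.1 * B ij.2 q.2) = 0 := by
      funext ⟨x, y⟩
      simp only [Finset.sum_apply, Pi.smul_apply, smul_eq_mul, Pi.zero_apply, sub_mul,
        Finset.sum_sub_distrib]
      have e1 : ∑ ij : ι × ι, c ij.1 * c ij.2 * (B ij.1 x * B ij.2 y) = χ x * χ y := by
        rw [hcx x, hcx y, Finset.sum_mul_sum, Fintype.sum_prod_type]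
        refine Finset.sum_congr rfl fun i _ => Finset.sum_congr rfl fun j _ => ?_
        ring
      have e2 : ∑ ij : ι × ι, (∑ k, algebraMap (Rl r) Qb (γ k ij) * c k) * (B ij.1 x * B ij.2 y)
          = χ (x + y) := by
        rw [hcx (x + y)]
        simp only [hγ, Finset.sum_mul, Finset.mul_sum]
        rw [Finset.sum_comm]
        refine Finset.sum_congr rfl fun k _ => Finset.sum_congr rfl fun ij _ => ?_
        ring
      rw [e1, e2, hχmul, sub_self]
    exact sub_eq_zero.1 ((Fintype.linearIndependent_iff.1 hind) _ h0 ij)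
  -- integrality
  let S : Submodule (Rl r) Qb := Submodule.span (Rl r) (Set.range c)
  have hSfg : S.FG := Submodule.fg_span (Set.finite_range c)
  have hSne : S ≠ ⊥ := by
    intro hS
    have hc0 : ∀ i, c i = 0 := fun i => by
      have : c i ∈ S := Submodule.subset_span ⟨i, rfl⟩
      rw [hS] at this
      simpa using this
    have : χ 0 = 0 := by
      rw [hcx]
      exact Finset.sum_eq_zero fun i _ => by rw [hc0 i, zero_mul]
    rw [hχ0] at this
    exact one_ne_zero this
  have hint : ∀ i, IsIntegral (Rl r) (c i) := by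
    intro i
    refine isIntegral_of_smul_mem_submodule S hSne hSfg (c i) ?_
    intro n hn
    induction hn using Submodule.span_induction with
    | mem x hx =>
      obtain ⟨j, rfl⟩ := hx
      rw [smul_eq_mul, hmul (i, j)]
      refine Submodule.sum_mem _ fun k _ => ?_
      rw [← Algebra.smul_def]
      exact Submodule.smul_mem _ _ (Submodule.subset_span ⟨k, rfl⟩)
    | zero => rw [smul_zero]; exact Submodule.zero_mem _
    | add x y _ _ hx hy => rw [smul_add]; exact Submodule.add_mem _ hx hy
    | smul a x _ hx => rw [smul_comm]; exact Submodule.smul_mem _ _ hx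
  have hmem : ∀ i, q i ∈ Rl r := fun i => mem_Rl_of_isIntegral r (q i) (by rw [hq]; exact hint i)
  -- conclusion
  have hfin : χ = ∑ i, (⟨q i, hmem i⟩ : Rl r) • B i := by
    rw [← hc]
    refine Finset.sum_congr rfl fun i _ => ?_
    funext x
    rw [Pi.smul_apply, Pi.smul_apply, smul_eq_mul, Algebra.smul_def, ← hq]
    rfl
  rw [hfin]
  exact H.sum_mem fun i _ => H.smul_mem (b i).2 _

end Fermat.Agent.S15.HG
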