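/-
S15, block HG, node L4 (owner helper281): for `r` odd a Hopf order on the trivial Galois module of
order `r` is étale.

Proof.  If the connected part is not `{0}` it is everything, so all `h x - h 0` lie in `r ℤ_(r)`.
If all `h x - h 0` lie in `r ^ c ℤ_(r)` (`c ≥ 1`), then the comultiplication gives
`h (n x) - h 0 ≡ n (h x - h 0) + C(n, 2) B(x)` modulo `r ^ (3 c)` with `B(x) ∈ r ^ (2 c) ℤ_(r)`;
for `n = r` this shows `h x - h 0 ∈ r ^ (c + 1) ℤ_(r)`.  Hence `h x = h 0` for all `h`, `x`.
-/
import Fermat.Agent.S15.HG.Statements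
import Fermat.Agent.S19.BaseRing
import Fermat.Agent.S28.ZlRing

set_option autoImplicit false

noncomputable section

namespace Fermat.Agent.S15.HG

open Fermat.Agent.S19

/-- `r ^ c ℤ_(r)` inside `ℚ̄`. -/
def l4Statement_I (r c : ℕ) : Submodule (Rl r) Qb := Submodule.span (Rl r) {(r : Qb) ^ c}

theorem l4Statement_mem_I {r c : ℕ} {z : Qb} :
    z ∈ l4Statement_I r c ↔ ∃ t : Rl r, z = algebraMap (Rl r) Qb t * (r : Qb) ^ c := by
  rw [l4Statement_I, Submodule.mem_span_singleton]
  constructor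
  · rintro ⟨t, rfl⟩
    exact ⟨t, Algebra.smul_def _ _⟩
  · rintro ⟨t, rfl⟩
    exact ⟨t, Algebra.smul_def _ _⟩

theorem l4Statement_mul_mem {r a b : ℕ} {z w : Qb} (hz : z ∈ l4Statement_I r a)
    (hw : w ∈ l4Statement_I r b) : z * w ∈ l4Statement_I r (a + b) := by
  obtain ⟨s, rfl⟩ := l4Statement_mem_I.1 hz
  obtain ⟨t, rfl⟩ := l4Statement_mem_I.1 hw
  exact l4Statement_mem_I.2 ⟨s * t, by rw [map_mul, pow_add]; ring⟩

theorem l4Statement_mono {r a b : ℕ} (hab : a ≤ b) {z : Qb} (hz : z ∈ l4Statement_I r b) :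
    z ∈ l4Statement_I r a := by
  obtain ⟨t, rfl⟩ := l4Statement_mem_I.1 hz
  obtain ⟨k, rfl⟩ := Nat.exists_eq_add_of_le hab
  refine l4Statement_mem_I.2 ⟨t * (r : Rl r) ^ k, ?_⟩
  rw [map_mul, map_pow, map_natCast, pow_add]
  ring

theorem l4Statement_natCast_mul_mem {r c : ℕ} (n : ℕ) {z : Qb} (hz : z ∈ l4Statement_I r c) :
    (n : Qb) * z ∈ l4Statement_I r c := by
  rw [← nsmul_eq_mul]
  exact nsmul_mem hz n

theorem l4Statement_self_mul_mem {r c : ℕ} {z : Qb} (hz : z ∈ l4Statement_I r c) :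
    (r : Qb) * z ∈ l4Statement_I r (c + 1) := by
  obtain ⟨t, rfl⟩ := l4Statement_mem_I.1 hz
  exact l4Statement_mem_I.2 ⟨t, by rw [pow_succ]; ring⟩

theorem l4Statement_of_self_mul_mem {r c : ℕ} (hr : r ≠ 0) {z : Qb}
    (hz : (r : Qb) * z ∈ l4Statement_I r (c + 1)) : z ∈ l4Statement_I r c := by
  obtain ⟨t, ht⟩ := l4Statement_mem_I.1 hz
  refine l4Statement_mem_I.2 ⟨t, ?_⟩
  have hr0 : (r : Qb) ≠ 0 := Nat.cast_ne_zero.2 hr
  apply mul_left_cancel₀ hr0
  rw [ht, pow_succ]
  ring

/-- an element of `ℤ_(r)` which is a nonunit of `A` is divisible by `r`. -/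
theorem l4Statement_mem_I_one {r : ℕ} [Fact r.Prime] (A : ValuationSubring Qb)
    (hA : A.LiesOverPrime r) (t : Rl r) (ht : algebraMap (Rl r) Qb t ∈ A.nonunits) :
    algebraMap (Rl r) Qb t ∈ l4Statement_I r 1 := by
  by_cases hu : IsUnit t
  · exfalso
    obtain ⟨u, rfl⟩ := hu
    have h1 : algebraMap (Rl r) Qb (u : Rl r) * algebraMap (Rl r) Qb ((u⁻¹ : (Rl r)ˣ) : Rl r) = 1 := by
      rw [← map_mul, Units.mul_inv, map_one]
    have h2 : A.valuation (algebraMap (Rl r) Qb (u : Rl r)) < 1 := ht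
    have h3 : A.valuation (algebraMap (Rl r) Qb ((u⁻¹ : (Rl r)ˣ) : Rl r)) ≤ 1 :=
      (A.valuation_le_one_iff _).2 (BaseRing.algebraMap_mem A hA _)
    have h4 := congrArg A.valuation h1
    rw [map_mul, map_one] at h4
    have h5 : A.valuation (algebraMap (Rl r) Qb (u : Rl r)) *
        A.valuation (algebraMap (Rl r) Qb ((u⁻¹ : (Rl r)ˣ) : Rl r)) < 1 :=
      lt_of_le_of_lt (mul_le_of_le_one_right' h3) h2
    rw [h4] at h5
    exact lt_irrefl _ h5
  · rw [Fermat.Agent.S28.ZlRing.isUnit_iff, not_not,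
      Fermat.Agent.S28.ZlRing.red_eq_zero_iff] at hu
    obtain ⟨y, rfl⟩ := hu
    refine l4Statement_mem_I.2 ⟨y, ?_⟩
    rw [map_mul, map_natCast, pow_one, mul_comm]

/-- `⋂ r ^ c ℤ_(r) = 0`. -/
theorem l4Statement_eq_zero {r : ℕ} [Fact r.Prime] {z : Qb}
    (hz : ∀ c, z ∈ l4Statement_I r c) : z = 0 := by
  obtain ⟨t, ht⟩ := l4Statement_mem_I.1 (hz 0)
  rw [pow_zero, mul_one] at ht
  have hinj : Function.Injective (algebraMap (Rl r) Qb) :=
    (algebraMap ℚ Qb).injective.comp Subtype.val_injective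
  by_contra hz0
  have ht0 : t ≠ 0 := by
    rintro rfl
    exact hz0 (by rw [ht, map_zero])
  have := Fermat.Agent.S28.ZlRing.isDiscreteValuationRing r
  obtain ⟨n, hn⟩ := FiniteMultiplicity.of_not_isUnit
    (Fermat.Agent.S28.ZlRing.not_isUnit_natCast r) ht0
  apply hn
  obtain ⟨s, hs⟩ := l4Statement_mem_I.1 (hz (n + 1))
  refine ⟨s, hinj ?_⟩
  rw [← ht, hs, map_mul, map_pow, map_natCast, mul_comm]

section Main

variable {r : ℕ} {M : Type} [AddCommGroup M]

/-- the reduced part of a function of two variables. -/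
def l4Statement_red (F : M × M → Qb) (x y : M) : Qb := F (x, y) - F (x, 0) - F (0, y) + F (0, 0)

theorem l4Statement_red_add (F G : M × M → Qb) (x y : M) :
    l4Statement_red (F + G) x y = l4Statement_red F x y + l4Statement_red G x y := by
  simp only [l4Statement_red, Pi.add_apply]
  ring

theorem l4Statement_red_smul (t : Rl r) (F : M × M → Qb) (x y : M) :
    l4Statement_red (t • F) x y = t • l4Statement_red F x y := by
  simp only [l4Statement_red, Pi.smul_apply, smul_add, smul_sub]

theorem l4Statement_red_zero (x y : M) : l4Statement_red (0 : M × M → Qb) x y = 0 := by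
  simp [l4Statement_red]

theorem l4Statement_red_prod (a b : M → Qb) (x y : M) :
    l4Statement_red (fun q : M × M => a q.1 * b q.2) x y = (a x - a 0) * (b y - b 0) := by
  simp only [l4Statement_red]
  ring

theorem l4Statement_red_comul (h : M → Qb) (x y : M) :
    l4Statement_red (fun q : M × M => h (q.1 + q.2)) x y = h (x + y) - h x - h y + h 0 := by
  simp only [l4Statement_red, add_zero, zero_add]

variable {H : Subalgebra (Rl r) (M → Qb)} {c : ℕ}

theorem l4Statement_P1 (hc : ∀ h ∈ H, ∀ x, h x - h 0 ∈ l4Statement_I r c) {F : M × M → Qb}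
    (hF : F ∈ Submodule.span (Rl r) (prodFun H H)) (x y : M) :
    l4Statement_red F x y ∈ l4Statement_I r (c + c) := by
  induction hF using Submodule.span_induction with
  | mem F hF =>
    obtain ⟨a, ha, b, hb, rfl⟩ := hF
    rw [l4Statement_red_prod]
    exact l4Statement_mul_mem (hc a ha x) (hc b hb y)
  | zero =>
    rw [l4Statement_red_zero]
    exact zero_mem _
  | add F G _ _ hF hG =>
    rw [l4Statement_red_add]
    exact add_mem hF hG
  | smul t F _ hF =>
    rw [l4Statement_red_smul]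
    exact Submodule.smul_mem _ _ hF

theorem l4Statement_lin
    (hcom : ∀ h ∈ H, (fun q : M × M => h (q.1 + q.2)) ∈ Submodule.span (Rl r) (prodFun H H))
    (hc : ∀ h ∈ H, ∀ x, h x - h 0 ∈ l4Statement_I r c) {h : M → Qb} (hh : h ∈ H) (x : M) (n : ℕ) :
    h (n • x) - h 0 - (n : Qb) * (h x - h 0) ∈ l4Statement_I r (c + c) := by
  induction n with
  | zero =>
    simp
  | succ n ih =>
    have h1 := l4Statement_P1 hc (hcom h hh) (n • x) x
    rw [l4Statement_red_comul] at h1
    have h2 : h ((n + 1) • x) - h 0 - ((n + 1 : ℕ) : Qb) * (h x - h 0) =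
        (h (n • x) - h 0 - (n : Qb) * (h x - h 0)) + (h (n • x + x) - h (n • x) - h x + h 0) := by
      rw [succ_nsmul]
      push_cast
      ring
    rw [h2]
    exact add_mem ih h1

theorem l4Statement_P2
    (hcom : ∀ h ∈ H, (fun q : M × M => h (q.1 + q.2)) ∈ Submodule.span (Rl r) (prodFun H H))
    (hc : ∀ h ∈ H, ∀ x, h x - h 0 ∈ l4Statement_I r c) {F : M × M → Qb}
    (hF : F ∈ Submodule.span (Rl r) (prodFun H H)) (x : M) (n : ℕ) :
    l4Statement_red F (n • x) x - (n : Qb) * l4Statement_red F x x ∈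
      l4Statement_I r (c + c + c) := by
  induction hF using Submodule.span_induction with
  | mem F hF =>
    obtain ⟨a, ha, b, hb, rfl⟩ := hF
    rw [l4Statement_red_prod, l4Statement_red_prod]
    have h1 : (a (n • x) - a 0) * (b x - b 0) - (n : Qb) * ((a x - a 0) * (b x - b 0)) =
        (a (n • x) - a 0 - (n : Qb) * (a x - a 0)) * (b x - b 0) := by ring
    rw [h1]
    exact l4Statement_mul_mem (l4Statement_lin hcom hc ha x n) (hc b hb x)
  | zero =>
    rw [l4Statement_red_zero, l4Statement_red_zero, mul_zero, sub_zero]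
    exact zero_mem _
  | add F G _ _ hF hG =>
    rw [l4Statement_red_add, l4Statement_red_add]
    have h1 : l4Statement_red F (n • x) x + l4Statement_red G (n • x) x -
        (n : Qb) * (l4Statement_red F x x + l4Statement_red G x x) =
        (l4Statement_red F (n • x) x - (n : Qb) * l4Statement_red F x x) +
        (l4Statement_red G (n • x) x - (n : Qb) * l4Statement_red G x x) := by ring
    rw [h1]
    exact add_mem hF hG
  | smul t F _ hF =>
    rw [l4Statement_red_smul, l4Statement_red_smul]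
    have h1 : t • l4Statement_red F (n • x) x - (n : Qb) * t • l4Statement_red F x x =
        t • (l4Statement_red F (n • x) x - (n : Qb) * l4Statement_red F x x) := by
      rw [smul_sub, mul_smul_comm]
    rw [h1]
    exact Submodule.smul_mem _ _ hF

theorem l4Statement_quad
    (hcom : ∀ h ∈ H, (fun q : M × M => h (q.1 + q.2)) ∈ Submodule.span (Rl r) (prodFun H H))
    (hc : ∀ h ∈ H, ∀ x, h x - h 0 ∈ l4Statement_I r c) {h : M → Qb} (hh : h ∈ H) (x : M) (n : ℕ) :
    h (n • x) - h 0 - (n : Qb) * (h x - h 0) -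
      (n.choose 2 : Qb) * l4Statement_red (fun q : M × M => h (q.1 + q.2)) x x ∈
      l4Statement_I r (c + c + c) := by
  induction n with
  | zero =>
    simp
  | succ n ih =>
    have h1 := l4Statement_P2 hcom hc (hcom h hh) x n
    have h3 : l4Statement_red (fun q : M × M => h (q.1 + q.2)) (n • x) x =
        h (n • x + x) - h (n • x) - h x + h 0 := l4Statement_red_comul h _ _
    have h4 : ((n + 1).choose 2 : Qb) = (n : Qb) + (n.choose 2 : Qb) := by
      rw [Nat.choose_succ_succ' n 1, Nat.choose_one_right]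
      push_cast
      ring
    have h2 : h ((n + 1) • x) - h 0 - ((n + 1 : ℕ) : Qb) * (h x - h 0) -
        ((n + 1).choose 2 : Qb) * l4Statement_red (fun q : M × M => h (q.1 + q.2)) x x =
        (h (n • x) - h 0 - (n : Qb) * (h x - h 0) -
          (n.choose 2 : Qb) * l4Statement_red (fun q : M × M => h (q.1 + q.2)) x x) +
        (l4Statement_red (fun q : M × M => h (q.1 + q.2)) (n • x) x -
          (n : Qb) * l4Statement_red (fun q : M × M => h (q.1 + q.2)) x x) := by
      rw [h3, h4, succ_nsmul]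
      push_cast
      ring
    rw [h2]
    exact add_mem ih h1

theorem l4Statement_step (hr : r.Prime) (hr2 : r ≠ 2) (htors : ∀ x : M, r • x = 0)
    (hcom : ∀ h ∈ H, (fun q : M × M => h (q.1 + q.2)) ∈ Submodule.span (Rl r) (prodFun H H))
    (hc1 : 1 ≤ c) (hc : ∀ h ∈ H, ∀ x, h x - h 0 ∈ l4Statement_I r c) :
    ∀ h ∈ H, ∀ x, h x - h 0 ∈ l4Statement_I r (c + 1) := by
  intro h hh x
  have h1 := l4Statement_quad hcom hc hh x r
  rw [htors x, sub_self, zero_sub] at h1
  have hB := l4Statement_P1 hc (hcom h hh) x x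
  have hlt : 2 < r := lt_of_le_of_ne hr.two_le (Ne.symm hr2)
  obtain ⟨k, hk⟩ := hr.dvd_choose_self (k := 2) (by norm_num) hlt
  refine l4Statement_of_self_mul_mem hr.ne_zero ?_
  have h2 : (r : Qb) * (h x - h 0) =
      -(-((r : Qb) * (h x - h 0)) -
        (r.choose 2 : Qb) * l4Statement_red (fun q : M × M => h (q.1 + q.2)) x x) -
      (r : Qb) * ((k : Qb) * l4Statement_red (fun q : M × M => h (q.1 + q.2)) x x) := by
    rw [hk]
    push_cast
    ring
  rw [h2]
  refine sub_mem (neg_mem (l4Statement_mono (by omega) h1)) ?_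
  exact l4Statement_mono (by omega)
    (l4Statement_self_mul_mem (l4Statement_natCast_mul_mem k hB))

end Main

/-- L4. -/
theorem l4Statement (_hV : ValStatement) (hC : ConnSubStatement) : L4Statement := by
  intro r _ hr2 A hA M _ _ _ hcard htriv H hH
  have hr : r.Prime := Fact.out
  obtain ⟨⟨C, hCeq⟩, -⟩ := hC r A hA M H hH
  have hfact : Fact (Nat.card M).Prime := ⟨hcard ▸ hr⟩
  rcases C.eq_bot_or_eq_top_of_prime_card with hbot | htop
  · rw [← hCeq, hbot]
    rfl
  · exfalso
    have huniv : ∀ x : M, x ∈ conn A H := by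
      intro x
      rw [← hCeq, htop]
      exact AddSubgroup.mem_top x
    -- the values are in `ℤ_(r)`
    have hval : ∀ h ∈ H, ∀ x : M, ∃ t : Rl r, algebraMap (Rl r) Qb t = h x := by
      intro h hh x
      have hfix : ∀ σ : Gal, σ (h x) = h x := by
        intro σ
        rw [← hH.equivariant h hh σ x, htriv σ x]
      obtain ⟨q, hq⟩ := exists_rat_of_fixed (h x) hfix
      have hint : IsIntegral (Rl r) h := IsIntegral.of_mem_of_fg H hH.fg h hh
      have hintx : IsIntegral (Rl r) (h x) := hint.map (Pi.evalAlgHom (Rl r) (fun _ : M => Qb) x)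
      rw [← hq] at hintx
      exact ⟨⟨q, mem_Rl_of_isIntegral r q hintx⟩, hq⟩
    have hbase : ∀ h ∈ H, ∀ x, h x - h 0 ∈ l4Statement_I r 1 := by
      intro h hh x
      obtain ⟨t, ht⟩ := hval h hh x
      obtain ⟨s, hs⟩ := hval h hh 0
      have h1 : h x - h 0 = algebraMap (Rl r) Qb (t - s) := by rw [map_sub, ht, hs]
      rw [h1]
      refine l4Statement_mem_I_one A hA _ ?_
      rw [← h1]
      exact huniv x h hh
    have htors : ∀ x : M, r • x = 0 := by
      intro x
      rw [← hcard]
      exact card_nsmul_eq_zero'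
    have hall : ∀ c : ℕ, ∀ h ∈ H, ∀ x, h x - h 0 ∈ l4Statement_I r (c + 1) := by
      intro c
      induction c with
      | zero => exact hbase
      | succ c ih => exact l4Statement_step hr hr2 htors hH.comul (by omega) ih
    have hzero : ∀ h ∈ H, ∀ x, h x = h 0 := by
      intro h hh x
      refine sub_eq_zero.1 (l4Statement_eq_zero (r := r) fun c => ?_)
      exact l4Statement_mono (Nat.le_succ c) (hall c h hh x)
    have hnt : Nontrivial M := by
      rw [← Finite.one_lt_card_iff_nontrivial, hcard]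
      exact hr.one_lt
    obtain ⟨x, hx⟩ := exists_ne (0 : M)
    obtain ⟨h, hh, hne⟩ := hH.separates x 0 hx
    exact hne (hzero h hh x)

end Fermat.Agent.S15.HG

end
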