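/-
S15, block HG, node L5 ("peu ramifie").  Owner: helper258.  Blueprint: report #1380.

`U' ≤ U` stable of order `r`, `h ∈ H` restricting to an injective character of `U'`, `x₀` a point
whose class modulo `U'` is Galois fixed, `θ` a Kummer generator of the cocycle
`g ↦ h (g x₀ - x₀)`.  Then the valuation of `θ` is an integral power of that of `r`.

Proof: Fourier analysis on the fibre `x₀ + U'`.  For `a ∈ H` the coefficients
`â_j = r⁻¹ ∑_u a (x₀ - u) h(u)^j` are rational multiples of `θ^j`; if `v θ ∉ v(r)^ℤ` their valuations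
are pairwise distinct, so that integrality of `a x₀ = ∑_j â_j` forces `â_j ∈ 𝔪` for `0 < j < r`.
But `h (x' - x) = ∑ c_i a_i(x) b_i(x')` gives `1 = ∑ c_i â_{i,r-1} b̂_{i,1}`.
-/
import Fermat.Agent.S15.HG.Statements
import Fermat.Agent.S19.BaseRing
import Fermat.Agent.Lib.InertiaField.Unram

set_option autoImplicit false

namespace Fermat.Agent.S15.HG

open Fermat.Agent.S19

/-! ### Valuations -/

/-- If the nonzero terms of a finite sum have pairwise distinct valuations and the sum is integral,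
then every term is integral. -/
theorem l5Statement_val_le_of_sum {K Γ : Type*} [Field K] [LinearOrderedCommGroupWithZero Γ]
    (v : Valuation K Γ) (s : Finset ℕ) (f : ℕ → K)
    (hdist : ∀ i ∈ s, ∀ j ∈ s, i ≠ j → f i ≠ 0 → v (f i) ≠ v (f j))
    (hsum : v (∑ i ∈ s, f i) ≤ 1) : ∀ i ∈ s, v (f i) ≤ 1 := by
  intro i hi
  obtain ⟨j, hj, hmax⟩ := Finset.exists_max_image s (fun i => v (f i)) ⟨i, hi⟩
  by_cases h0 : f j = 0
  · have := hmax i hi
    simp only [h0, map_zero] at this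
    exact le_trans this zero_le_one
  · have : v (∑ i ∈ s, f i) = v (f j) := by
      apply Valuation.map_sum_eq_of_lt v hj
      intro k hk
      rw [Finset.mem_sdiff, Finset.mem_singleton] at hk
      exact lt_of_le_of_ne (hmax k hk.1) (fun h => hdist j hj k hk.1 (Ne.symm hk.2) h0 h.symm)
    exact (hmax i hi).trans (this ▸ hsum)

theorem l5Statement_bezout {Γ : Type*} [LinearOrderedCommGroupWithZero Γ] {ρ γ : Γ} (hρ : ρ ≠ 0)
    (hγ : γ ≠ 0) {r j : ℕ} (hc : Nat.Coprime j r) (h1 : ∃ k : ℤ, γ ^ r = ρ ^ k)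
    (h2 : ∃ k : ℤ, γ ^ j = ρ ^ k) : ∃ k : ℤ, γ = ρ ^ k := by
  obtain ⟨a, ha⟩ := h1
  obtain ⟨b, hb⟩ := h2
  have hbez : (1 : ℤ) = j * Nat.gcdA j r + r * Nat.gcdB j r := by
    have := Nat.gcd_eq_gcd_ab j r
    rw [hc] at this
    exact_mod_cast this
  refine ⟨b * Nat.gcdA j r + a * Nat.gcdB j r, ?_⟩
  rw [zpow_add₀ hρ, zpow_mul, zpow_mul, ← hb, ← ha, ← zpow_natCast, ← zpow_natCast, ← zpow_mul,
    ← zpow_mul, ← zpow_add₀ hγ, ← hbez, zpow_one]

/-- The valuation of a nonzero rational number is an integral power of that of `r`. -/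
theorem l5Statement_val_rat {r : ℕ} (hr : r.Prime) (A : ValuationSubring Qb)
    (hA : A.LiesOverPrime r) (q : ℚ) (hq : q ≠ 0) :
    ∃ k : ℤ, A.valuation (algebraMap ℚ Qb q) = A.valuation (r : Qb) ^ k := by
  have hq' : algebraMap ℚ Qb q ≠ 0 := by
    rwa [Ne, map_eq_zero]
  obtain ⟨k, u, -, hu, hu', hx⟩ := Lib.InertiaField.exists_zpow_mul_unit A r hr hA
    (x := algebraMap ℚ Qb q) ((Lib.InertiaField.K0 A).algebraMap_mem q) hq'
  refine ⟨k, ?_⟩
  have h1 : A.valuation u ≤ 1 := (A.valuation_le_one_iff _).2 hu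
  have h2 : A.valuation u⁻¹ ≤ 1 := (A.valuation_le_one_iff _).2 hu'
  have hu0 : u ≠ 0 := by
    rintro rfl
    rw [mul_zero] at hx
    exact hq' hx
  have h3 : A.valuation u = 1 := by
    refine le_antisymm h1 ?_
    rw [map_inv₀] at h2
    exact (inv_le_one₀ (zero_lt_iff.2 ((Valuation.ne_zero_iff _).2 hu0))).1 h2
  rw [hx, map_mul, map_zpow₀, h3, mul_one]

/-! ### Fourier analysis on the fibre -/

section Fourier

variable {U : Type} [AddCommGroup U] (U' : AddSubgroup U) [Fintype U'] (r : ℕ) (h : U → Qb) (x₀ : U)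

/-- The Fourier coefficients of `u ↦ a (x₀ - u)` with respect to the character `h` of `U'`. -/
noncomputable def l5Statement_ft (a : U → Qb) (j : ℕ) : Qb :=
  (r : Qb)⁻¹ * ∑ u : U', a (x₀ - u) * h u ^ j

variable {U' r h}

omit [Fintype U'] in
theorem l5Statement_h_nsmul (h0 : h 0 = 1)
    (hmul : ∀ x ∈ U', ∀ y ∈ U', h (x + y) = h x * h y) {u : U} (hu : u ∈ U') (n : ℕ) :
    h (n • u) = h u ^ n := by
  induction n with
  | zero => simp [h0]
  | succ n ih => rw [succ_nsmul, hmul _ (U'.nsmul_mem hu n) _ hu, ih, pow_succ]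

omit [Fintype U'] in
theorem l5Statement_h_pow (hcard : Nat.card U' = r) (h0 : h 0 = 1)
    (hmul : ∀ x ∈ U', ∀ y ∈ U', h (x + y) = h x * h y) {u : U} (hu : u ∈ U') :
    h u ^ r = 1 := by
  rw [← l5Statement_h_nsmul h0 hmul hu]
  have h1 : Nat.card U' • (⟨u, hu⟩ : U') = 0 := card_nsmul_eq_zero'
  have h2 : r • u = 0 := by
    rw [hcard] at h1
    exact congrArg Subtype.val h1
  rw [h2, h0]

omit [Fintype U'] in
theorem l5Statement_geom (hcard : Nat.card U' = r) (h0 : h 0 = 1)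
    (hmul : ∀ x ∈ U', ∀ y ∈ U', h (x + y) = h x * h y) (hinj : ∀ x ∈ U', h x = 1 → x = 0)
    {u : U} (hu : u ∈ U') (hu0 : u ≠ 0) : ∑ j ∈ Finset.range r, h u ^ j = 0 := by
  have h1 := geom_sum_mul (h u) r
  rw [l5Statement_h_pow hcard h0 hmul hu, sub_self] at h1
  rcases mul_eq_zero.1 h1 with h2 | h2
  · exact h2
  · exact absurd (hinj u hu (sub_eq_zero.1 h2)) hu0

theorem l5Statement_sum_ft (hr : r ≠ 0) (hcard : Nat.card U' = r) (h0 : h 0 = 1)
    (hmul : ∀ x ∈ U', ∀ y ∈ U', h (x + y) = h x * h y) (hinj : ∀ x ∈ U', h x = 1 → x = 0)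
    (a : U → Qb) : ∑ j ∈ Finset.range r, l5Statement_ft U' r h x₀ a j = a x₀ := by
  classical
  have hr' : (r : Qb) ≠ 0 := by exact_mod_cast hr
  unfold l5Statement_ft
  rw [← Finset.mul_sum, Finset.sum_comm]
  have h1 : ∀ u : U', ∑ j ∈ Finset.range r, a (x₀ - u) * h u ^ j
      = if u = 0 then a x₀ * r else 0 := by
    intro u
    rw [← Finset.mul_sum]
    split_ifs with hu
    · subst hu
      simp [h0]
    · rw [l5Statement_geom hcard h0 hmul hinj u.2 (fun hc => hu (Subtype.ext hc)), mul_zero]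
  rw [Finset.sum_congr rfl (fun u _ => h1 u), Finset.sum_ite_eq' Finset.univ (0 : U')]
  simp only [Finset.mem_univ, if_true]
  field_simp

theorem l5Statement_galois_ft [DistribMulAction Gal U]
    (hst : ∀ (g : Gal), ∀ x ∈ U', g • x ∈ U')
    (hmul : ∀ x ∈ U', ∀ y ∈ U', h (x + y) = h x * h y)
    (hh : ∀ (σ : Gal) (x : U), h (σ • x) = σ (h x))
    (hx₀ : ∀ g : Gal, g • x₀ - x₀ ∈ U')
    (a : U → Qb) (ha : ∀ (σ : Gal) (x : U), a (σ • x) = σ (a x)) (j : ℕ) (g : Gal) :
    g (l5Statement_ft U' r h x₀ a j) = h (g • x₀ - x₀) ^ j * l5Statement_ft U' r h x₀ a j := by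
  set w : U := g • x₀ - x₀ with hw
  let e : U' → U' := fun u => ⟨g • (u : U) - w, U'.sub_mem (hst g u u.2) (hx₀ g)⟩
  have he : Function.Bijective e := by
    apply Finite.injective_iff_bijective.1
    intro u u' huu
    have h1 : g • (u : U) - w = g • (u' : U) - w := congrArg Subtype.val huu
    exact Subtype.ext (MulAction.injective g (sub_left_injective h1))
  unfold l5Statement_ft
  rw [map_mul, map_inv₀, map_natCast, map_sum,
    ← he.sum_comp (fun u : U' => a (x₀ - u) * h u ^ j), mul_left_comm]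
  congr 1
  rw [Finset.mul_sum]
  refine Finset.sum_congr rfl fun u _ => ?_
  rw [map_mul, map_pow, ← ha, ← hh]
  have h1 : g • (x₀ - (u : U)) = x₀ - (e u : U) := by
    show g • (x₀ - (u : U)) = x₀ - (g • (u : U) - w)
    rw [smul_sub, hw]
    abel
  have h2 : h (g • (u : U)) = h (e u : U) * h w := by
    rw [← hmul _ (e u).2 _ (hx₀ g)]
    congr 1
    show g • (u : U) = (g • (u : U) - w) + w
    abel
  rw [h1, h2, mul_pow]
  ring

theorem l5Statement_rat_ft [DistribMulAction Gal U]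
    (hst : ∀ (g : Gal), ∀ x ∈ U', g • x ∈ U')
    (hmul : ∀ x ∈ U', ∀ y ∈ U', h (x + y) = h x * h y)
    (hh : ∀ (σ : Gal) (x : U), h (σ • x) = σ (h x))
    (hx₀ : ∀ g : Gal, g • x₀ - x₀ ∈ U')
    (a : U → Qb) (ha : ∀ (σ : Gal) (x : U), a (σ • x) = σ (a x)) (j : ℕ)
    {θ : Qb} (hθ : θ ≠ 0) (hθg : ∀ g : Gal, g θ = h (g • x₀ - x₀) * θ) :
    ∃ q : ℚ, l5Statement_ft U' r h x₀ a j = algebraMap ℚ Qb q * θ ^ j := by
  obtain ⟨q, hq⟩ := exists_rat_of_fixed (l5Statement_ft U' r h x₀ a j / θ ^ j) (by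
    intro g
    have hw : h (g • x₀ - x₀) ≠ 0 := by
      intro hc
      have h1 := hθg g
      rw [hc, zero_mul, map_eq_zero] at h1
      exact hθ h1
    rw [map_div₀, map_pow, l5Statement_galois_ft x₀ hst hmul hh hx₀ a ha j g, hθg g, mul_pow]
    field_simp)
  exact ⟨q, by rw [hq]; field_simp⟩

theorem l5Statement_val_ft [DistribMulAction Gal U] (hr : r.Prime) (A : ValuationSubring Qb)
    (hA : A.LiesOverPrime r) (hcard : Nat.card U' = r) (h0 : h 0 = 1)
    (hst : ∀ (g : Gal), ∀ x ∈ U', g • x ∈ U')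
    (hmul : ∀ x ∈ U', ∀ y ∈ U', h (x + y) = h x * h y) (hinj : ∀ x ∈ U', h x = 1 → x = 0)
    (hh : ∀ (σ : Gal) (x : U), h (σ • x) = σ (h x))
    (hx₀ : ∀ g : Gal, g • x₀ - x₀ ∈ U')
    {θ : Qb} (hθ : θ ≠ 0) (hθg : ∀ g : Gal, g θ = h (g • x₀ - x₀) * θ)
    (hnot : ¬ ∃ k : ℤ, A.valuation θ = A.valuation (r : Qb) ^ k)
    (a : U → Qb) (ha : ∀ (σ : Gal) (x : U), a (σ • x) = σ (a x)) (hax : a x₀ ∈ A)
    {j : ℕ} (hj0 : 0 < j) (hjr : j < r) : A.valuation (l5Statement_ft U' r h x₀ a j) < 1 := by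
  have hr0 : (r : Qb) ≠ 0 := by exact_mod_cast hr.ne_zero
  have hρ : A.valuation (r : Qb) ≠ 0 := (Valuation.ne_zero_iff _).2 hr0
  have hγ : A.valuation θ ≠ 0 := (Valuation.ne_zero_iff _).2 hθ
  -- `v θ ^ r ∈ v(r)^ℤ`
  have hγr : ∃ k : ℤ, A.valuation θ ^ r = A.valuation (r : Qb) ^ k := by
    obtain ⟨q, hq⟩ := exists_rat_of_fixed (θ ^ r) (by
      intro g
      rw [map_pow, hθg g, mul_pow, l5Statement_h_pow hcard h0 hmul (hx₀ g), one_mul])
    have hq0 : q ≠ 0 := by
      rintro rfl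
      rw [map_zero] at hq
      exact pow_ne_zero r hθ hq.symm
    obtain ⟨k, hk⟩ := l5Statement_val_rat hr A hA q hq0
    exact ⟨k, by rw [← map_pow, ← hq, hk]⟩
  have hnotj : ∀ i : ℕ, 0 < i → i < r →
      ¬ ∃ k : ℤ, A.valuation θ ^ i = A.valuation (r : Qb) ^ k := by
    intro i hi0 hir hc
    exact hnot (l5Statement_bezout hρ hγ
      ((Nat.Prime.coprime_iff_not_dvd hr).2 (Nat.not_dvd_of_pos_of_lt hi0 hir)).symm hγr hc)
  have hval : ∀ i : ℕ, l5Statement_ft U' r h x₀ a i ≠ 0 → ∃ k : ℤ,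
      A.valuation (l5Statement_ft U' r h x₀ a i) = A.valuation (r : Qb) ^ k * A.valuation θ ^ i := by
    intro i hi
    obtain ⟨q, hq⟩ := l5Statement_rat_ft (r := r) x₀ hst hmul hh hx₀ a ha i hθ hθg
    have hq0 : q ≠ 0 := by
      rintro rfl
      rw [map_zero, zero_mul] at hq
      exact hi hq
    obtain ⟨k, hk⟩ := l5Statement_val_rat hr A hA q hq0
    exact ⟨k, by rw [hq, map_mul, map_pow, hk]⟩
  have hlt : ∀ i i' : ℕ, i < i' → i' < r → l5Statement_ft U' r h x₀ a i ≠ 0 →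
      l5Statement_ft U' r h x₀ a i' ≠ 0 →
      A.valuation (l5Statement_ft U' r h x₀ a i) ≠ A.valuation (l5Statement_ft U' r h x₀ a i') := by
    intro i i' hii hir hi hi' hc
    obtain ⟨k, hk⟩ := hval i hi
    obtain ⟨k', hk'⟩ := hval i' hi'
    apply hnotj (i' - i) (by omega) (by omega)
    refine ⟨k - k', ?_⟩
    rw [hk, hk'] at hc
    have h1 : A.valuation θ ^ i' = A.valuation θ ^ (i' - i) * A.valuation θ ^ i := by
      rw [← pow_add]
      congr 1
      omega
    rw [h1, ← mul_assoc] at hc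
    have h2 := mul_right_cancel₀ (pow_ne_zero i hγ) hc
    rw [zpow_sub₀ hρ, h2]
    field_simp
  have hdist : ∀ i ∈ Finset.range r, ∀ i' ∈ Finset.range r, i ≠ i' →
      l5Statement_ft U' r h x₀ a i ≠ 0 →
      A.valuation (l5Statement_ft U' r h x₀ a i) ≠ A.valuation (l5Statement_ft U' r h x₀ a i') := by
    intro i hi i' hi' hne h1
    rw [Finset.mem_range] at hi hi'
    by_cases h2 : l5Statement_ft U' r h x₀ a i' = 0
    · rw [h2, map_zero]
      exact (Valuation.ne_zero_iff _).2 h1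
    · rcases lt_or_gt_of_ne hne with h3 | h3
      · exact hlt i i' h3 hi' h1 h2
      · exact (hlt i' i h3 hi h2 h1).symm
  have hle := l5Statement_val_le_of_sum A.valuation (Finset.range r)
    (fun i => l5Statement_ft U' r h x₀ a i) hdist (by
      rw [l5Statement_sum_ft x₀ hr.ne_zero hcard h0 hmul hinj a]
      exact (A.valuation_le_one_iff _).2 hax) j (Finset.mem_range.2 hjr)
  refine lt_of_le_of_ne hle fun hc => ?_
  have hne : l5Statement_ft U' r h x₀ a j ≠ 0 := by
    intro h1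
    rw [h1, map_zero] at hc
    exact zero_ne_one hc
  obtain ⟨k, hk⟩ := hval j hne
  apply hnotj j hj0 hjr
  refine ⟨-k, ?_⟩
  rw [hc] at hk
  rw [zpow_neg]
  exact eq_inv_of_mul_eq_one_right hk.symm

variable (U' r h) in
/-- The `(r - 1, 1)` Fourier coefficient of a function on the square of the fibre. -/
noncomputable def l5Statement_phi (F : U × U → Qb) : Qb :=
  ((r : Qb)⁻¹ * (r : Qb)⁻¹) *
    ∑ u : U', ∑ u' : U', F (x₀ - u, x₀ - u') * (h u ^ (r - 1) * h u' ^ 1)

theorem l5Statement_phi_prod (a b : U → Qb) :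
    l5Statement_phi U' r h x₀ (fun q => a q.1 * b q.2) =
      l5Statement_ft U' r h x₀ a (r - 1) * l5Statement_ft U' r h x₀ b 1 := by
  unfold l5Statement_phi l5Statement_ft
  rw [mul_mul_mul_comm, Finset.sum_mul_sum]
  congr 1
  refine Finset.sum_congr rfl fun u _ => Finset.sum_congr rfl fun u' _ => ?_
  ring

theorem l5Statement_phi_add (F G : U × U → Qb) :
    l5Statement_phi U' r h x₀ (F + G) =
      l5Statement_phi U' r h x₀ F + l5Statement_phi U' r h x₀ G := by
  unfold l5Statement_phi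
  rw [← mul_add, ← Finset.sum_add_distrib]
  congr 1
  refine Finset.sum_congr rfl fun u _ => ?_
  rw [← Finset.sum_add_distrib]
  refine Finset.sum_congr rfl fun u' _ => ?_
  rw [Pi.add_apply, add_mul]

theorem l5Statement_phi_smul (c : Qb) (F : U × U → Qb) :
    l5Statement_phi U' r h x₀ (fun q => c * F q) = c * l5Statement_phi U' r h x₀ F := by
  unfold l5Statement_phi
  rw [mul_left_comm]
  congr 1
  rw [Finset.mul_sum]
  refine Finset.sum_congr rfl fun u _ => ?_
  rw [Finset.mul_sum]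
  refine Finset.sum_congr rfl fun u' _ => ?_
  rw [mul_assoc]

theorem l5Statement_phi_h (hr : r ≠ 0) (hcard : Nat.card U' = r) (h0 : h 0 = 1)
    (hmul : ∀ x ∈ U', ∀ y ∈ U', h (x + y) = h x * h y) :
    l5Statement_phi U' r h x₀ (fun q => h (q.2 - q.1)) = 1 := by
  have hr' : (r : Qb) ≠ 0 := by exact_mod_cast hr
  unfold l5Statement_phi
  have h1 : ∀ u u' : U', h ((x₀ - (u' : U)) - (x₀ - (u : U))) * (h u ^ (r - 1) * h u' ^ 1) = 1 := by
    intro u u'
    have h2 : (x₀ - (u' : U)) - (x₀ - (u : U)) = (u : U) + (-(u' : U)) := by abel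
    have h3 : h (-(u' : U)) * h u' = 1 := by
      rw [← hmul _ (U'.neg_mem u'.2) _ u'.2, neg_add_cancel, h0]
    have h4 : h u * h u ^ (r - 1) = 1 := by
      rw [← pow_succ', Nat.sub_add_cancel (Nat.one_le_iff_ne_zero.2 hr),
        l5Statement_h_pow hcard h0 hmul u.2]
    rw [h2, hmul _ u.2 _ (U'.neg_mem u'.2), pow_one]
    calc h u * h (-(u' : U)) * (h u ^ (r - 1) * h u')
        = (h u * h u ^ (r - 1)) * (h (-(u' : U)) * h u') := by ring
      _ = 1 := by rw [h3, h4, one_mul]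
  have h5 : ∑ u : U', ∑ u' : U', h ((x₀ - (u' : U)) - (x₀ - (u : U))) *
      (h u ^ (r - 1) * h u' ^ 1) = (r : Qb) * (r : Qb) := by
    rw [Finset.sum_congr rfl fun u _ => Finset.sum_congr rfl fun u' _ => h1 u u']
    rw [Nat.card_eq_fintype_card] at hcard
    simp [Finset.card_univ, hcard]
  rw [h5]
  field_simp

end Fourier

/-- **L5** (peu ramifie). -/
theorem l5Statement (hV : ValStatement) (hS : SubStatement) : L5Statement := by
  intro r _ A hA U _ _ _ H hH U' hcard hst h hh hmul hinj x₀ hx₀ θ hθ hθg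
  by_contra hnot
  have : Fintype U' := Fintype.ofFinite U'
  have hr : r.Prime := Fact.out
  have h0 : h 0 = 1 := by
    have h1 := hθg 1
    rw [one_smul, sub_self, AlgEquiv.one_apply] at h1
    exact (mul_right_cancel₀ hθ (by rw [one_mul]; exact h1)).symm
  have key : ∀ F ∈ Submodule.span (Rl r) (prodFun H H),
      A.valuation (l5Statement_phi U' r h x₀ F) < 1 := by
    intro F hF
    induction hF using Submodule.span_induction with
    | mem F hF =>
      obtain ⟨a, ha, b, hb, rfl⟩ := hF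
      rw [l5Statement_phi_prod, map_mul]
      have h1 := l5Statement_val_ft x₀ hr A hA hcard h0 hst hmul hinj (hH.equivariant h hh) hx₀ hθ
        hθg hnot a (hH.equivariant a ha) (hV r A hA U H hH a ha x₀)
        (j := r - 1) (by have := hr.two_le; omega) (by have := hr.two_le; omega)
      have h2 := l5Statement_val_ft x₀ hr A hA hcard h0 hst hmul hinj (hH.equivariant h hh) hx₀ hθ
        hθg hnot b (hH.equivariant b hb) (hV r A hA U H hH b hb x₀)
        (j := 1) one_pos hr.one_lt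
      exact mul_lt_one_of_nonneg_of_lt_one_left zero_le h1 h2.le
    | zero =>
      have : l5Statement_phi U' r h x₀ 0 = 0 := by
        simp [l5Statement_phi]
      rw [this, map_zero]
      exact zero_lt_one
    | add F G _ _ hF hG =>
      rw [l5Statement_phi_add]
      exact Valuation.map_add_lt _ hF hG
    | smul c F _ hF =>
      have h1 : c • F = fun q => algebraMap (Rl r) Qb c * F q := by
        funext q
        rw [Pi.smul_apply, Algebra.smul_def]
      rw [h1, l5Statement_phi_smul, map_mul]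
      have h2 : A.valuation (algebraMap (Rl r) Qb c) ≤ 1 :=
        (A.valuation_le_one_iff _).2 (BaseRing.algebraMap_mem A hA c)
      exact lt_of_le_of_lt (mul_le_of_le_one_left' h2) hF
  have h1 := key _ (hS r U H hH h hh)
  rw [l5Statement_phi_h x₀ hr.ne_zero hcard h0 hmul, map_one] at h1
  exact lt_irrefl _ h1

end Fermat.Agent.S15.HG
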