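/-
S15, block HG, node L6 (helper145): one can adjoin to a Hopf order the indicator functions of the
fibres of an invariant homomorphism.
-/
import Fermat.Agent.S15.HG.Statements2
import Fermat.Agent.S19.Lattice

set_option autoImplicit false

namespace Fermat.Agent.S15.HG

open Fermat.Agent.S19

/-- the subalgebra of equivariant functions -/
private def l6Equiv (r : ℕ) (E : Type) [AddCommGroup E] [DistribMulAction Gal E] :
    Subalgebra (Rl r) (E → Qb) where
  carrier := {h | ∀ (σ : Gal) (x : E), h (σ • x) = σ (h x)}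
  mul_mem' := fun {a b} ha hb σ x => by
    rw [Pi.mul_apply, Pi.mul_apply, ha σ x, hb σ x, map_mul]
  add_mem' := fun {a b} ha hb σ x => by
    rw [Pi.add_apply, Pi.add_apply, ha σ x, hb σ x, map_add]
  algebraMap_mem' := fun c σ _ => (σ.commutes (c : ℚ)).symm

private theorem l6_isIntegral_of_idem {R B : Type} [CommRing R] [CommRing B] [Algebra R B] {e : B}
    (he : e * e = e) : IsIntegral R e := by
  nontriviality R
  refine ⟨Polynomial.X ^ 2 - Polynomial.X, ?_, ?_⟩
  · exact Polynomial.monic_X_pow_sub (lt_of_le_of_lt Polynomial.degree_X_le (by norm_num))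
  · simp [sq, he]

open Classical in
theorem l6Statement : L6Statement := by
  intro r _ E Z _ _ _ _ lam hlam hE
  obtain ⟨H₀, hH₀⟩ := hE
  obtain ⟨S₀, hS₀⟩ := hH₀.fg
  have : Fintype E := Fintype.ofFinite E
  let ind : Z → E → Qb := fun z x => if lam x = z then 1 else 0
  let I : Set (E → Qb) := Set.range ind
  let H : Subalgebra (Rl r) (E → Qb) := Algebra.adjoin (Rl r) ((S₀ : Set (E → Qb)) ∪ I)
  have hle : H₀ ≤ H := by
    intro h hh
    have h1 : h ∈ Submodule.span (Rl r) (S₀ : Set (E → Qb)) := by
      rw [hS₀]
      exact hh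
    have h2 := Submodule.span_mono (Set.subset_union_left (t := I)) h1
    exact Algebra.span_le_adjoin _ _ h2
  have hind : ∀ z, ind z ∈ H := fun z => Algebra.subset_adjoin (Or.inr ⟨z, rfl⟩)
  have hS₀H : ∀ s ∈ S₀, s ∈ H₀ := fun s hs => by
    have h1 : s ∈ Submodule.span (Rl r) (S₀ : Set (E → Qb)) := Submodule.subset_span hs
    rw [hS₀] at h1
    exact h1
  have hIfin : I.Finite := by
    have h1 : I ⊆ Set.range (fun s : Set E => fun x => if x ∈ s then (1 : Qb) else 0) := by
      rintro _ ⟨z, rfl⟩
      exact ⟨{x | lam x = z}, rfl⟩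
    exact (Set.finite_range _).subset h1
  refine ⟨H, ⟨?_, ?_, ?_, ?_⟩, hind⟩
  · -- equivariance
    have h1 : H ≤ l6Equiv r E := Algebra.adjoin_le (by
      rintro h (hs | ⟨z, rfl⟩)
      · exact hH₀.equivariant h (hS₀H h hs)
      · intro σ x
        show (if lam (σ • x) = z then (1 : Qb) else 0) = σ (if lam x = z then 1 else 0)
        rw [hlam]
        split_ifs <;> simp)
    exact fun h hh => h1 hh
  · -- finite generation
    apply fg_adjoin_of_finite
    · exact S₀.finite_toSet.union hIfin
    · rintro h (hs | ⟨z, rfl⟩)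
      · exact IsIntegral.of_mem_of_fg H₀ hH₀.fg h (hS₀H h hs)
      · apply l6_isIntegral_of_idem
        funext x
        show (if lam x = z then (1 : Qb) else 0) * (if lam x = z then (1 : Qb) else 0) =
          if lam x = z then (1 : Qb) else 0
        split_ifs <;> simp
  · -- separation
    intro x y hxy
    obtain ⟨h, hh, hne⟩ := hH₀.separates x y hxy
    exact ⟨h, hle hh, hne⟩
  · -- comultiplication
    let Δ : (E → Qb) →ₐ[Rl r] (E × E → Qb) := pullback (Rl r) (fun q : E × E => q.1 + q.2)
    have hmem : ∀ F : E × E → Qb, F ∈ (mulMap H H).range ↔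
        F ∈ Submodule.span (Rl r) (prodFun H H) := fun F => by
      rw [← range_mulMap_toSubmodule, Subalgebra.mem_toSubmodule]
    have key : H ≤ (mulMap H H).range.comap Δ := Algebra.adjoin_le (by
      rintro h (hs | ⟨z, rfl⟩)
      · rw [SetLike.mem_coe, Subalgebra.mem_comap, hmem]
        refine Submodule.span_mono ?_ (hH₀.comul h (hS₀H h hs))
        rintro _ ⟨a, ha, b, hb, rfl⟩
        exact ⟨a, hle ha, b, hle hb, rfl⟩
      · rw [SetLike.mem_coe, Subalgebra.mem_comap, hmem]
        have h1 : Δ (ind z) = ∑ z₁ ∈ Finset.univ.image lam,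
            fun q : E × E => ind z₁ q.1 * ind (z - z₁) q.2 := by
          funext q
          rw [Finset.sum_apply, Finset.sum_eq_single (lam q.1)]
          · show (if lam (q.1 + q.2) = z then (1 : Qb) else 0) =
              (if lam q.1 = lam q.1 then (1 : Qb) else 0) *
                (if lam q.2 = z - lam q.1 then (1 : Qb) else 0)
            rw [if_pos rfl, one_mul, map_add]
            have h2 : lam q.1 + lam q.2 = z ↔ lam q.2 = z - lam q.1 := by
              rw [eq_sub_iff_add_eq, add_comm]
            simp only [h2]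
          · intro z₁ _ hz₁
            show (if lam q.1 = z₁ then (1 : Qb) else 0) * _ = 0
            rw [if_neg (Ne.symm hz₁), zero_mul]
          · intro h2
            exact absurd (Finset.mem_image_of_mem lam (Finset.mem_univ q.1)) h2
        rw [h1]
        exact Submodule.sum_mem _ fun z₁ _ =>
          Submodule.subset_span ⟨_, hind z₁, _, hind _, rfl⟩)
    intro h hh
    exact (hmem _).1 (key hh)

end Fermat.Agent.S15.HG
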