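/-
S15, block HG, node LN (task HG-LN, helper171): the local count at `N`,
`n |V| ≤ |E^{I_N}| · |(V^D)^{I_N}|`, from the cyclicity of tame inertia.
-/
import Fermat.Agent.S15.HG.Statements2
import Fermat.Agent.Lib.InertiaField.Hensel

set_option autoImplicit false

noncomputable section

namespace Fermat.Agent.S15.HG

open Fermat.Agent.S19

/-! ### The abstract count -/

private theorem localNStatement_count {V E : Type} [AddCommGroup V] [AddCommGroup E] [Finite E]
    (n : ℕ) [NeZero n] (ι : V →+ E) (lam : E →+ ZMod n) (hι : Function.Injective ι)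
    (hlam : Function.Surjective lam) (hex : ∀ x : E, lam x = 0 ↔ ∃ v : V, ι v = x)
    (d : E →+ E) (dV : V →+ V) (hd1 : ∀ x, lam (d x) = 0) (hd2 : ∀ x, d (d x) = 0)
    (hdV : ∀ v, ι (dV v) = d (ι v)) :
    n * Nat.card V ≤ Nat.card d.ker * Nat.card (V ⧸ dV.range) := by
  have : Finite V := Finite.of_injective ι hι
  have h1 : Nat.card E = n * Nat.card V := by
    rw [lam.ker.card_eq_card_quotient_mul_card_addSubgroup]
    congr 1
    · rw [Nat.card_congr (QuotientAddGroup.quotientKerEquivOfSurjective lam hlam).toEquiv,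
        Nat.card_zmod]
    · symm
      refine Nat.card_congr (Equiv.ofBijective
        (fun v => (⟨ι v, (hex _).2 ⟨v, rfl⟩⟩ : lam.ker)) ⟨fun a b hab => ?_, fun y => ?_⟩)
      · exact hι (congrArg Subtype.val hab)
      · obtain ⟨v, hv⟩ := (hex y.1).1 y.2
        exact ⟨v, Subtype.ext hv⟩
  have h2 : Nat.card E = Nat.card d.range * Nat.card d.ker := by
    rw [d.ker.card_eq_card_quotient_mul_card_addSubgroup,
      Nat.card_congr (QuotientAddGroup.quotientKerEquivRange d).toEquiv]
  have h3 : Nat.card V = Nat.card dV.range * Nat.card dV.ker := by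
    rw [dV.ker.card_eq_card_quotient_mul_card_addSubgroup,
      Nat.card_congr (QuotientAddGroup.quotientKerEquivRange dV).toEquiv]
  have h4 : Nat.card V = Nat.card (V ⧸ dV.range) * Nat.card dV.range :=
    dV.range.card_eq_card_quotient_mul_card_addSubgroup
  have h5 : Nat.card dV.ker = Nat.card (V ⧸ dV.range) := by
    have hpos : 0 < Nat.card dV.range := Nat.card_pos
    exact Nat.eq_of_mul_eq_mul_left hpos (by rw [← h3, h4, mul_comm])
  have h6 : Nat.card d.range ≤ Nat.card dV.ker := by
    have hle : d.range ≤ dV.ker.map ι := by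
      rintro _ ⟨x, rfl⟩
      obtain ⟨v, hv⟩ := (hex (d x)).1 (hd1 x)
      refine ⟨v, ?_, hv⟩
      show dV v = 0
      apply hι
      rw [hdV, hv, hd2, map_zero]
    calc Nat.card d.range ≤ Nat.card (dV.ker.map ι) := AddSubgroup.card_le_of_le hle
      _ = Nat.card dV.ker := AddSubgroup.card_map_of_injective hι
  rw [← h1, h2, ← h5, mul_comm]
  exact Nat.mul_le_mul_left _ h6

/-! ### Finiteness and number of characters -/

private theorem localNStatement_finite_CD (V : Type) [AddCommGroup V] [Finite V] :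
    Finite (CD V) := by
  have h1 : Finite (Multiplicative V →* Qb) :=
    (linearIndependent_monoidHom (Multiplicative V) Qb).finite
  exact Finite.of_equiv _ (AddChar.toMonoidHomEquiv (A := V) (M := Qb)).symm

private theorem localNStatement_card_hom (Q : Type) [AddCommGroup Q] [Finite Q] :
    Nat.card (Multiplicative Q →* Qbˣ) = Nat.card Q := by
  have : NeZero (Monoid.exponent (Multiplicative Q)) := ⟨Monoid.exponent_ne_zero_of_finite⟩
  rw [CommGroup.card_monoidHom_of_hasEnoughRootsOfUnity (Multiplicative Q) Qb]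
  exact Nat.card_congr Multiplicative.toAdd

/-! ### Unipotent operators -/

private theorem localNStatement_pow_smul {E : Type} [AddCommGroup E] [DistribMulAction Gal E]
    (τ : Gal) (h : ∀ x : E, τ • τ • x - 2 • τ • x + x = 0) (m : ℕ) (x : E) :
    τ ^ m • x = x + m • (τ • x - x) := by
  induction m with
  | zero => simp
  | succ m ih =>
    have h1 : τ • (τ • x - x) = τ • x - x := by
      have := h x
      rw [smul_sub]
      rw [two_smul] at this
      have e : τ • τ • x - τ • x - (τ • x - x) = τ • τ • x - (τ • x + τ • x) + x := by abel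
      exact sub_eq_zero.1 (e.trans this)
    have h2 : τ • (m • (τ • x - x)) = m • (τ • (τ • x - x)) :=
      map_nsmul (DistribSMul.toAddMonoidHom E τ) m _
    rw [pow_succ', mul_smul, ih, smul_add, h2, h1, succ_nsmul]
    abel

private theorem localNStatement_pow_fix {E : Type} [MulAction Gal E] (τ : Gal) {x : E}
    (h : τ • x = x) (j : ℕ) : τ ^ j • x = x := by
  induction j with
  | zero => simp
  | succ j ih => rw [pow_succ, mul_smul, h, ih]

private theorem localNStatement_pow_sub_mem {V : Type} [AddCommGroup V] [DistribMulAction Gal V]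
    (τ : Gal) (dV : V →+ V) (hdV : ∀ v, dV v = τ • v - v) (j : ℕ) (x : V) :
    τ ^ j • x - x ∈ dV.range := by
  induction j with
  | zero => simp
  | succ j ih =>
    have e : τ ^ (j + 1) • x - x = dV (τ ^ j • x) + (τ ^ j • x - x) := by
      rw [hdV, pow_succ', mul_smul]
      abel
    rw [e]
    exact add_mem ⟨_, rfl⟩ ih

/-! ### The theorem -/

theorem localNStatement (hT : TameStatement) : LocalNStatement := by
  intro r _ k N hN hNr AN hAN V E _ _ _ _ _ n _ ι lam hι hlam hex hιeq hlameq htors hsm huni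
  have hr : r.Prime := Fact.out
  have hV : Finite V := Finite.of_injective ι hι
  have hNrk : ¬ N ∣ r ^ k := fun h =>
    hNr ((Nat.prime_dvd_prime_iff_eq hN hr).1 (hN.dvd_of_dvd_pow h))
  obtain ⟨τ₀, hτ₀, hcyc⟩ := hT N hN AN hAN E hsm fun τ hτ => ⟨r ^ k, hNrk, fun x => by
    rw [localNStatement_pow_smul τ (huni τ hτ), htors, add_zero]⟩
  let d : E →+ E := DistribSMul.toAddMonoidHom E τ₀ - AddMonoidHom.id E
  let dV : V →+ V := DistribSMul.toAddMonoidHom V τ₀ - AddMonoidHom.id V
  have hd : ∀ x, d x = τ₀ • x - x := fun _ => rfl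
  have hdV : ∀ v, dV v = τ₀ • v - v := fun _ => rfl
  have hcount := localNStatement_count n ι lam hι hlam hex d dV
    (fun x => by rw [hd, map_sub, hlameq, sub_self])
    (fun x => by
      rw [hd, hd, smul_sub]
      have := huni τ₀ hτ₀ x
      rw [two_smul] at this
      rw [← this]
      abel)
    (fun v => by rw [hdV, hd, map_sub, hιeq])
  -- the inertia invariants of `E`
  have hE : Nat.card d.ker = Nat.card {x : E // ∀ τ ∈ AN.inertiaSubgroupIn ℚ, τ • x = x} := by
    refine Nat.card_congr (Equiv.subtypeEquivRight fun x => ?_)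
    rw [AddMonoidHom.mem_ker, hd, sub_eq_zero]
    constructor
    · intro hx τ hτ
      obtain ⟨j, hj⟩ := hcyc τ hτ
      rw [hj, localNStatement_pow_fix τ₀ hx]
    · intro hx
      exact hx τ₀ hτ₀
  -- torsion of `V`
  have htV : ∀ v : V, r ^ k • v = 0 := fun v => hι (by rw [map_nsmul, htors, map_zero])
  -- characters of `V / dV`
  have hfin : Finite (CD V) := localNStatement_finite_CD V
  let Φ : (Multiplicative (V ⧸ dV.range) →* Qbˣ) → CD V := fun φ => CD.mk
    { toFun := fun v => ((φ (Multiplicative.ofAdd (QuotientAddGroup.mk v : V ⧸ dV.range)) : Qbˣ) : Qb)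
      map_zero_eq_one' := by
        rw [QuotientAddGroup.mk_zero, ofAdd_zero, map_one, Units.val_one]
      map_add_eq_mul' := fun a b => by
        rw [QuotientAddGroup.mk_add, ofAdd_add, map_mul, Units.val_mul] }
  have hΦev : ∀ φ v, (Φ φ).ev v =
      ((φ (Multiplicative.ofAdd (QuotientAddGroup.mk v : V ⧸ dV.range)) : Qbˣ) : Qb) :=
    fun _ _ => rfl
  have hΦfix : ∀ φ, ∀ τ ∈ AN.inertiaSubgroupIn ℚ, τ • Φ φ = Φ φ := by
    intro φ τ hτ
    refine CD.ext fun x => ?_
    rw [CD.ev_smul]
    have h1 : (QuotientAddGroup.mk (τ⁻¹ • x) : V ⧸ dV.range) = QuotientAddGroup.mk x := by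
      obtain ⟨j, hj⟩ := hcyc τ⁻¹ (inv_mem hτ)
      have h2 : τ⁻¹ • x = τ₀ ^ j • x := hι (by rw [hιeq, hιeq, hj])
      rw [h2, eq_comm, QuotientAddGroup.eq]
      have := localNStatement_pow_sub_mem τ₀ dV hdV j x
      rwa [sub_eq_neg_add] at this
    rw [hΦev, hΦev, h1]
    have h3 : ((φ (Multiplicative.ofAdd (QuotientAddGroup.mk x : V ⧸ dV.range)) : Qbˣ) : Qb) ^ r ^ k
        = 1 := by
      rw [← Units.val_pow_eq_pow_val, ← map_pow, ← ofAdd_nsmul, ← QuotientAddGroup.mk_nsmul, htV,
        QuotientAddGroup.mk_zero, ofAdd_zero, map_one, Units.val_one]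
    exact (Lib.InertiaField.mem_K0_iff AN _).1
      (Lib.InertiaField.rootOfUnity_mem_K0 AN N hN hAN hNrk h3) τ hτ
  have hΦinj : Function.Injective
      (fun φ => (⟨Φ φ, hΦfix φ⟩ : {f : CD V // ∀ τ ∈ AN.inertiaSubgroupIn ℚ, τ • f = f})) := by
    intro φ ψ h
    have h1 : Φ φ = Φ ψ := congrArg Subtype.val h
    refine MonoidHom.ext fun q => ?_
    obtain ⟨v, hv⟩ := QuotientAddGroup.mk_surjective (Multiplicative.toAdd q)
    have h2 : q = Multiplicative.ofAdd (QuotientAddGroup.mk v : V ⧸ dV.range) := by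
      rw [hv]
      rfl
    rw [h2]
    apply Units.ext
    rw [← hΦev, ← hΦev, h1]
  have hchar : Nat.card (V ⧸ dV.range) ≤
      Nat.card {f : CD V // ∀ τ ∈ AN.inertiaSubgroupIn ℚ, τ • f = f} := by
    rw [← localNStatement_card_hom (V ⧸ dV.range)]
    exact Nat.card_le_card_of_injective _ hΦinj
  calc n * Nat.card V ≤ Nat.card d.ker * Nat.card (V ⧸ dV.range) := hcount
    _ ≤ _ := by
      rw [hE]
      exact Nat.mul_le_mul_left _ hchar

end Fermat.Agent.S15.HG

end
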