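/-
S15, block HG (owner helper64, proof helper282).  Task HG-G: Theorem G from the induction step, by
strong induction on the order of `U`.
-/
import Fermat.Agent.S15.HG.Statements

set_option autoImplicit false

namespace Fermat.Agent.S15.HG

open Fermat.Agent.S19

/-- The case of the zero module. -/
private theorem theoremG_subsingleton {r : ℕ} (Ar AN : ValuationSubring Qb) {U : Type}
    [AddCommGroup U] [Finite U] [DistribMulAction Gal U] [Subsingleton U]
    (H : Subalgebra (Rl r) (U → Qb)) : Concl Ar AN H := by
  intro Y _
  have h0f : (0 : U) ∈ fixedIn Y := ⟨Y.zero_mem, fun g => smul_zero g⟩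
  have h0c : (0 : U) ∈ conn Ar H := fun h _ => by
    rw [sub_self]
    exact Ar.nonunits.zero_mem
  have hY : Nat.card Y = 1 := Nat.card_unique
  have : Nonempty (fixedIn Y) := ⟨⟨0, h0f⟩⟩
  have : Nonempty (conn Ar H) := ⟨⟨0, h0c⟩⟩
  have h1 : 0 < Nat.card (fixedIn Y) := Nat.card_pos
  have h2 : 0 < Nat.card (conn Ar H) := Nat.card_pos
  rw [hY]
  exact Nat.mul_pos h1 h2

theorem theoremG (hStep : StepStatement) (hSimple : SimpleStatement) (hHQ : HypQuotStatement)
    (hQ : QuotStatement) : TheoremG := by
  intro r _ k N hN hNr Ar AN hAr hAN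
  have key : ∀ n : ℕ, ∀ (U : Type) [AddCommGroup U] [Finite U] [DistribMulAction Gal U],
      Nat.card U = n → Hyp r k N U →
        ∀ H : Subalgebra (Rl r) (U → Qb), IsHopfOrder r H → Concl Ar AN H := by
    intro n
    induction n using Nat.strong_induction_on with
    | _ n ih =>
      intro U _ _ _ hn hU H hH
      rcases subsingleton_or_nontrivial U with hs | hnt
      · exact theoremG_subsingleton Ar AN H
      · obtain ⟨U', hst, hcard, htype⟩ := hSimple r k N U hU hnt
        letI := subAction U' hst
        letI := quotAction U' hst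
        have hses : IsSES U'.subtype (QuotientAddGroup.mk' U') := isSES_sub_quot U' hst
        have hlt : Nat.card (U ⧸ U') < n := by
          have h1 := AddSubgroup.card_eq_card_quotient_mul_card_addSubgroup U'
          rw [hn, hcard] at h1
          have h2 : 0 < Nat.card (U ⧸ U') := Nat.card_pos
          have h3 : 2 ≤ r := (Fact.out : r.Prime).two_le
          rw [h1]
          nlinarith
        have hU'' : Hyp r k N (U ⧸ U') :=
          hHQ r k N U (U ⧸ U') (QuotientAddGroup.mk' U') hses.surj hses.π_equiv hU
        have hH'' : IsHopfOrder r (quotOrder (QuotientAddGroup.mk' U') H) :=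
          hQ r U (U ⧸ U') (QuotientAddGroup.mk' U') hses.surj hses.π_equiv H hH
        have hc := ih _ hlt (U ⧸ U') rfl hU'' _ hH''
        exact hStep r k N hN hNr Ar AN hAr hAN U' U (U ⧸ U') U'.subtype (QuotientAddGroup.mk' U')
          hses hU H hH hcard htype hc
  intro U _ _ _ hU H hH
  exact key _ U rfl hU H hH

end Fermat.Agent.S15.HG
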