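/-
S15, block HG, node K4 (Minkowski).  Owner: helper160.
-/
import Fermat.Agent.S15.HG.Statements
import Fermat.Agent.S13.MinkowskiMain

set_option autoImplicit false

namespace Fermat.Agent.S15.HG

open Fermat.Agent.S19

theorem minkowskiStatement : MinkowskiStatement := by
  intro Z _ ξ hmul hF hin
  have h1 : ξ 1 = 0 := by
    have h := hmul 1 1
    rw [mul_one] at h
    exact left_eq_add.mp h
  have hinv : ∀ g : Gal, ξ g⁻¹ = - ξ g := by
    intro g
    have h := hmul g⁻¹ g
    rw [inv_mul_cancel, h1] at h
    exact eq_neg_of_add_eq_zero_left h.symm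
  let J : Subgroup Gal :=
    { carrier := {g | ξ g = 0}
      one_mem' := h1
      mul_mem' := by
        intro a b ha hb
        show ξ (a * b) = 0
        rw [hmul, show ξ a = 0 from ha, show ξ b = 0 from hb, add_zero]
      inv_mem' := by
        intro a ha
        show ξ a⁻¹ = 0
        rw [hinv, show ξ a = 0 from ha, neg_zero] }
  have : J.Normal := by
    constructor
    intro n hn g
    show ξ (g * n * g⁻¹) = 0
    rw [hmul, hmul, hinv, show ξ n = 0 from hn, add_zero, add_neg_cancel]
  obtain ⟨F, hFfin, hFJ⟩ := hF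
  have := hFfin
  have htop : J = ⊤ :=
    Fermat.Agent.S13.Minkowski.eq_top_of_inertia_le J F (fun σ hσ => hFJ σ hσ)
      (fun q hq => by
        obtain ⟨A, hA, hAJ⟩ := hin q hq
        exact ⟨A, hA, fun σ hσ => hAJ σ hσ⟩)
  intro g
  have : g ∈ J := by rw [htop]; exact Subgroup.mem_top g
  exact this

end Fermat.Agent.S15.HG
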