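/-
S15, block HG, node RAM (task HG-RAM, proofs helper276): for `r` odd a Hopf order on a module of type
`μ_r` is connected.
-/
import Fermat.Agent.S15.HG.Statements
import Fermat.Agent.Lib.InertiaField.Unram

set_option autoImplicit false

namespace Fermat.Agent.S15.HG

open Fermat.Agent.S19

/-- roots of unity are units of `A` -/
theorem ramStatement_val_root (A : ValuationSubring Qb) {r : ℕ} (hr : r ≠ 0) {μ : Qb}
    (hμ : μ ^ r = 1) : A.valuation μ = 1 := by
  have h : A.valuation μ ^ r = 1 := by rw [← map_pow, hμ, map_one]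
  exact (pow_eq_one_iff.1 h).resolve_right hr

theorem ramStatement_val_le (A : ValuationSubring Qb) {r : ℕ} (hr : r ≠ 0) {μ : Qb}
    (hμ : μ ^ r = 1) (j : ℕ) : A.valuation (1 - μ ^ j) ≤ A.valuation (1 - μ) := by
  have hmem : μ ∈ A := (A.valuation_le_one_iff μ).1 (ramStatement_val_root A hr hμ).le
  have hsum : ∑ i ∈ Finset.range j, μ ^ i ∈ A := sum_mem fun i _ => pow_mem hmem i
  rw [← mul_neg_geom_sum, map_mul]
  exact mul_le_of_le_one_right' ((A.valuation_le_one_iff _).2 hsum)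

/-- `v (1 - ζ) ^ (r - 1) = v r` -/
theorem ramStatement_val_pow (A : ValuationSubring Qb) {r : ℕ} (hr : r.Prime) {ζ : Qb}
    (hζ : IsPrimitiveRoot ζ r) : A.valuation (1 - ζ) ^ (r - 1) = A.valuation (r : Qb) := by
  have : Fact r.Prime := ⟨hr⟩
  have : NeZero r := ⟨hr.ne_zero⟩
  have h1 : (r : Qb) = ∏ μ ∈ primitiveRoots r Qb, (1 - μ) := by
    have h2 := Polynomial.eval_one_cyclotomic_prime (R := Qb) (p := r)
    rw [Polynomial.cyclotomic_eq_prod_X_sub_primitiveRoots hζ, Polynomial.eval_prod] at h2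
    rw [← h2]
    exact Finset.prod_congr rfl fun μ _ => by simp
  have h3 : ∀ μ ∈ primitiveRoots r Qb, A.valuation (1 - μ) = A.valuation (1 - ζ) := by
    intro μ hμ
    have hμ' : IsPrimitiveRoot μ r := (mem_primitiveRoots hr.pos).1 hμ
    obtain ⟨i, -, hi⟩ := hζ.eq_pow_of_pow_eq_one hμ'.pow_eq_one
    obtain ⟨j, -, hj⟩ := hμ'.eq_pow_of_pow_eq_one hζ.pow_eq_one
    apply le_antisymm
    · rw [← hi]
      exact ramStatement_val_le A hr.ne_zero hζ.pow_eq_one i
    · rw [← hj]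
      exact ramStatement_val_le A hr.ne_zero hμ'.pow_eq_one j
  rw [h1, map_prod, Finset.prod_congr rfl h3, Finset.prod_const, hζ.card_primitiveRoots,
    Nat.totient_prime hr]

/-- a primitive `r`-th root of unity is not fixed by the inertia group at `r`, `r` odd -/
theorem ramStatement_not_fixed (A : ValuationSubring Qb) {r : ℕ} (hr : r.Prime) (hr2 : r ≠ 2)
    (hA : A.LiesOverPrime r) {ζ : Qb} (hζ : IsPrimitiveRoot ζ r)
    (hfix : ∀ σ ∈ A.inertiaSubgroupIn ℚ, σ ζ = ζ) : False := by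
  have hθ : (1 - ζ : Qb) ≠ 0 := by
    intro h
    exact hζ.ne_one hr.one_lt (sub_eq_zero.1 h).symm
  have hθfix : ∀ σ ∈ A.inertiaSubgroupIn ℚ, σ (1 - ζ) = 1 - ζ := by
    intro σ hσ
    rw [map_sub, map_one, hfix σ hσ]
  obtain ⟨k, u, -, hu, hu', hθu⟩ := Lib.InertiaField.exists_zpow_mul_unit A r hr hA
    ((Lib.InertiaField.mem_K0_iff A (1 - ζ)).mpr hθfix) hθ
  have hu0 : u ≠ 0 := by
    rintro rfl
    rw [mul_zero] at hθu
    exact hθ hθu
  have h3 : A.valuation u = 1 := by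
    refine le_antisymm ((A.valuation_le_one_iff u).mpr hu) ?_
    have h2 : A.valuation u⁻¹ ≤ 1 := (A.valuation_le_one_iff _).mpr hu'
    rw [map_inv₀] at h2
    exact (inv_le_one₀ (zero_lt_iff.mpr ((map_ne_zero _).mpr hu0))).mp h2
  have hk : A.valuation (1 - ζ) = A.valuation (r : Qb) ^ k := by
    rw [hθu, map_mul, map_zpow₀, h3, mul_one]
  have hpow := ramStatement_val_pow A hr hζ
  rw [hk, ← zpow_natCast, ← zpow_mul] at hpow
  have hr0 : (r : Qb) ≠ 0 := Nat.cast_ne_zero.2 hr.ne_zero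
  have hpos : 0 < A.valuation (r : Qb) := zero_lt_iff.mpr ((map_ne_zero _).mpr hr0)
  have hlt : A.valuation (r : Qb) < 1 := A.mem_nonunits_iff.1 hA
  have hinj := zpow_right_injective₀ hpos hlt.ne
  have h4 : k * ((r - 1 : ℕ) : ℤ) = 1 := by
    apply hinj
    simp only
    rw [hpow, zpow_one]
  have h5 : ((r - 1 : ℕ) : ℤ) = 1 := by
    rcases Int.eq_one_or_neg_one_of_mul_eq_one' h4 with ⟨-, h⟩ | ⟨-, h⟩
    · exact h
    · have : (0 : ℤ) ≤ ((r - 1 : ℕ) : ℤ) := Int.natCast_nonneg _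
      omega
  have := hr.two_le
  omega

theorem ramStatement (hC : ConnSubStatement) (hIC : InertiaConnStatement) : RamStatement := by
  intro r hr hr2 A hA M _ _ _ hcard hMu H hH
  obtain ⟨⟨C, hCeq⟩, -⟩ := hC r A hA M H hH
  have : Fact (Nat.card M).Prime := ⟨hcard ▸ hr.out⟩
  rcases C.eq_bot_or_eq_top_of_prime_card with hbot | htop
  swap
  · rw [← hCeq, htop]
    rfl
  exfalso
  have hconn : conn A H = {0} := by
    rw [← hCeq, hbot]
    rfl
  obtain ⟨χ, h0, hmul, hinj, heq⟩ := hMu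
  have hfix : ∀ σ ∈ A.inertiaSubgroupIn ℚ, ∀ x : M, σ • x = x := by
    intro σ hσ x
    have := hIC r A hA M H hH σ hσ x
    rw [hconn, Set.mem_singleton_iff, sub_eq_zero] at this
    exact this
  have hnt : Nontrivial M := by
    apply (Finite.one_lt_card_iff_nontrivial).1
    rw [hcard]
    exact hr.out.one_lt
  obtain ⟨x, hx⟩ := exists_ne (0 : M)
  have hpow : ∀ n : ℕ, χ (n • x) = χ x ^ n := by
    intro n
    induction n with
    | zero => simp [h0]
    | succ n ih => rw [succ_nsmul, hmul, ih, pow_succ]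
  have hζr : χ x ^ r = 1 := by
    rw [← hpow, ← hcard, card_nsmul_eq_zero', h0]
  have hζ1 : χ x ≠ 1 := fun h => hx (hinj x h)
  have hζ : IsPrimitiveRoot (χ x) r := by
    have := IsPrimitiveRoot.orderOf (χ x)
    rwa [orderOf_eq_prime hζr hζ1] at this
  refine ramStatement_not_fixed A hr.out hr2 hA hζ fun σ hσ => ?_
  rw [← heq, hfix σ hσ]

end Fermat.Agent.S15.HG
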