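/-
S15, block HG, node O1: the restriction of a Hopf order to a submodule is a Hopf order
(explicit form of `S19.HasHopfOrder.of_injective`; same proof).
-/
import Fermat.Agent.S15.HG.Statements

set_option autoImplicit false

namespace Fermat.Agent.S15.HG

open Fermat.Agent.S19

theorem resStatement : ResStatement := by
  intro r _ M' M _ _ _ _ _ φ hφ heq H hH
  refine ⟨?_, ?_, ?_, ?_⟩
  · rintro _ ⟨h, hh, rfl⟩ σ x
    show h (φ (σ • x)) = σ (h (φ x))
    rw [heq, hH.equivariant h hh]
  · rw [resOrder, Subalgebra.map_toSubmodule]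
    exact hH.fg.map _
  · intro x y hxy
    obtain ⟨h, hh, hne⟩ := hH.separates (φ x) (φ y) (fun e => hxy (hφ e))
    exact ⟨pullback (Rl r) φ h, ⟨h, hh, rfl⟩, hne⟩
  · rintro _ ⟨h, hh, rfl⟩
    let Ψ : (M × M → Qb) →ₗ[Rl r] (M' × M' → Qb) :=
      (pullback (Rl r) (fun q : M' × M' => (φ q.1, φ q.2))).toLinearMap
    have hle : Submodule.span (Rl r) (prodFun H H) ≤
        (Submodule.span (Rl r) (prodFun (resOrder φ H) (resOrder φ H))).comap Ψ := by
      rw [Submodule.span_le]
      rintro F ⟨a, ha, b, hb, rfl⟩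
      exact Submodule.subset_span ⟨pullback (Rl r) φ a, ⟨a, ha, rfl⟩,
        pullback (Rl r) φ b, ⟨b, hb, rfl⟩, rfl⟩
    have h1 := hle (hH.comul h hh)
    have h2 : (fun q : M' × M' => (pullback (Rl r) φ h) (q.1 + q.2)) =
        Ψ (fun q : M × M => h (q.1 + q.2)) := by
      funext q
      show h (φ (q.1 + q.2)) = h (φ q.1 + φ q.2)
      rw [map_add]
    exact h2 ▸ h1

end Fermat.Agent.S15.HG
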