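/-
S15, block HG, node S1 (saturation).  Owner: helper191.

A function in `A·H` which factors through `φ` comes from `A·H''`: apply the `ℚ̄`-linear projector
`PK` of `S19.ClosureQuot.exists_projK` (identity on `φ`-invariant functions, maps `H` into the
invariant part of `H`) followed by the pull back along a section of `φ`.
-/
import Fermat.Agent.S15.HG.Statements
import Fermat.Agent.S19.ClosureQuot

set_option autoImplicit false

noncomputable section

namespace Fermat.Agent.S15.HG

open Fermat.Agent.S19

theorem saturationStatement (hQ : QuotStatement) : SaturationStatement := by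
  intro r _ A _hA M M'' _ _ _ _ _ φ hφ heq H hH f hf
  classical
  have : Fintype M := Fintype.ofFinite M
  have := Rl_isPrincipalIdealRing r
  obtain ⟨ι, _, b, hli, hsp⟩ := hH.isFullLattice
  let B : Module.Basis ι Qb (M → Qb) := Module.Basis.mk hli (by rw [hsp])
  have hBb : ∀ i, B i = ((b i : H) : M → Qb) := fun i => Module.Basis.mk_apply hli _ i
  obtain ⟨PK, hPK1, hPK2, hPK3⟩ :=
    ClosureQuot.exists_projK exists_rat_of_fixed φ heq hH.equivariant hH.fg b B hBb
  let s : M'' → M := Function.surjInv hφ
  have hs : ∀ z, φ (s z) = z := Function.surjInv_eq hφ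
  let Θ : (M → Qb) →ₗ[A] (M'' → Qb) := ((LinearMap.funLeft Qb Qb s) ∘ₗ PK).restrictScalars A
  have hΘ : ∀ h ∈ (H : Set (M → Qb)), Θ h ∈ aspan A (quotOrder φ H) := by
    intro h hh
    refine Submodule.subset_span ?_
    show (fun z => PK h (s z)) ∈ quotOrder φ H
    rw [mem_quotOrder]
    have : (fun x => PK h (s (φ x))) = PK h := funext fun x => hPK2 h hh _ _ (hs _)
    rw [this]
    exact hPK1 h hh
  have h1 := (Submodule.map_span_le Θ (H : Set (M → Qb)) _).mpr hΘ (Submodule.mem_map_of_mem hf)
  have e : Θ (fun x => f (φ x)) = f := by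
    funext z
    show PK (fun x => f (φ x)) (s z) = f z
    rw [hPK3 _ (fun x y hxy => by simp only [hxy])]
    simp only [hs]
  rwa [e] at h1

end Fermat.Agent.S15.HG

end
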