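/-
S15, block HG, node E1 (`SimpleStatement`).  Proof: helper27.

A nonzero finite Galois module satisfying `Hyp` contains a stable subgroup of order `r` which is
trivial or of type `μ_r`.

Plan: take a minimal nonzero stable subgroup `W`.  It is killed by `r`; the subgroup `G₁` of `Gal`
fixing `μ_r` acts on `W` through an `r`-group, hence trivially (fixed points of `r`-groups and
minimality); so `Gal` acts on `W` through an abelian group and the kernels of `g - 1`, `g - a` are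
stable: every `g` acts as `1` or as `a(g)`; a group is not the union of two proper subgroups.
-/
import Fermat.Agent.S15.HG.Statements

set_option autoImplicit false
set_option linter.unusedSectionVars false
set_option linter.style.haveILetI false

noncomputable section

namespace Fermat.Agent.S15.HG

open Fermat.Agent.S19

namespace simpleStatement

/-- every automorphism acts on the `n`-th roots of unity by a power. -/
theorem exists_exp (n : ℕ) (hn : n ≠ 0) (g : Gal) :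
    ∃ a : ℕ, ∀ ζ : Qb, ζ ^ n = 1 → g ζ = ζ ^ a := by
  have : NeZero n := ⟨hn⟩
  have : NeZero (n : Qb) := ⟨Nat.cast_ne_zero.2 hn⟩
  obtain ⟨ζ₀, h₀⟩ := HasEnoughRootsOfUnity.exists_primitiveRoot Qb n
  have h1 : (g ζ₀) ^ n = 1 := by rw [← map_pow, h₀.pow_eq_one, map_one]
  obtain ⟨a, -, ha⟩ := h₀.eq_pow_of_pow_eq_one h1
  refine ⟨a, fun ζ hζ => ?_⟩
  obtain ⟨i, -, rfl⟩ := h₀.eq_pow_of_pow_eq_one hζ
  rw [map_pow, ← ha, ← pow_mul, ← pow_mul, mul_comm]

/-- the subgroup of `Gal` fixing the `r`-th roots of unity. -/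
def G1 (r : ℕ) : Subgroup Gal where
  carrier := {g | ∀ ζ : Qb, ζ ^ r = 1 → g ζ = ζ}
  mul_mem' := by
    intro g h hg hh ζ hζ
    rw [AlgEquiv.mul_apply, hh ζ hζ, hg ζ hζ]
  one_mem' := fun ζ _ => rfl
  inv_mem' := by
    intro g hg ζ hζ
    have h := hg ζ hζ
    calc g⁻¹ ζ = g⁻¹ (g ζ) := by rw [h]
      _ = ζ := g.symm_apply_apply ζ

theorem mem_G1 {r : ℕ} {g : Gal} : g ∈ G1 r ↔ ∀ ζ : Qb, ζ ^ r = 1 → g ζ = ζ := Iff.rfl

theorem conj_mem_G1 {r : ℕ} {g : Gal} (hg : g ∈ G1 r) (h : Gal) : h⁻¹ * g * h ∈ G1 r := by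
  intro ζ hζ
  have h1 : (h ζ) ^ r = 1 := by rw [← map_pow, hζ, map_one]
  rw [AlgEquiv.mul_apply, AlgEquiv.mul_apply, hg _ h1]
  exact h.symm_apply_apply ζ

theorem comm_mem_G1 {r : ℕ} (hr : r ≠ 0) (g h : Gal) : (h * g)⁻¹ * (g * h) ∈ G1 r := by
  intro ζ hζ
  obtain ⟨a, ha⟩ := exists_exp r hr g
  obtain ⟨b, hb⟩ := exists_exp r hr h
  have h1 : (g * h) ζ = (h * g) ζ := by
    rw [AlgEquiv.mul_apply, AlgEquiv.mul_apply, hb ζ hζ, ha ζ hζ, map_pow, map_pow, hb ζ hζ,
      ha ζ hζ, ← pow_mul, ← pow_mul, mul_comm]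
  rw [AlgEquiv.mul_apply, h1]
  exact (h * g).symm_apply_apply ζ

/-- the hypotheses on a simple module. -/
structure Simple (r k : ℕ) (W : Type) [AddCommGroup W] [DistribMulAction Gal W] : Prop where
  tors : ∀ x : W, r ^ k • x = 0
  eis : ∀ (g : Gal) (a : ℕ), (∀ ζ : Qb, ζ ^ r ^ k = 1 → g ζ = ζ ^ a) →
    ∃ m : ℕ, ∀ x : W, (eisOp g a)^[m] x = 0
  simple : ∀ W' : AddSubgroup W, (∀ (g : Gal), ∀ x ∈ W', g • x ∈ W') → W' = ⊥ ∨ W' = ⊤

section Core

variable {r : ℕ} [Fact r.Prime] {k : ℕ} {W : Type} [AddCommGroup W] [Finite W]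
  [DistribMulAction Gal W] [Nontrivial W]

theorem nsmul_congr {x : W} (hx : r • x = 0) {a b : ℕ} (hab : a ≡ b [MOD r]) : a • x = b • x :=
  nsmul_eq_nsmul_iff_modEq.2 (hab.of_dvd (addOrderOf_dvd_of_nsmul_eq_zero hx))

theorem Simple.k_ne_zero (h : Simple r k W) : k ≠ 0 := by
  rintro rfl
  obtain ⟨x, hx⟩ := exists_ne (0 : W)
  apply hx
  have := h.tors x
  rwa [pow_zero, one_nsmul] at this

theorem Simple.pow_of_pow (h : Simple r k W) {ζ : Qb} (hζ : ζ ^ r = 1) : ζ ^ r ^ k = 1 := by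
  obtain ⟨k', rfl⟩ := Nat.exists_eq_succ_of_ne_zero h.k_ne_zero
  rw [pow_succ', pow_mul, hζ, one_pow]

theorem Simple.r_smul (h : Simple r k W) (x : W) : r • x = 0 := by
  let W' : AddSubgroup W := (nsmulAddMonoidHom (α := W) r).ker
  have hmem : ∀ y : W, y ∈ W' ↔ r • y = 0 := fun y => Iff.rfl
  have hst : ∀ (g : Gal), ∀ y ∈ W', g • y ∈ W' := by
    intro g y hy
    rw [hmem] at hy ⊢
    rw [smul_comm, hy, smul_zero]
  rcases h.simple W' hst with h0 | h1
  · exfalso
    have hinj : ∀ y : W, r • y = 0 → y = 0 := by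
      intro y hy
      have : y ∈ W' := (hmem y).2 hy
      rwa [h0, AddSubgroup.mem_bot] at this
    have hall : ∀ (n : ℕ) (y : W), r ^ n • y = 0 → y = 0 := by
      intro n
      induction n with
      | zero => intro y hy; rwa [pow_zero, one_nsmul] at hy
      | succ n ih =>
        intro y hy
        rw [pow_succ, mul_nsmul'] at hy
        exact hinj y (ih _ hy)
    obtain ⟨y, hy⟩ := exists_ne (0 : W)
    exact hy (hall k y (h.tors y))
  · have : x ∈ W' := by rw [h1]; exact AddSubgroup.mem_top x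
    exact (hmem x).1 this

theorem Simple.dvd_card (h : Simple r k W) : r ∣ Nat.card W := by
  obtain ⟨x, hx⟩ := exists_ne (0 : W)
  have h1 : addOrderOf x = r := addOrderOf_eq_prime (h.r_smul x) hx
  rw [← h1]
  exact addOrderOf_dvd_natCard x

/-- the exponent of an element of `G₁` is `≡ 1`. -/
theorem Simple.exp_G1 (h : Simple r k W) {g : Gal} (hg : g ∈ G1 r) {a : ℕ}
    (ha : ∀ ζ : Qb, ζ ^ r ^ k = 1 → g ζ = ζ ^ a) : a ≡ 1 [MOD r] := by
  have hr : r.Prime := Fact.out
  have : NeZero r := ⟨hr.ne_zero⟩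
  have : NeZero (r : Qb) := ⟨Nat.cast_ne_zero.2 hr.ne_zero⟩
  obtain ⟨ζ, hζ⟩ := HasEnoughRootsOfUnity.exists_primitiveRoot Qb r
  have h1 : ζ ^ a = ζ := by
    rw [← ha ζ (h.pow_of_pow hζ.pow_eq_one), hg ζ hζ.pow_eq_one]
  have hζ0 : ζ ≠ 0 := hζ.ne_zero hr.ne_zero
  have h2 : ζ ^ ((a : ℤ) - 1) = 1 := by
    rw [zpow_sub₀ hζ0, zpow_natCast, zpow_one, h1, div_self hζ0]
  have h3 := (hζ.zpow_eq_one_iff_dvd _).1 h2
  exact ((Nat.modEq_iff_dvd).2 (by exact_mod_cast h3)).symm

theorem Simple.unip (h : Simple r k W) {g : Gal} (hg : g ∈ G1 r) :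
    ∃ j : ℕ, ∀ x : W, g ^ r ^ j • x = x := by
  have hr : r.Prime := Fact.out
  obtain ⟨a, ha⟩ := exists_exp (r ^ k) (pow_ne_zero _ hr.ne_zero) g
  obtain ⟨m, hm⟩ := h.eis g a ha
  have ha1 := h.exp_G1 hg ha
  let T : AddMonoid.End W := DistribMulAction.toAddMonoidEnd Gal W g
  have hT : ∀ x, T x = g • x := fun x => rfl
  have hE : ∀ x, ((T - 1) ^ 2 : AddMonoid.End W) x = eisOp g a x := by
    intro x
    have h1 : a • x = 1 • x := nsmul_congr (h.r_smul x) ha1
    have h2 : (a + 1) • g • x = (1 + 1) • g • x :=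
      nsmul_congr (h.r_smul _) (ha1.add_right 1)
    rw [eisOp, h1, h2, sq]
    show (g • (g • x - x) - (g • x - x)) = _
    rw [smul_sub, one_nsmul, add_nsmul, one_nsmul]
    abel
  have hE' : (⇑((T - 1) ^ 2 : AddMonoid.End W) : W → W) = eisOp g a := funext hE
  have hnil : (T - 1) ^ (2 * m) = 0 := by
    ext x
    rw [pow_mul, AddMonoid.End.coe_pow, hE', hm x]
    rfl
  have hnt : Nontrivial (AddMonoid.End W) := by
    obtain ⟨y, hy⟩ := exists_ne (0 : W)
    exact ⟨⟨1, 0, fun h10 => hy (congrArg (fun f : AddMonoid.End W => f y) h10)⟩⟩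
  have hchar : CharP (AddMonoid.End W) r := by
    rw [CharP.charP_iff_prime_eq_zero hr]
    ext x
    rw [AddMonoid.End.natCast_apply, h.r_smul x]
    rfl
  have hle : 2 * m ≤ r ^ (2 * m) := (Nat.lt_pow_self hr.one_lt).le
  have h0 : (T - 1) ^ r ^ (2 * m) = 0 := pow_eq_zero_of_le hle hnil
  rw [sub_pow_char_pow_of_commute r (2 * m) (Commute.one_right T), one_pow, sub_eq_zero] at h0
  refine ⟨2 * m, fun x => ?_⟩
  have h3 : DistribMulAction.toAddMonoidEnd Gal W (g ^ r ^ (2 * m)) = 1 := by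
    rw [map_pow]; exact h0
  exact congrArg (fun f : AddMonoid.End W => f x) h3

theorem Simple.G1_triv (h : Simple r k W) {g : Gal} (hg : g ∈ G1 r) (x : W) : g • x = x := by
  let W₁ : AddSubgroup W :=
    { carrier := {y | ∀ g ∈ G1 r, g • y = y}
      add_mem' := by
        intro y z hy hz g hg
        rw [smul_add, hy g hg, hz g hg]
      zero_mem' := fun g _ => smul_zero g
      neg_mem' := by
        intro y hy g hg
        rw [smul_neg, hy g hg] }
  have hmem : ∀ y : W, y ∈ W₁ ↔ ∀ g ∈ G1 r, g • y = y := fun y => Iff.rfl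
  have hst : ∀ (g : Gal), ∀ y ∈ W₁, g • y ∈ W₁ := by
    intro σ y hy g hg
    have h1 := hy _ (conj_mem_G1 hg σ)
    calc g • σ • y = σ • (σ⁻¹ * g * σ) • y := by
          rw [smul_smul, smul_smul, mul_assoc, mul_inv_cancel_left]
      _ = σ • y := by rw [h1]
  rcases h.simple W₁ hst with h0 | h1
  · exfalso
    let P : Subgroup (Equiv.Perm W) := (G1 r).map (MulAction.toPermHom Gal W)
    have hP : IsPGroup r P := by
      rintro ⟨_, σ, hσ, rfl⟩
      obtain ⟨j, hj⟩ := h.unip hσ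
      refine ⟨j, Subtype.ext ?_⟩
      ext y
      show ((MulAction.toPermHom Gal W σ) ^ r ^ j) y = y
      rw [← map_pow]
      exact hj y
    have hfix : (0 : W) ∈ MulAction.fixedPoints P W := by
      rintro ⟨_, σ, hσ, rfl⟩
      exact smul_zero σ
    obtain ⟨b, hb, hb0⟩ :=
      hP.exists_fixed_point_of_prime_dvd_card_of_fixed_point W h.dvd_card hfix
    have hbW : b ∈ W₁ := by
      intro σ hσ
      exact hb ⟨MulAction.toPermHom Gal W σ, σ, hσ, rfl⟩
    rw [h0, AddSubgroup.mem_bot] at hbW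
    exact hb0 hbW.symm
  · have : x ∈ W₁ := by rw [h1]; exact AddSubgroup.mem_top x
    exact this g hg

theorem Simple.comm (h : Simple r k W) (g g' : Gal) (x : W) : g • g' • x = g' • g • x := by
  have hr : r.Prime := Fact.out
  have h1 := h.G1_triv (comm_mem_G1 hr.ne_zero g g') x
  calc g • g' • x = (g' * g) • ((g' * g)⁻¹ * (g * g')) • x := by
        rw [smul_smul, smul_smul, mul_inv_cancel_left]
    _ = g' • g • x := by rw [h1, smul_smul]

theorem eisOp_eq (g : Gal) (a : ℕ) (x : W) :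
    eisOp g a x = g • (g • x - a • x) - (g • x - a • x) := by
  rw [eisOp, smul_sub, smul_comm g a x, add_nsmul, one_nsmul]
  abel

theorem Simple.dichotomy (h : Simple r k W) (g : Gal) (a : ℕ)
    (ha : ∀ ζ : Qb, ζ ^ r ^ k = 1 → g ζ = ζ ^ a) :
    (∀ x : W, g • x = x) ∨ (∀ x : W, g • x = a • x) := by
  let K₁ : AddSubgroup W :=
    { carrier := {y | g • y = y}
      add_mem' := by
        intro y z hy hz
        show g • (y + z) = y + z
        rw [smul_add, hy, hz]
      zero_mem' := smul_zero g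
      neg_mem' := by
        intro y hy
        show g • (-y) = -y
        rw [smul_neg, hy] }
  let K₂ : AddSubgroup W :=
    { carrier := {y | g • y = a • y}
      add_mem' := by
        intro y z hy hz
        show g • (y + z) = a • (y + z)
        rw [smul_add, hy, hz, nsmul_add]
      zero_mem' := by
        show g • (0 : W) = a • (0 : W)
        rw [smul_zero, nsmul_zero]
      neg_mem' := by
        intro y hy
        show g • (-y) = a • (-y)
        rw [smul_neg, hy, smul_neg] }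
  have hm1 : ∀ y : W, y ∈ K₁ ↔ g • y = y := fun y => Iff.rfl
  have hm2 : ∀ y : W, y ∈ K₂ ↔ g • y = a • y := fun y => Iff.rfl
  have hst1 : ∀ (σ : Gal), ∀ y ∈ K₁, σ • y ∈ K₁ := by
    intro σ y hy
    rw [hm1] at hy ⊢
    rw [h.comm, hy]
  have hst2 : ∀ (σ : Gal), ∀ y ∈ K₂, σ • y ∈ K₂ := by
    intro σ y hy
    rw [hm2] at hy ⊢
    rw [h.comm, hy, smul_comm]
  rcases h.simple K₁ hst1 with h1 | h1
  · rcases h.simple K₂ hst2 with h2 | h2
    · exfalso
      have hinj : ∀ y : W, eisOp g a y = 0 → y = 0 := by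
        intro y hy
        rw [eisOp_eq, sub_eq_zero] at hy
        have h3 : g • y - a • y ∈ K₁ := (hm1 _).2 hy
        rw [h1, AddSubgroup.mem_bot, sub_eq_zero] at h3
        have h4 : y ∈ K₂ := (hm2 _).2 h3
        rwa [h2, AddSubgroup.mem_bot] at h4
      obtain ⟨m, hm⟩ := h.eis g a ha
      have hall : ∀ (n : ℕ) (y : W), (eisOp g a)^[n] y = 0 → y = 0 := by
        intro n
        induction n with
        | zero => intro y hy; exact hy
        | succ n ih =>
          intro y hy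
          rw [Function.iterate_succ_apply] at hy
          exact hinj y (ih _ hy)
      obtain ⟨y, hy⟩ := exists_ne (0 : W)
      exact hy (hall m y (hm y))
    · right
      intro x
      have : x ∈ K₂ := by rw [h2]; exact AddSubgroup.mem_top x
      exact this
  · left
    intro x
    have : x ∈ K₁ := by rw [h1]; exact AddSubgroup.mem_top x
    exact this

theorem Simple.triv_or_mu (h : Simple r k W) :
    (∀ (g : Gal) (x : W), g • x = x) ∨
      (∀ (g : Gal) (a : ℕ), (∀ ζ : Qb, ζ ^ r ^ k = 1 → g ζ = ζ ^ a) → ∀ x : W, g • x = a • x) := by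
  have hr : r.Prime := Fact.out
  by_cases htriv : ∀ (g : Gal) (x : W), g • x = x
  · exact Or.inl htriv
  right
  simp only [not_forall] at htriv
  obtain ⟨g₁, x₁, hx₁⟩ := htriv
  obtain ⟨a₁, ha₁⟩ := exists_exp (r ^ k) (pow_ne_zero _ hr.ne_zero) g₁
  have hg₁ : ∀ x : W, g₁ • x = a₁ • x :=
    (h.dichotomy g₁ a₁ ha₁).resolve_left (fun hh => hx₁ (hh x₁))
  intro σ b hb
  rcases h.dichotomy σ b hb with hσ | hσ
  · -- `σ` acts trivially
    have hab : ∀ ζ : Qb, ζ ^ r ^ k = 1 → (g₁ * σ) ζ = ζ ^ (a₁ * b) := by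
      intro ζ hζ
      rw [AlgEquiv.mul_apply, hb ζ hζ, map_pow, ha₁ ζ hζ, pow_mul]
    have hprod : ∀ x : W, (g₁ * σ) • x = g₁ • x := by
      intro x
      rw [mul_smul, hσ]
    rcases h.dichotomy (g₁ * σ) (a₁ * b) hab with h1 | h1
    · exact absurd ((hprod x₁).symm.trans (h1 x₁)) hx₁
    · intro x
      have h2 : g₁ • x = g₁ • (b • x) := by
        rw [← hprod x, h1 x, hg₁ (b • x), mul_nsmul']
      rw [hσ x]
      exact (MulAction.injective g₁) h2
  · exact hσ

theorem Simple.zmultiples_top (h : Simple r k W) {x₀ : W} (hx₀ : x₀ ≠ 0) :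
    AddSubgroup.zmultiples x₀ = ⊤ := by
  have hr : r.Prime := Fact.out
  have hst : ∀ (g : Gal), ∀ y ∈ AddSubgroup.zmultiples x₀, g • y ∈ AddSubgroup.zmultiples x₀ := by
    intro g y hy
    rcases h.triv_or_mu with h1 | h1
    · rw [h1]; exact hy
    · obtain ⟨a, ha⟩ := exists_exp (r ^ k) (pow_ne_zero _ hr.ne_zero) g
      rw [h1 g a ha]
      exact AddSubgroup.nsmul_mem _ hy a
  rcases h.simple _ hst with h0 | h1
  · exfalso
    apply hx₀
    have := AddSubgroup.mem_zmultiples x₀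
    rwa [h0, AddSubgroup.mem_bot] at this
  · exact h1

theorem Simple.card (h : Simple r k W) : Nat.card W = r := by
  obtain ⟨x₀, hx₀⟩ := exists_ne (0 : W)
  have h1 : addOrderOf x₀ = r := addOrderOf_eq_prime (h.r_smul x₀) hx₀
  rw [← h1, ← Nat.card_zmultiples, h.zmultiples_top hx₀]
  exact (Nat.card_congr AddSubgroup.topEquiv.toEquiv).symm

theorem Simple.isMu (h : Simple r k W)
    (hmu : ∀ (g : Gal) (a : ℕ), (∀ ζ : Qb, ζ ^ r ^ k = 1 → g ζ = ζ ^ a) →
      ∀ x : W, g • x = a • x) : IsMu W := by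
  have hr : r.Prime := Fact.out
  have : NeZero r := ⟨hr.ne_zero⟩
  have : NeZero (r : Qb) := ⟨Nat.cast_ne_zero.2 hr.ne_zero⟩
  obtain ⟨x₀, hx₀⟩ := exists_ne (0 : W)
  have htop := h.zmultiples_top hx₀
  have hord : addOrderOf x₀ = r := addOrderOf_eq_prime (h.r_smul x₀) hx₀
  obtain ⟨ζ, hζ⟩ := HasEnoughRootsOfUnity.exists_primitiveRoot Qb r
  have hζ0 : ζ ≠ 0 := hζ.ne_zero hr.ne_zero
  have hkey : ∀ n : ℤ, n • x₀ = 0 ↔ ζ ^ n = 1 := by
    intro n
    rw [hζ.zpow_eq_one_iff_dvd, ← addOrderOf_dvd_iff_zsmul_eq_zero, hord]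
  have hex : ∀ x : W, ∃ n : ℤ, n • x₀ = x := by
    intro x
    have : x ∈ AddSubgroup.zmultiples x₀ := by rw [htop]; exact AddSubgroup.mem_top x
    exact AddSubgroup.mem_zmultiples_iff.1 this
  choose n hn using hex
  have hχ : ∀ (x : W) (m : ℤ), m • x₀ = x → ζ ^ n x = ζ ^ m := by
    intro x m hm
    have h1 : (n x - m) • x₀ = 0 := by rw [sub_zsmul, hn, hm, add_neg_cancel]
    rw [hkey, zpow_sub₀ hζ0, div_eq_one_iff_eq (zpow_ne_zero _ hζ0)] at h1
    exact h1
  refine ⟨fun x => ζ ^ n x, ?_, ?_, ?_, ?_⟩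
  · show ζ ^ n 0 = 1
    rw [hχ 0 0 (zero_zsmul x₀), zpow_zero]
  · intro x y
    show ζ ^ n (x + y) = ζ ^ n x * ζ ^ n y
    rw [hχ (x + y) (n x + n y) (by rw [add_zsmul, hn, hn]), zpow_add₀ hζ0]
  · intro x hx
    have h1 : ζ ^ n x = 1 := hx
    rw [← hkey, hn] at h1
    exact h1
  · intro g x
    show ζ ^ n (g • x) = g (ζ ^ n x)
    obtain ⟨a, ha⟩ := exists_exp (r ^ k) (pow_ne_zero _ hr.ne_zero) g
    have h1 : (ζ ^ n x) ^ r = 1 := by
      rw [← zpow_natCast, ← zpow_mul, mul_comm, zpow_mul, zpow_natCast, hζ.pow_eq_one, one_zpow]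
    rw [ha _ (h.pow_of_pow h1), hχ (g • x) (n x * (a : ℤ)), zpow_mul, zpow_natCast]
    rw [hmu g a ha x, mul_comm, mul_zsmul, hn, natCast_zsmul]

end Core

/-- a minimal nonzero stable subgroup. -/
theorem exists_minimal (U : Type) [AddCommGroup U] [Finite U] [DistribMulAction Gal U]
    [Nontrivial U] :
    ∃ W : AddSubgroup U, W ≠ ⊥ ∧ (∀ (g : Gal), ∀ x ∈ W, g • x ∈ W) ∧
      ∀ W' : AddSubgroup U, W' ≤ W → (∀ (g : Gal), ∀ x ∈ W', g • x ∈ W') → W' = ⊥ ∨ W' = W := by
  classical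
  have hne : ∃ n : ℕ, ∃ W : AddSubgroup U, W ≠ ⊥ ∧ (∀ (g : Gal), ∀ x ∈ W, g • x ∈ W) ∧
      Nat.card W = n :=
    ⟨_, ⊤, top_ne_bot, fun _ _ _ => AddSubgroup.mem_top _, rfl⟩
  obtain ⟨W, hW0, hWst, hWc⟩ := Nat.find_spec hne
  refine ⟨W, hW0, hWst, fun W' hle hst' => ?_⟩
  by_cases h0 : W' = ⊥
  · exact Or.inl h0
  · right
    have h1 : Nat.find hne ≤ Nat.card W' := Nat.find_min' hne ⟨W', h0, hst', rfl⟩
    exact AddSubgroup.eq_of_le_of_card_ge hle (by rw [hWc]; exact h1)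

theorem coe_iterate_eisOp {U : Type} [AddCommGroup U] [DistribMulAction Gal U] (W : AddSubgroup U)
    (hst : ∀ (g : Gal), ∀ x ∈ W, g • x ∈ W) (g : Gal) (a m : ℕ) (x : W) :
    letI := subAction W hst
    (((eisOp g a)^[m] x : W) : U) = (eisOp g a)^[m] (x : U) := by
  letI := subAction W hst
  induction m generalizing x with
  | zero => rfl
  | succ m ih =>
    rw [Function.iterate_succ_apply, Function.iterate_succ_apply, ih]
    rfl

theorem simple_of_minimal {r k N : ℕ} {U : Type} [AddCommGroup U] [DistribMulAction Gal U]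
    (H : Hyp r k N U) (W : AddSubgroup U) (hst : ∀ (g : Gal), ∀ x ∈ W, g • x ∈ W)
    (hmin : ∀ W' : AddSubgroup U, W' ≤ W → (∀ (g : Gal), ∀ x ∈ W', g • x ∈ W') →
      W' = ⊥ ∨ W' = W) :
    letI := subAction W hst
    Simple r k W := by
  letI := subAction W hst
  refine ⟨fun x => Subtype.ext ?_, fun g a ha => ?_, fun W' hst' => ?_⟩
  · rw [AddSubgroup.coe_nsmul, H.tors]
    rfl
  · obtain ⟨m, hm⟩ := H.eis g a ha
    refine ⟨m, fun x => Subtype.ext ?_⟩
    rw [coe_iterate_eisOp W hst, hm]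
    rfl
  · have hle : W'.map W.subtype ≤ W := by
      rintro _ ⟨y, -, rfl⟩
      exact y.2
    have hstm : ∀ (g : Gal), ∀ x ∈ W'.map W.subtype, g • x ∈ W'.map W.subtype := by
      rintro g _ ⟨y, hy, rfl⟩
      exact ⟨g • y, hst' g y hy, rfl⟩
    rcases hmin _ hle hstm with h0 | h1
    · left
      exact (AddSubgroup.map_eq_bot_iff_of_injective W' W.subtype_injective).1 h0
    · right
      rw [eq_top_iff]
      intro x _
      have hx : (x : U) ∈ W'.map W.subtype := by rw [h1]; exact x.2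
      obtain ⟨y, hy, hyx⟩ := hx
      have : y = x := Subtype.ext hyx
      rwa [← this]

end simpleStatement

open simpleStatement in
/-- E1: a nonzero module satisfying `Hyp` contains a stable subgroup of order `r` which is trivial or
of type `μ_r`. -/
theorem simpleStatement : SimpleStatement := by
  intro r _ k N U _ _ _ H hnt
  obtain ⟨W, hW0, hst, hmin⟩ := exists_minimal U
  refine ⟨W, hst, ?_⟩
  letI := subAction W hst
  have hS : Simple r k W := simple_of_minimal H W hst hmin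
  have : Nontrivial W := (AddSubgroup.nontrivial_iff_ne_bot W).2 hW0
  refine ⟨hS.card, ?_⟩
  rcases hS.triv_or_mu with h1 | h1
  · exact Or.inl h1
  · exact Or.inr (hS.isMu h1)

end Fermat.Agent.S15.HG

end

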