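/-
S15, block HG, node ST3 (the induction step of Theorem G).  Owner: helper192.

`stepStatement`: from the two cases ST1 (étale) and ST2 (connected) of the inequality `(*)`, the
multiplicativity of `|U⁰|`, and the classification of Hopf orders on modules of order `r`
(L4, RAM), deduce the induction step.
-/
import Fermat.Agent.S15.HG.Statements

set_option autoImplicit false

namespace Fermat.Agent.S15.HG

open Fermat.Agent.S19

/-- In a group of order two, two nonzero elements are equal. -/
private theorem stepStatement_eq_of_ne_zero {M : Type} [AddCommGroup M] (hM : Nat.card M = 2)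
    {x y : M} (hx : x ≠ 0) (hy : y ≠ 0) : x = y := by
  classical
  by_contra hxy
  have : Finite M := Nat.finite_of_card_ne_zero (by omega)
  have := Fintype.ofFinite M
  have h3 : ({0, x, y} : Finset M).card = 3 := by
    rw [Finset.card_insert_of_notMem, Finset.card_insert_of_notMem, Finset.card_singleton]
    · simpa using hxy
    · simp only [Finset.mem_insert, Finset.mem_singleton, not_or]
      exact ⟨fun h => hx h.symm, fun h => hy h.symm⟩
  have h4 : ({0, x, y} : Finset M).card ≤ Fintype.card M := Finset.card_le_univ _
  rw [← Nat.card_eq_fintype_card, hM, h3] at h4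
  omega

/-- A module of type `μ₂` of order two has trivial action. -/
private theorem stepStatement_isTriv_of_isMu {M : Type} [AddCommGroup M] [DistribMulAction Gal M]
    (hM : Nat.card M = 2) (h : IsMu M) : IsTriv M := by
  obtain ⟨χ, h0, hmul, hinj, heq⟩ := h
  intro g x
  have h2 : (2 : ℕ) • x = 0 := by
    rw [← hM]; exact card_nsmul_eq_zero'
  have hsq : χ x * χ x = 1 := by
    rw [← hmul, ← two_nsmul, h2, h0]
  have hpm : χ x = 1 ∨ χ x = -1 := by
    have : (χ x - 1) * (χ x + 1) = 0 := by linear_combination hsq
    rcases mul_eq_zero.1 this with h | h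
    · left; linear_combination h
    · right; linear_combination h
  have hfix : g (χ x) = χ x := by
    rcases hpm with h | h <;> rw [h] <;> simp
  have hne : χ x ≠ 0 := by
    intro h; rw [h] at hsq; simp at hsq
  have h1 : χ (g • x - x) * χ x = χ x := by
    rw [← hmul, sub_add_cancel, heq, hfix]
  have h3 : χ (g • x - x) = 1 := by
    have := mul_right_cancel₀ hne (h1.trans (one_mul _).symm)
    exact this
  exact sub_eq_zero.1 (hinj _ h3)

/-- A trivial module of order two is of type `μ₂`. -/
private theorem stepStatement_isMu_of_isTriv {M : Type} [AddCommGroup M] [DistribMulAction Gal M]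
    (hM : Nat.card M = 2) (h : IsTriv M) : IsMu M := by
  classical
  refine ⟨fun x => if x = 0 then 1 else -1, by simp, ?_, ?_, ?_⟩
  · intro x y
    by_cases hx : x = 0
    · simp [hx]
    by_cases hy : y = 0
    · simp [hy]
    have hxy : x = y := stepStatement_eq_of_ne_zero hM hx hy
    have h2 : (2 : ℕ) • x = 0 := by
      rw [← hM]; exact card_nsmul_eq_zero'
    have : x + y = 0 := by rw [← hxy, ← two_nsmul, h2]
    simp [this, hx, hy]
  · intro x hx
    by_contra hne
    simp only [hne, if_false] at hx
    have : (2 : Qb) = 0 := by linear_combination -hx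
    exact two_ne_zero this
  · intro g x
    rw [h g x]
    by_cases hx : x = 0 <;> simp [hx]

/-- `|Y| = |Y ∩ U'| · |π Y|`. -/
private theorem stepStatement_card {U' U U'' : Type} [AddCommGroup U'] [AddCommGroup U]
    [AddCommGroup U''] [DistribMulAction Gal U'] [DistribMulAction Gal U]
    [DistribMulAction Gal U''] (ι : U' →+ U) (π : U →+ U'') (hS : IsSES ι π)
    (Y : AddSubgroup U) :
    Nat.card Y = Nat.card (Y.comap ι) * Nat.card (Y.map π) := by
  have h1 := (π.addSubgroupMap Y).ker.card_mul_index
  rw [AddSubgroup.index_ker,
    AddMonoidHom.range_eq_top.2 (π.addSubgroupMap_surjective Y)] at h1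
  rw [← h1]
  congr 1
  · symm
    refine Nat.card_congr (Equiv.ofBijective
      (fun x : Y.comap ι => (⟨⟨ι x.1, x.2⟩, ?_⟩ : (π.addSubgroupMap Y).ker)) ⟨?_, ?_⟩)
    · rw [AddMonoidHom.mem_ker]
      apply Subtype.ext
      exact (hS.exact _).2 ⟨x.1, rfl⟩
    · intro x y hxy
      have : ι x.1 = ι y.1 := congrArg (fun z => ((z.1 : Y) : U)) hxy
      exact Subtype.ext (hS.inj this)
    · rintro ⟨⟨y, hy⟩, hk⟩
      rw [AddMonoidHom.mem_ker] at hk
      have : π y = 0 := congrArg Subtype.val hk
      obtain ⟨x', hx'⟩ := (hS.exact y).1 this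
      refine ⟨⟨x', ?_⟩, ?_⟩
      · rw [AddSubgroup.mem_comap, hx']; exact hy
      · apply Subtype.ext; apply Subtype.ext; exact hx'
  · exact Nat.card_congr (AddSubgroup.topEquiv (G := Y.map π)).toEquiv

/-- **ST3**: the induction step of Theorem G. -/
theorem stepStatement (h1 : StepEtaleStatement) (h2 : StepMuStatement) (hCard : CardConnStatement)
    (hL4 : L4Statement) (hRam : RamStatement) (hC : ConnSubStatement) (hRes : ResStatement) :
    StepStatement := by
  intro r _ k N hN hNr Ar AN hAr hAN U' U U'' _ _ _ _ _ _ _ ι π hS hHyp H hH hU' hty hIH Y hY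
  have : Finite U' := Finite.of_injective ι hS.inj
  have hr : r.Prime := Fact.out
  have hH' : IsHopfOrder r (resOrder ι H) := hRes r U' U ι hS.inj hS.ι_equiv H hH
  obtain ⟨⟨C, hCeq⟩, -⟩ := hC r Ar hAr U' (resOrder ι H) hH'
  -- the inequality `(*)`
  have hstep : StepIneq Ar ι π H Y := by
    have : Fact (Nat.card U').Prime := ⟨by rw [hU']; exact hr⟩
    rcases C.eq_bot_or_eq_top_of_prime_card with hbot | htop
    · -- étale case
      have hconn : conn Ar (resOrder ι H) = {0} := by
        rw [← hCeq, hbot]; rfl
      have htriv : IsTriv U' := by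
        rcases hty with h | h
        · exact h
        · by_cases hr2 : r = 2
          · exact stepStatement_isTriv_of_isMu (by rw [hU', hr2]) h
          · exfalso
            have huniv := hRam r hr2 Ar hAr U' hU' h (resOrder ι H) hH'
            rw [hconn] at huniv
            have hsub : Subsingleton U' := by
              refine ⟨fun a b => ?_⟩
              have ha : a ∈ ({0} : Set U') := by rw [huniv]; trivial
              have hb : b ∈ ({0} : Set U') := by rw [huniv]; trivial
              rw [Set.mem_singleton_iff] at ha hb
              rw [ha, hb]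
            have : Nat.card U' = 1 := Nat.card_eq_one_iff_unique.2 ⟨hsub, ⟨0⟩⟩
            rw [hU'] at this
            exact hr.one_lt.ne' this
      exact h1 r k N hN hNr Ar AN hAr hAN U' U U'' ι π hS hHyp H hH htriv hconn Y hY
    · -- connected case
      have hconn : conn Ar (resOrder ι H) = Set.univ := by
        rw [← hCeq, htop]; rfl
      have hmu : IsMu U' := by
        rcases hty with h | h
        · by_cases hr2 : r = 2
          · exact stepStatement_isMu_of_isTriv (by rw [hU', hr2]) h
          · exfalso
            have hzero := hL4 r hr2 Ar hAr U' hU' h (resOrder ι H) hH'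
            rw [hconn] at hzero
            have hsub : Subsingleton U' := by
              refine ⟨fun a b => ?_⟩
              have ha : a ∈ ({0} : Set U') := by rw [← hzero]; trivial
              have hb : b ∈ ({0} : Set U') := by rw [← hzero]; trivial
              rw [Set.mem_singleton_iff] at ha hb
              rw [ha, hb]
            have : Nat.card U' = 1 := Nat.card_eq_one_iff_unique.2 ⟨hsub, ⟨0⟩⟩
            rw [hU'] at this
            exact hr.one_lt.ne' this
        · exact h
      exact h2 r k N hN hNr Ar AN hAr hAN U' U U'' ι π hS hHyp H hH hU' hmu hconn Y hY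
  -- inertia at `N` fixes `π Y`
  have hY'' : InertiaFixed AN (Y.map π) := by
    rintro σ hσ _ ⟨y, hy, rfl⟩
    rw [← hS.π_equiv, hY σ hσ y hy]
  have hIH' := hIH (Y.map π) hY''
  have hcc := hCard r Ar hAr U' U U'' ι π hS H hH
  unfold StepIneq at hstep
  calc Nat.card Y = Nat.card (Y.comap ι) * Nat.card (Y.map π) := stepStatement_card ι π hS Y
    _ ≤ Nat.card (Y.comap ι) *
          (Nat.card (fixedIn (Y.map π)) * Nat.card (conn Ar (quotOrder π H))) :=
        Nat.mul_le_mul_left _ hIH'
    _ = (Nat.card (fixedIn (Y.map π)) * Nat.card (Y.comap ι)) *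
          Nat.card (conn Ar (quotOrder π H)) := by ring
    _ ≤ (Nat.card (fixedIn Y) * Nat.card (conn Ar (resOrder ι H))) *
          Nat.card (conn Ar (quotOrder π H)) := Nat.mul_le_mul_right _ hstep
    _ = Nat.card (fixedIn Y) * Nat.card (conn Ar H) := by rw [hcc]; ring

end Fermat.Agent.S15.HG
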