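/-
S15, block HG, node ST1 (the étale case of the induction step).  Owner: helper131.

`U'` has trivial action and `U'⁰ = 0`.  For `y ∈ Y` whose image in `U''` is Galois fixed the cocycle
`g ↦ g y - y ∈ U'` is a homomorphism of finite level, unramified everywhere, hence zero (Minkowski).
So the whole preimage in `Y` of `U''^G ∩ π Y` is Galois fixed, and it is counted by its fibres.
-/
import Fermat.Agent.S15.HG.Statements

set_option autoImplicit false

namespace Fermat.Agent.S15.HG

open Fermat.Agent.S19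

/-- The key claim: an element of `Y` with Galois fixed image in `U''` is Galois fixed. -/
private theorem stepEtaleStatement_fixed (hM : MinkowskiStatement) (hIC : InertiaConnStatement)
    (r : ℕ) [Fact r.Prime] (k N : ℕ)
    (Ar AN : ValuationSubring Qb) (hAr : Ar.LiesOverPrime r) (hAN : AN.LiesOverPrime N)
    (U' U U'' : Type) [AddCommGroup U'] [AddCommGroup U] [AddCommGroup U''] [Finite U]
    [DistribMulAction Gal U'] [DistribMulAction Gal U] [DistribMulAction Gal U'']
    (ι : U' →+ U) (π : U →+ U'') (hS : IsSES ι π) (hyp : Hyp r k N U)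
    (H : Subalgebra (Rl r) (U → Qb)) (hH : IsHopfOrder r H)
    (hT : IsTriv U') (hc : conn Ar (resOrder ι H) = {0})
    (Y : AddSubgroup U) (hY : InertiaFixed AN Y)
    (y : U) (hy : y ∈ Y) (hfix : ∀ g : Gal, g • π y = π y) : ∀ g : Gal, g • y = y := by
  have hex : ∀ g : Gal, ∃ x' : U', ι x' = g • y - y := by
    intro g
    rw [← hS.exact, map_sub, hS.π_equiv, hfix, sub_self]
  choose ξ hξ using hex
  have hzero : ∀ g : Gal, g • y = y → ξ g = 0 := by
    intro g hg
    apply hS.inj
    rw [hξ, hg, sub_self, map_zero]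
  have hmul : ∀ g g' : Gal, ξ (g * g') = ξ g + ξ g' := by
    intro g g'
    apply hS.inj
    have h1 : g • ι (ξ g') = ι (ξ g') := by rw [← hS.ι_equiv, hT]
    rw [hξ g'] at h1
    rw [map_add, hξ, hξ, hξ, mul_smul]
    rw [smul_sub] at h1
    have h2 : g • g' • y = g' • y - y + g • y := by
      rw [← h1]
      abel
    rw [h2]
    abel
  have hlevel : ∃ F : IntermediateField ℚ Qb, FiniteDimensional ℚ F ∧
      ∀ σ ∈ F.fixingSubgroup, ξ σ = 0 := by
    obtain ⟨F, hF, hFy⟩ := hyp.smooth y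
    exact ⟨F, hF, fun σ hσ => hzero σ (hFy σ hσ)⟩
  have hin : ∀ ℓ : ℕ, ℓ.Prime → ∃ A : ValuationSubring Qb, A.LiesOverPrime ℓ ∧
      ∀ σ ∈ A.inertiaSubgroupIn ℚ, ξ σ = 0 := by
    intro ℓ hℓ
    by_cases hr : ℓ = r
    · subst hr
      refine ⟨Ar, hAr, fun σ hσ => ?_⟩
      have h1 : σ • y - y ∈ conn Ar H := hIC ℓ Ar hAr U H hH σ hσ y
      have h2 : ξ σ ∈ conn Ar (resOrder ι H) := by
        intro f hf
        obtain ⟨h, hh, rfl⟩ := (mem_resOrder ι H f).1 hf
        show h (ι (ξ σ)) - h (ι 0) ∈ Ar.nonunits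
        rw [hξ, map_zero]
        exact h1 h hh
      rw [hc] at h2
      exact h2
    · by_cases hN : ℓ = N
      · subst hN
        exact ⟨AN, hAN, fun σ hσ => hzero σ (hY σ hσ y hy)⟩
      · obtain ⟨A, hA, hAU⟩ := hyp.unram ℓ hℓ hr hN
        exact ⟨A, hA, fun σ hσ => hzero σ (hAU σ hσ y)⟩
  intro g
  have h0 := hM U' ξ hmul hlevel hin g
  have h1 := hξ g
  rw [h0, map_zero] at h1
  exact (sub_eq_zero.1 h1.symm)

theorem stepEtaleStatement (hM : MinkowskiStatement) (hIC : InertiaConnStatement) :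
    StepEtaleStatement := by
  intro r _ k N _ _ Ar AN hAr hAN U' U U'' _ _ _ _ _ _ _ ι π hS hyp H hH hT hc Y hY
  have key := stepEtaleStatement_fixed hM hIC r k N Ar AN hAr hAN U' U U'' ι π hS hyp H hH hT hc
    Y hY
  unfold StepIneq
  have hone : Nat.card (({0} : Set U') : Type) = 1 := by
    rw [Nat.card_coe_set_eq, Set.ncard_singleton]
  rw [hc, hone, mul_one, ← Nat.card_prod]
  have hlift : ∀ s : fixedIn (Y.map π), ∃ y : U, y ∈ Y ∧ π y = (s : U'') := by
    rintro ⟨s, hs, -⟩
    obtain ⟨y, hy, rfl⟩ := hs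
    exact ⟨y, hy, rfl⟩
  choose lift hliftY hliftπ using hlift
  have hπι : ∀ x' : U', π (ι x') = 0 := fun x' => (hS.exact _).2 ⟨x', rfl⟩
  refine Nat.card_le_card_of_injective
    (fun q : fixedIn (Y.map π) × Y.comap ι =>
      (⟨lift q.1 + ι (q.2 : U'), Y.add_mem (hliftY q.1) q.2.2, by
        apply key _ (Y.add_mem (hliftY q.1) q.2.2)
        intro g
        rw [map_add, hπι, add_zero, hliftπ]
        exact q.1.2.2 g⟩ : fixedIn Y)) ?_
  rintro ⟨s, x⟩ ⟨t, z⟩ hst
  have h1 : lift s + ι (x : U') = lift t + ι (z : U') := congrArg Subtype.val hst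
  have h2 : s = t := by
    apply Subtype.ext
    have := congrArg π h1
    rwa [map_add, map_add, hπι, hπι, add_zero, add_zero, hliftπ, hliftπ] at this
  subst h2
  have h3 : x = z := Subtype.ext (hS.inj (add_left_cancel h1))
  rw [h3]

end Fermat.Agent.S15.HG
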