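/-
S15, block HG (owner helper64), node ST2: the connected case of the induction step
(`U' ≅ μ_r` of order `r`, `U'⁰ = U'`).  Proof: helper129.

For `y ∈ Y` whose class modulo `U'` is Galois fixed, `c_y(g) = h (g y - y)` is a `μ_r`-valued cocycle;
Hilbert 90 gives a Kummer generator `θ`, which has integral valuations everywhere (L5 at `r`,
unramifiedness elsewhere), so `θ ^ r = ± t₁ ^ r` and `c_y(g) = g ζ / ζ` with `ζ ^ (2 r) = 1`: there
are at most `r` such functions, and `c_y = c_y'` iff `y - y'` is Galois fixed.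
-/
import Fermat.Agent.S15.HG.Statements

set_option autoImplicit false

noncomputable section

namespace Fermat.Agent.S15.HG

open Fermat.Agent.S19

/-! ### Counting -/

/-- The counting argument. -/
theorem stepMuStatement_count {U' U U'' : Type} [AddCommGroup U'] [AddCommGroup U]
    [AddCommGroup U''] [Finite U] [DistribMulAction Gal U'] [DistribMulAction Gal U]
    [DistribMulAction Gal U''] (ι : U' →+ U) (π : U →+ U'') (hses : IsSES ι π)
    (Y : AddSubgroup U) (r : ℕ) {Z : Type} (c : U → Z) (T : Set Z) (hT : T.Finite)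
    (hTr : Nat.card T ≤ r)
    (hc : ∀ y ∈ Y, (∀ g : Gal, g • π y = π y) → c y ∈ T)
    (hker : ∀ y ∈ Y, ∀ y' ∈ Y, (∀ g : Gal, g • π y = π y) → (∀ g : Gal, g • π y' = π y') →
      c y = c y' → ∀ g : Gal, g • (y - y') = y - y') :
    Nat.card (fixedIn (Y.map π)) * Nat.card (Y.comap ι) ≤ Nat.card (fixedIn Y) * r := by
  classical
  have hTfin : Finite T := hT
  set S : Set U := {y | y ∈ Y ∧ ∀ g : Gal, g • π y = π y} with hS
  -- first inequality
  have h1 : Nat.card (fixedIn (Y.map π)) * Nat.card (Y.comap ι) ≤ Nat.card S := by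
    have hsec : ∀ z : fixedIn (Y.map π), ∃ y ∈ Y, π y = (z : U'') := fun z => by
      obtain ⟨y, hy, hyz⟩ := AddSubgroup.mem_map.1 z.2.1
      exact ⟨y, hy, hyz⟩
    choose s hsY hsπ using hsec
    have hπι : ∀ x' : U', π (ι x') = 0 := fun x' => (hses.exact _).2 ⟨x', rfl⟩
    let Φ : fixedIn (Y.map π) × Y.comap ι → S := fun p =>
      ⟨s p.1 + ι (p.2 : U'), Y.add_mem (hsY p.1) p.2.2, fun g => by
        rw [map_add, hπι, add_zero, hsπ]
        exact p.1.2.2 g⟩
    have hΦ : Function.Injective Φ := by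
      rintro ⟨z, x⟩ ⟨z', x'⟩ hzz
      have h0 : s z + ι (x : U') = s z' + ι (x' : U') := congrArg Subtype.val hzz
      have h2 := congrArg π h0
      rw [map_add, map_add, hπι, hπι, add_zero, add_zero, hsπ, hsπ] at h2
      have hz : z = z' := Subtype.ext h2
      subst hz
      have h3 : ι (x : U') = ι (x' : U') := add_left_cancel h0
      have hx : x = x' := Subtype.ext (hses.inj h3)
      rw [hx]
    rw [← Nat.card_prod]
    exact Nat.card_le_card_of_injective Φ hΦ
  -- second inequality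
  have h2 : Nat.card S ≤ Nat.card (fixedIn Y) * Nat.card T := by
    let rep : Z → U := fun t => if ht : ∃ y ∈ S, c y = t then ht.choose else 0
    have hrep : ∀ y ∈ S, rep (c y) ∈ S ∧ c (rep (c y)) = c y := by
      intro y hy
      have ht : ∃ y' ∈ S, c y' = c y := ⟨y, hy, rfl⟩
      simp only [rep, dif_pos ht]
      exact ht.choose_spec
    let Ψ : S → fixedIn Y × T := fun y =>
      (⟨(y : U) - rep (c y), Y.sub_mem y.2.1 (hrep y y.2).1.1,
        hker y y.2.1 _ (hrep y y.2).1.1 y.2.2 (hrep y y.2).1.2 (hrep y y.2).2.symm⟩,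
       ⟨c y, hc y y.2.1 y.2.2⟩)
    have hΨ : Function.Injective Ψ := by
      intro y y' hyy
      have e1 : (y : U) - rep (c y) = (y' : U) - rep (c y') :=
        congrArg (fun p : fixedIn Y × T => ((p.1 : fixedIn Y) : U)) hyy
      have e2 : c y = c y' := congrArg (fun p : fixedIn Y × T => ((p.2 : T) : Z)) hyy
      rw [e2] at e1
      exact Subtype.ext (sub_left_injective e1)
    rw [← Nat.card_prod]
    exact Nat.card_le_card_of_injective Ψ hΨ
  exact h1.trans (h2.trans (Nat.mul_le_mul_left _ hTr))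

/-! ### Roots of unity -/

/-- the coboundary of `ζ` -/
def stepMuStatement_cob (ζ : Qb) : Gal → Qb := fun g => g ζ * ζ⁻¹

theorem stepMuStatement_cob_neg (ζ : Qb) : stepMuStatement_cob (-ζ) = stepMuStatement_cob ζ := by
  funext g
  simp [stepMuStatement_cob, inv_neg]

/-- The coboundaries of the `2 r`-th roots of unity: at most `r` functions. -/
theorem stepMuStatement_roots (r : ℕ) (hr : 0 < r) :
    ∃ T : Set (Gal → Qb), T.Finite ∧ Nat.card T ≤ r ∧
      ∀ ζ : Qb, ζ ^ (2 * r) = 1 → stepMuStatement_cob ζ ∈ T := by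
  have : NeZero (2 * r) := ⟨by omega⟩
  have : NeZero ((2 * r : ℕ) : ℚ) := ⟨by exact_mod_cast (NeZero.ne (2 * r))⟩
  obtain ⟨ω, hω⟩ := HasEnoughRootsOfUnity.exists_primitiveRoot Qb (2 * r)
  have hωr : ω ^ r = -1 := by
    have h1 : IsPrimitiveRoot (ω ^ r) 2 := by
      have := hω.pow_of_dvd hr.ne' (Dvd.intro_left 2 rfl)
      rwa [Nat.mul_div_cancel _ hr] at this
    exact h1.eq_neg_one_of_two_right
  refine ⟨Set.range fun j : Fin r => stepMuStatement_cob (ω ^ (j : ℕ)), Set.finite_range _, ?_, ?_⟩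
  · refine (Finite.card_range_le _).trans ?_
    rw [Nat.card_eq_fintype_card, Fintype.card_fin]
  · intro ζ hζ
    obtain ⟨i, hi, rfl⟩ := hω.eq_pow_of_pow_eq_one hζ
    by_cases hir : i < r
    · exact ⟨⟨i, hir⟩, rfl⟩
    · refine ⟨⟨i - r, by omega⟩, ?_⟩
      have e : ω ^ i = - ω ^ (i - r) := by
        have : i = r + (i - r) := by omega
        conv_lhs => rw [this, pow_add, hωr]
        ring
      rw [e, stepMuStatement_cob_neg]

/-! ### The Kummer argument -/

/-- The cocycle `g ↦ h (g y - y)` is the coboundary of a `2 r`-th root of unity. -/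
theorem stepMuStatement_kummer (hL5 : L5Statement) (hK1 : UnramValStatement)
    (hK2 : KummerQStatement) (hK3 : H90Statement)
    (r : ℕ) [Fact r.Prime] (k N : ℕ) (hN : N.Prime) (Ar AN : ValuationSubring Qb)
    (hAr : Ar.LiesOverPrime r) (hAN : AN.LiesOverPrime N)
    {U' U : Type} [AddCommGroup U'] [AddCommGroup U] [Finite U] [DistribMulAction Gal U']
    [DistribMulAction Gal U] (ι : U' →+ U) (hinj : Function.Injective ι)
    (hιeq : ∀ (g : Gal) (x : U'), ι (g • x) = g • ι x) (hyp : Hyp r k N U)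
    (H : Subalgebra (Rl r) (U → Qb)) (hH : IsHopfOrder r H) (hcard : Nat.card U' = r)
    (χ : U' → Qb) (χ0 : χ 0 = 1) (χadd : ∀ x y, χ (x + y) = χ x * χ y)
    (χinj : ∀ x, χ x = 1 → x = 0) (χeq : ∀ (g : Gal) (x : U'), χ (g • x) = g (χ x))
    (h : U → Qb) (hhH : h ∈ H) (hh : ∀ x, h (ι x) = χ x) (y : U)
    (hyN : ∀ σ ∈ AN.inertiaSubgroupIn ℚ, σ • y = y) (hfix : ∀ g : Gal, g • y - y ∈ ι.range) :
    ∃ ζ : Qb, ζ ^ (2 * r) = 1 ∧ (fun g : Gal => h (g • y - y)) = stepMuStatement_cob ζ := by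
  have hr : r.Prime := Fact.out
  have hfix' := hfix
  choose a ha using hfix'
  have hc : ∀ g, h (g • y - y) = χ (a g) := fun g => by rw [← ha g, hh]
  have χne : ∀ x, χ x ≠ 0 := fun x h0 => by
    have := χadd x (-x)
    rw [add_neg_cancel, χ0, h0, zero_mul] at this
    exact one_ne_zero this
  have χpow : ∀ (n : ℕ) (x : U'), χ (n • x) = χ x ^ n := by
    intro n x
    induction n with
    | zero => rw [zero_smul, χ0, pow_zero]
    | succ n ih => rw [succ_nsmul, χadd, ih, pow_succ]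
  have χr : ∀ x, χ x ^ r = 1 := fun x => by
    rw [← χpow, ← hcard, card_nsmul_eq_zero', χ0]
  have ha0 : ∀ σ : Gal, σ • y = y → a σ = 0 := fun σ hσ => by
    apply hinj
    rw [ha, hσ, sub_self, map_zero]
  have hacoc : ∀ g g' : Gal, a (g * g') = g • a g' + a g := fun g g' => by
    apply hinj
    rw [ha, map_add, hιeq, ha, ha, mul_smul, smul_sub]
    abel
  obtain ⟨θ, hθ0, hθ⟩ := hK3 (fun g => χ (a g)) (fun g => χne _)
    (fun g g' => by
      show χ (a (g * g')) = g (χ (a g')) * χ (a g)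
      rw [hacoc, χadd, χeq])
    (by
      obtain ⟨F, hF, hFy⟩ := hyp.smooth y
      exact ⟨F, hF, fun σ hσ => by
        show χ (a σ) = 1
        rw [ha0 σ (hFy σ hσ), χ0]⟩)
  have hθ' : ∀ g : Gal, g θ = χ (a g) * θ := hθ
  have hθfix : ∀ σ : Gal, σ • y = y → σ θ = θ := fun σ hσ => by
    rw [hθ', ha0 σ hσ, χ0, one_mul]
  -- the valuation at `r`
  have hvr : ∃ m : ℤ, Ar.valuation θ = Ar.valuation (r : Qb) ^ m := by
    refine hL5 r Ar hAr U H hH ι.range ?_ ?_ h hhH ?_ ?_ y hfix θ hθ0 ?_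
    · rw [← hcard]
      exact (Nat.card_congr (AddMonoidHom.ofInjective hinj).toEquiv).symm
    · rintro g _ ⟨x, rfl⟩
      exact ⟨g • x, hιeq g x⟩
    · rintro _ ⟨x, rfl⟩ _ ⟨x', rfl⟩
      rw [← map_add, hh, hh, hh, χadd]
    · rintro _ ⟨x, rfl⟩ hx
      rw [hh] at hx
      rw [χinj x hx, map_zero]
    · intro g
      rw [hc]
      exact hθ' g
  -- all the valuations
  have hval : ∀ ℓ : ℕ, ℓ.Prime → ∃ A : ValuationSubring Qb, A.LiesOverPrime ℓ ∧
      ∃ m : ℤ, A.valuation θ = A.valuation (ℓ : Qb) ^ m := by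
    intro ℓ hℓ
    by_cases h1 : ℓ = r
    · rw [h1]
      exact ⟨Ar, hAr, hvr⟩
    by_cases h2 : ℓ = N
    · rw [h2]
      exact ⟨AN, hAN, hK1 N hN AN hAN θ hθ0 fun σ hσ => hθfix σ (hyN σ hσ)⟩
    · obtain ⟨A, hA, hAU⟩ := hyp.unram ℓ hℓ h1 h2
      exact ⟨A, hA, hK1 ℓ hℓ A hA θ hθ0 fun σ hσ => hθfix σ (hAU σ hσ y)⟩
  have hθr : ∀ g : Gal, g (θ ^ r) = θ ^ r := fun g => by
    rw [map_pow, hθ', mul_pow, χr, one_mul]
  obtain ⟨t₁, ht₁, hcase⟩ := hK2 r hr θ hθ0 hθr hval
  have ht : algebraMap ℚ Qb t₁ ≠ 0 := by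
    rw [Ne, map_eq_zero]
    exact ht₁
  have htr : algebraMap ℚ Qb t₁ ^ r ≠ 0 := pow_ne_zero _ ht
  refine ⟨θ * (algebraMap ℚ Qb t₁)⁻¹, ?_, ?_⟩
  · rw [mul_comm 2 r, pow_mul, mul_pow, inv_pow]
    rcases hcase with h1 | h1
    · rw [h1, mul_inv_cancel₀ htr, one_pow]
    · rw [h1, neg_mul, mul_inv_cancel₀ htr]
      norm_num
  · funext g
    have hζ0 : θ * (algebraMap ℚ Qb t₁)⁻¹ ≠ 0 := mul_ne_zero hθ0 (inv_ne_zero ht)
    show h (g • y - y) = g (θ * (algebraMap ℚ Qb t₁)⁻¹) * (θ * (algebraMap ℚ Qb t₁)⁻¹)⁻¹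
    rw [hc, map_mul, map_inv₀, g.commutes, hθ', mul_assoc (χ (a g)), mul_assoc (χ (a g)),
      mul_inv_cancel₀ hζ0, mul_one]

/-! ### The statement -/

theorem stepMuStatement (hRes : ResStatement) (hL3 : L3Statement) (hL5 : L5Statement)
    (hK1 : UnramValStatement) (hK2 : KummerQStatement) (hK3 : H90Statement) : StepMuStatement := by
  intro r _ k N hN hNr Ar AN hAr hAN U' U U'' _ _ _ _ _ _ _ ι π hses hyp H hH hcard hmu hconn Y hY
  obtain ⟨χ, χ0, χadd, χinj, χeq⟩ := hmu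
  have hH' : IsHopfOrder r (resOrder ι H) := hRes r U' U ι hses.inj hses.ι_equiv H hH
  have : Finite U' := Finite.of_injective ι hses.inj
  have hχ : χ ∈ resOrder ι H := hL3 r U' (resOrder ι H) hH' χ χ0 χadd χeq
  obtain ⟨h, hhH, hχh⟩ := (mem_resOrder ι H χ).1 hχ
  have hh : ∀ x, h (ι x) = χ x := fun x => (congrFun hχh x).symm
  have χne : ∀ x, χ x ≠ 0 := fun x h0 => by
    have := χadd x (-x)
    rw [add_neg_cancel, χ0, h0, zero_mul] at this
    exact one_ne_zero this
  obtain ⟨T, hT, hTr, hTmem⟩ := stepMuStatement_roots r (Fact.out : r.Prime).pos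
  have hrange : ∀ y : U, (∀ g : Gal, g • π y = π y) → ∀ g : Gal, g • y - y ∈ ι.range := by
    intro y hy g
    obtain ⟨x', hx'⟩ := (hses.exact (g • y - y)).1 (by rw [map_sub, hses.π_equiv, hy g, sub_self])
    exact ⟨x', hx'⟩
  have hcu : Nat.card (Set.univ : Set U') = r := by
    rw [Nat.card_congr (Equiv.Set.univ U'), hcard]
  unfold StepIneq
  rw [hconn, hcu]
  refine stepMuStatement_count ι π hses Y r (fun y => fun g : Gal => h (g • y - y)) T hT hTr ?_ ?_
  · intro y hyY hy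
    obtain ⟨ζ, hζ, hc⟩ := stepMuStatement_kummer hL5 hK1 hK2 hK3 r k N hN Ar AN hAr hAN ι hses.inj
      hses.ι_equiv hyp H hH hcard χ χ0 χadd χinj χeq h hhH hh y (fun σ hσ => hY σ hσ y hyY)
      (hrange y hy)
    show (fun g : Gal => h (g • y - y)) ∈ T
    rw [hc]
    exact hTmem ζ hζ
  · intro y hyY y' hyY' hy hy' hcc g
    obtain ⟨a, ha⟩ := hrange y hy g
    obtain ⟨a', ha'⟩ := hrange y' hy' g
    have h1 : h (g • y - y) = h (g • y' - y') := congrFun hcc g
    rw [← ha, ← ha', hh, hh] at h1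
    have h2 : a = a' := by
      have h3 := χadd (a - a') a'
      rw [sub_add_cancel, h1] at h3
      have h4 : χ (a - a') = 1 := by
        have h5 : 1 * χ a' = χ (a - a') * χ a' := by rw [one_mul]; exact h3
        exact (mul_right_cancel₀ (χne a') h5).symm
      exact sub_eq_zero.1 (χinj _ h4)
    have h3 : g • y - y = g • y' - y' := by rw [← ha, ← ha', h2]
    rw [smul_sub]
    calc g • y - g • y' = (g • y - y) - (g • y' - y') + (y - y') := by abel
      _ = y - y' := by rw [h3, sub_self, zero_add]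

end Fermat.Agent.S15.HG

end
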