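/-
S15, block HG, node O4: `(x, x') ↦ h (x' - x)` lies in `H ⊗ H`.   Owner: helper206.
-/
import Fermat.Agent.S15.HG.Statements
import Fermat.Agent.S19.FlatOfOrder

set_option autoImplicit false

namespace Fermat.Agent.S15.HG

open Fermat.Agent.S19

theorem subStatement : SubStatement := by
  intro r _ M _ _ _ H hH h hh
  let T : (M × M → Qb) →ₗ[Rl r] (M × M → Qb) :=
    LinearMap.funLeft (Rl r) Qb (fun q : M × M => (q.2, -q.1))
  have hT : ∀ (F : M × M → Qb) (q : M × M), T F q = F (q.2, -q.1) := fun F q => rfl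
  have h1 : T (fun q : M × M => h (q.1 + q.2)) ∈ (Submodule.span (Rl r) (prodFun H H)).map T :=
    Submodule.mem_map_of_mem (hH.comul h hh)
  rw [Submodule.map_span] at h1
  have h2 : T '' prodFun H H ⊆ prodFun H H := by
    rintro _ ⟨F, ⟨a, ha, b, hb, rfl⟩, rfl⟩
    refine ⟨fun x => b (-x), hH.neg_mem hb, a, ha, ?_⟩
    funext q
    rw [hT]
    exact mul_comm _ _
  have h3 := Submodule.span_mono h2 h1
  have h4 : T (fun q : M × M => h (q.1 + q.2)) = fun q => h (q.2 - q.1) := by
    funext q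
    rw [hT, sub_eq_add_neg]
  rwa [h4] at h3

end Fermat.Agent.S15.HG
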