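/-
S15, block HG, node T1 (`TameStatement`): the image of the inertia group at `N` in the permutations
of a finite smooth Galois set on which every element of inertia acts with order prime to `N` is
cyclic.  (helper176)

Route.  `σ ∈ I` is *wild* if `v (σ x - x) < v x` for all `x ≠ 0`.
* a wild `σ` with `σ ^ m b = b`, `N ∤ m`, fixes `b` (`∑_{t < m} σ ^ t (σ b - b) = 0`);
* hence wild elements act trivially on `U`;
* commutators of elements of `I` are wild, so the image `P` of `I` is abelian, of order prime to `N`;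
* every character of `P` is a power of the Kummer character `κ σ = σ ν / ν`, `ν ^ e = N`
  (`S15.Q.exists_zpow_tame`), hence `ker κ` acts trivially on `U`;
* the image of `κ` is a finite subgroup of `ℚ̄ˣ`, hence cyclic.
-/
import Fermat.Agent.S15.HG.Statements2
import Fermat.Agent.S15.Q.Tame
import Fermat.Agent.S05.Inertia

set_option autoImplicit false

namespace Fermat.Agent.S15.HG

open Fermat.Agent.S19

/-- Wild elements. -/
def tameStatement_Wild (A : ValuationSubring Qb) (σ : Gal) : Prop :=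
  ∀ x : Qb, x ≠ 0 → A.valuation (σ x - x) < A.valuation x

theorem tameStatement_val_eq (A : ValuationSubring Qb) {σ : Gal}
    (hσ : σ ∈ A.inertiaSubgroupIn ℚ) (x : Qb) : A.valuation (σ x) = A.valuation x := by
  have : Algebra.IsAlgebraic ℚ Qb := AlgebraicClosure.isAlgebraic ℚ
  exact S05.inertia_valuation_eq A hσ x

theorem tameStatement_wild_pow (A : ValuationSubring Qb) {σ : Gal}
    (hσ : σ ∈ A.inertiaSubgroupIn ℚ) (hW : tameStatement_Wild A σ) (t : ℕ) :
    tameStatement_Wild A (σ ^ t) := by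
  intro x hx
  induction t with
  | zero =>
    rw [pow_zero, AlgEquiv.one_apply, sub_self, map_zero]
    exact zero_lt_iff.2 ((map_ne_zero _).2 hx)
  | succ t ih =>
    have h1 : (σ ^ (t + 1)) x - x = σ ((σ ^ t) x - x) + (σ x - x) := by
      rw [pow_succ', AlgEquiv.mul_apply, map_sub]
      ring
    rw [h1]
    refine Valuation.map_add_lt _ ?_ (hW x hx)
    rw [tameStatement_val_eq A hσ]
    exact ih

theorem tameStatement_wild_fix {N : ℕ} (hN : N.Prime) (A : ValuationSubring Qb)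
    (hA : A.LiesOverPrime N) {σ : Gal} (hσ : σ ∈ A.inertiaSubgroupIn ℚ)
    (hW : tameStatement_Wild A σ) {m : ℕ} (hm : ¬ N ∣ m) {b : Qb} (hb : (σ ^ m) b = b) :
    σ b = b := by
  by_contra hne
  set x := σ b - b with hx
  have hx0 : x ≠ 0 := sub_ne_zero.2 hne
  have hsum : ∑ t ∈ Finset.range m, (σ ^ t) x = 0 := by
    have h1 : ∀ t : ℕ, (σ ^ t) x = (σ ^ (t + 1)) b - (σ ^ t) b := by
      intro t
      rw [hx, map_sub, pow_succ, AlgEquiv.mul_apply]
    simp_rw [h1]
    rw [Finset.sum_range_sub (fun t => (σ ^ t) b), hb, pow_zero, AlgEquiv.one_apply, sub_self]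
  have h1 : (m : Qb) * x = - ∑ t ∈ Finset.range m, ((σ ^ t) x - x) := by
    rw [Finset.sum_sub_distrib, hsum, Finset.sum_const, Finset.card_range, nsmul_eq_mul]
    ring
  have hvx : A.valuation x ≠ 0 := (map_ne_zero _).2 hx0
  have h2 : A.valuation (∑ t ∈ Finset.range m, ((σ ^ t) x - x)) < A.valuation x :=
    Valuation.map_sum_lt _ hvx (fun t _ => tameStatement_wild_pow A hσ hW t x hx0)
  have h3 : A.valuation (m : Qb) = 1 := by
    have := S05.valuation_intCast_eq_one A hN hA (n := (m : ℤ))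
      (fun h => hm (Int.natCast_dvd_natCast.1 h))
    simpa using this
  rw [← Valuation.map_neg, ← h1, map_mul, h3, one_mul] at h2
  exact lt_irrefl _ h2

theorem tameStatement_wild_comm (A : ValuationSubring Qb) {σ τ : Gal}
    (hσ : σ ∈ A.inertiaSubgroupIn ℚ) (hτ : τ ∈ A.inertiaSubgroupIn ℚ) :
    tameStatement_Wild A ((τ * σ)⁻¹ * (σ * τ)) := by
  intro x hx
  have hinv : (τ * σ)⁻¹ ∈ A.inertiaSubgroupIn ℚ := inv_mem (mul_mem hτ hσ)
  have h1 : ((τ * σ)⁻¹ * (σ * τ)) x - x = (τ * σ)⁻¹ (σ (τ x) - τ (σ x)) := by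
    rw [map_sub, AlgEquiv.mul_apply, AlgEquiv.mul_apply, ← AlgEquiv.mul_apply τ σ x,
      ← AlgEquiv.mul_apply (τ * σ)⁻¹ (τ * σ) x, inv_mul_cancel, AlgEquiv.one_apply]
  rw [h1, tameStatement_val_eq A hinv]
  have hσx : σ x ≠ 0 := (map_ne_zero σ).2 hx
  have hτx : τ x ≠ 0 := (map_ne_zero τ).2 hx
  have hvx : A.valuation x ≠ 0 := (map_ne_zero _).2 hx
  have hu : A.valuation (τ x / x) = 1 := by
    rw [map_div₀, tameStatement_val_eq A hτ, div_self hvx]
  have hw : A.valuation (σ x / x) = 1 := by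
    rw [map_div₀, tameStatement_val_eq A hσ, div_self hvx]
  have key : σ (τ x) - τ (σ x) =
      ((σ (τ x / x) - τ x / x) * (σ x / x) - (τ (σ x / x) - σ x / x) * (τ x / x)) * x := by
    rw [map_div₀, map_div₀]
    field_simp
    ring
  rw [key, map_mul]
  have h2 : A.valuation ((σ (τ x / x) - τ x / x) * (σ x / x)) < 1 := by
    rw [map_mul, hw, mul_one]
    exact S05.inertia_valuation_sub_lt_one A hσ hu.le
  have h3 : A.valuation ((τ (σ x / x) - σ x / x) * (τ x / x)) < 1 := by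
    rw [map_mul, hu, mul_one]
    exact S05.inertia_valuation_sub_lt_one A hτ hw.le
  have h4 := Valuation.map_sub_lt _ h2 h3
  calc _ < 1 * A.valuation x := by
        exact mul_lt_mul_of_pos_right h4 (zero_lt_iff.2 hvx)
    _ = _ := one_mul _

theorem tameStatement_exists_field (U : Type) [Finite U] [MulAction Gal U] (hS : Smooth U) :
    ∃ L : IntermediateField ℚ Qb, FiniteDimensional ℚ L ∧
      ∀ σ : Gal, (∀ x ∈ L, σ x = x) → ∀ u : U, σ • u = u := by
  choose F hF hfix using hS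
  refine ⟨⨆ u, F u, ?_, ?_⟩
  · exact IntermediateField.finiteDimensional_iSup_of_finite
  · intro σ hσ u
    apply hfix u
    rw [IntermediateField.mem_fixingSubgroup_iff]
    intro x hx
    exact hσ x (le_iSup F u hx)

theorem tameStatement_exists_pow (L : IntermediateField ℚ Qb) [FiniteDimensional ℚ L] (τ : Gal) :
    ∃ n : ℕ, 0 < n ∧ ∀ x ∈ L, (τ ^ n) x = x := by
  obtain ⟨a, b, hab, h⟩ := Finite.exists_ne_map_eq_of_infinite
    (fun n : ℕ => ((τ ^ n : Gal) : Qb →ₐ[ℚ] Qb).comp L.val)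
  have key : ∀ a b : ℕ, a < b →
      ((τ ^ a : Gal) : Qb →ₐ[ℚ] Qb).comp L.val = ((τ ^ b : Gal) : Qb →ₐ[ℚ] Qb).comp L.val →
      ∃ n : ℕ, 0 < n ∧ ∀ x ∈ L, (τ ^ n) x = x := by
    intro a b hlt h
    refine ⟨b - a, by omega, fun x hx => ?_⟩
    have h1 : (τ ^ a) x = (τ ^ b) x := DFunLike.congr_fun h (⟨x, hx⟩ : L)
    have hb : b = a + (b - a) := by omega
    rw [hb, pow_add, AlgEquiv.mul_apply] at h1
    exact ((τ ^ a).injective h1).symm
  rcases lt_or_gt_of_ne hab with hlt | hlt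
  · exact key a b hlt h
  · exact key b a hlt h.symm

theorem tameStatement_wild_triv {N : ℕ} (hN : N.Prime) (A : ValuationSubring Qb)
    (hA : A.LiesOverPrime N) (U : Type) [MulAction Gal U]
    (L : IntermediateField ℚ Qb) [FiniteDimensional ℚ L]
    (hL : ∀ σ : Gal, (∀ x ∈ L, σ x = x) → ∀ u : U, σ • u = u) {τ : Gal}
    (hτ : τ ∈ A.inertiaSubgroupIn ℚ) (hW : tameStatement_Wild A τ) {m : ℕ} (hm : ¬ N ∣ m)
    (hτm : ∀ u : U, τ ^ m • u = u) (u : U) : τ • u = u := by
  obtain ⟨n, hn, hfix⟩ := tameStatement_exists_pow L τ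
  obtain ⟨a, m', hm', rfl⟩ := Nat.exists_eq_pow_mul_and_not_dvd hn.ne' N hN.ne_one
  have h1 : ∀ u : U, (τ ^ N ^ a) • u = u := by
    apply hL
    intro b hb
    apply tameStatement_wild_fix hN A hA (pow_mem hτ _) (tameStatement_wild_pow A hτ hW _) hm'
    rw [← pow_mul]
    exact hfix b hb
  have hcop : Nat.Coprime (N ^ a) m :=
    Nat.Coprime.pow_left a ((Nat.Prime.coprime_iff_not_dvd hN).2 hm)
  have h2 : (MulAction.toPermHom Gal U τ) ^ (N ^ a) = 1 := by
    rw [← map_pow]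
    ext u
    exact h1 u
  have h3 : (MulAction.toPermHom Gal U τ) ^ m = 1 := by
    rw [← map_pow]
    ext u
    exact hτm u
  have h4 := pow_gcd_eq_one.2 ⟨h2, h3⟩
  rw [hcop.gcd_eq_one, pow_one] at h4
  exact DFunLike.congr_fun h4 u

theorem tameStatement : TameStatement := by
  classical
  intro N hN A hA U _ _ hS hm
  obtain ⟨L, hLfin, hL⟩ := tameStatement_exists_field U hS
  set I : Subgroup Gal := A.inertiaSubgroupIn ℚ with hI
  -- the image of inertia in the permutations of `U`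
  let f : I →* Equiv.Perm U := (MulAction.toPermHom Gal U).comp I.subtype
  have hwild : ∀ τ ∈ I, tameStatement_Wild A τ → ∀ u : U, τ • u = u := by
    intro τ hτ hW
    obtain ⟨m, hm1, hm2⟩ := hm τ hτ
    exact tameStatement_wild_triv hN A hA U L hL hτ hW hm1 hm2
  have hcomm : ∀ σ τ : I, f σ * f τ = f τ * f σ := by
    intro σ τ
    have h1 := hwild _ (mul_mem (inv_mem (mul_mem τ.2 σ.2)) (mul_mem σ.2 τ.2))
      (tameStatement_wild_comm A σ.2 τ.2)
    have h2 : f ((τ * σ)⁻¹ * (σ * τ)) = 1 := by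
      ext u
      exact h1 u
    rw [map_mul, map_inv, inv_mul_eq_one, map_mul, map_mul] at h2
    exact h2.symm
  let _ : CommGroup f.range :=
    { (inferInstance : Group f.range) with
      mul_comm := by
        rintro ⟨_, a, rfl⟩ ⟨_, b, rfl⟩
        exact Subtype.ext (hcomm a b) }
  have : Finite f.range := inferInstance
  set e := Nat.card f.range with he
  have he0 : e ≠ 0 := Nat.card_pos.ne'
  have hNe : ¬ N ∣ e := by
    intro hdvd
    have := Fact.mk hN
    obtain ⟨⟨_, τ, rfl⟩, hg⟩ := exists_prime_orderOf_dvd_card' N hdvd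
    obtain ⟨m, hm1, hm2⟩ := hm τ τ.2
    apply hm1
    rw [← hg]
    apply orderOf_dvd_of_pow_eq_one
    apply Subtype.ext
    show f τ ^ m = 1
    rw [← map_pow]
    ext u
    exact hm2 u
  obtain ⟨ν, hν⟩ := IsAlgClosed.exists_pow_nat_eq (N : Qb) (Nat.pos_of_ne_zero he0)
  have hN0 : (N : Qb) ≠ 0 := Nat.cast_ne_zero.2 hN.ne_zero
  have hν0 : ν ≠ 0 := by
    intro h0
    rw [h0, zero_pow he0] at hν
    exact hN0 hν.symm
  have hκe : ∀ σ : Gal, (σ ν / ν) ^ e = 1 := by
    intro σ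
    rw [div_pow, ← map_pow, hν, map_natCast, div_self hN0]
  have hfixμ : ∀ σ ∈ I, ∀ ζ : Qb, ζ ^ e = 1 → σ ζ = ζ := by
    intro σ hσ ζ hζ
    exact (Lib.InertiaField.mem_K0_iff A _).1
      (Lib.InertiaField.rootOfUnity_mem_K0 A N hN hA hNe hζ) σ hσ
  -- the Kummer character
  let κ : I →* Qbˣ :=
    { toFun := fun σ => Units.mk0 ((σ : Gal) ν / ν) (div_ne_zero ((map_ne_zero _).2 hν0) hν0)
      map_one' := Units.ext (div_self hν0)
      map_mul' := fun σ τ => Units.ext (by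
        show ((σ * τ : I) : Gal) ν / ν = ((σ : Gal) ν / ν) * ((τ : Gal) ν / ν)
        have h1 : (σ : Gal) ((τ : Gal) ν / ν) = (τ : Gal) ν / ν := hfixμ σ σ.2 _ (hκe τ)
        have hσν : (σ : Gal) ν ≠ 0 := (map_ne_zero _).2 hν0
        rw [map_div₀, div_eq_div_iff hσν hν0] at h1
        rw [Subgroup.coe_mul, AlgEquiv.mul_apply]
        field_simp
        rw [h1]
        ring) }
  have hκ : ∀ σ : I, ((κ σ : Qbˣ) : Qb) = (σ : Gal) ν / ν := fun _ => rfl
  -- the kernel of the Kummer character acts trivially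
  have hker : ∀ σ : I, κ σ = 1 → f σ = 1 := by
    intro σ hσ
    by_contra hne
    have hg : (f.rangeRestrict σ : f.range) ≠ 1 := fun h => hne (congrArg Subtype.val h)
    have : NeZero ((Monoid.exponent f.range : ℕ) : Qb) :=
      ⟨Nat.cast_ne_zero.2 Monoid.exponent_ne_zero_of_finite⟩
    obtain ⟨φ, hφ⟩ := CommGroup.exists_apply_ne_one_of_hasEnoughRootsOfUnity f.range Qb hg
    let ψ : I →* Qbˣ := φ.comp f.rangeRestrict
    let h : Gal → Qb := fun ρ => if hρ : ρ ∈ I then ((ψ ⟨ρ, hρ⟩ : Qbˣ) : Qb) else 1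
    have hh : ∀ ρ (hρ : ρ ∈ I), h ρ = ((ψ ⟨ρ, hρ⟩ : Qbˣ) : Qb) := fun ρ hρ => dif_pos hρ
    obtain ⟨k, hk⟩ := Q.exists_zpow_tame hN hNe A hA ν hν h
      (fun a ha b hb => by
        rw [hh a ha, hh b hb, hh (a * b) (mul_mem ha hb), ← Units.val_mul, ← map_mul]
        rfl)
      (fun a ha => by
        rw [hh a ha, ← Units.val_pow_eq_pow_val, ← map_pow]
        have h1 : (f.rangeRestrict (⟨a, ha⟩ ^ e) : f.range) = 1 := by
          rw [map_pow]
          exact pow_card_eq_one'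
        show ((φ (f.rangeRestrict (⟨a, ha⟩ ^ e)) : Qbˣ) : Qb) = 1
        rw [h1, map_one, Units.val_one])
      L
      (fun a ha hfix => by
        rw [hh a ha]
        have h1 : (f.rangeRestrict ⟨a, ha⟩ : f.range) = 1 := by
          apply Subtype.ext
          ext u
          exact hL a hfix u
        show ((φ (f.rangeRestrict ⟨a, ha⟩) : Qbˣ) : Qb) = 1
        rw [h1, map_one, Units.val_one])
    apply hφ
    apply Units.ext
    have h1 := hk σ σ.2
    rw [hh σ σ.2, ← hκ σ, hσ, Units.val_one, one_zpow] at h1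
    exact h1
  -- the image of the Kummer character is cyclic
  have : NeZero e := ⟨he0⟩
  have hle : κ.range ≤ rootsOfUnity e Qb := by
    rintro _ ⟨σ, rfl⟩
    rw [mem_rootsOfUnity]
    exact Units.ext (hκe σ)
  have : Finite κ.range :=
    Finite.of_injective (Subgroup.inclusion hle) (Subgroup.inclusion_injective hle)
  obtain ⟨⟨_, τ₀, rfl⟩, hgen⟩ := IsCyclic.exists_generator (α := κ.range)
  refine ⟨τ₀, τ₀.2, fun τ hτ => ?_⟩
  have h1 := hgen ⟨κ ⟨τ, hτ⟩, ⟨τ, hτ⟩, rfl⟩
  rw [← mem_powers_iff_mem_zpowers] at h1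
  obtain ⟨j, hj⟩ := h1
  refine ⟨j, fun x => ?_⟩
  have h2 : κ τ₀ ^ j = κ ⟨τ, hτ⟩ := congrArg Subtype.val hj
  have h3 : κ ((τ₀ ^ j)⁻¹ * ⟨τ, hτ⟩) = 1 := by
    rw [map_mul, map_inv, map_pow, h2, inv_mul_cancel]
  have h4 := hker _ h3
  rw [map_mul, map_inv, inv_mul_eq_one] at h4
  exact (DFunLike.congr_fun h4 x).symm

end Fermat.Agent.S15.HG
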