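/-
S15, block HG, node K1 (task HG-K1): an element of `ℚ̄ˣ` fixed by the inertia group of `A` (over `ℓ`)
has the valuation of a power of `ℓ`.
-/
import Fermat.Agent.S15.HG.Statements
import Fermat.Agent.Lib.InertiaField.Unram

set_option autoImplicit false

namespace Fermat.Agent.S15.HG

theorem unramValStatement : UnramValStatement := by
  intro ℓ hℓ A hA θ hθ hfix
  obtain ⟨k, u, -, hu, hu', hθu⟩ := Lib.InertiaField.exists_zpow_mul_unit A ℓ hℓ hA
    ((Lib.InertiaField.mem_K0_iff A θ).mpr hfix) hθ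
  refine ⟨k, ?_⟩
  have h1 : A.valuation u ≤ 1 := (A.valuation_le_one_iff u).mpr hu
  have h2 : A.valuation u⁻¹ ≤ 1 := (A.valuation_le_one_iff _).mpr hu'
  have hu0 : u ≠ 0 := by
    rintro rfl
    rw [mul_zero] at hθu
    exact hθ hθu
  have hv0 : A.valuation u ≠ 0 := (map_ne_zero _).mpr hu0
  have h3 : A.valuation u = 1 := by
    refine le_antisymm h1 ?_
    rw [map_inv₀] at h2
    exact (inv_le_one₀ (zero_lt_iff.mpr hv0)).mp h2
  rw [hθu, map_mul, map_zpow₀, h3, mul_one]

end Fermat.Agent.S15.HG
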