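/-
S15, block HG, node O3: the values of the elements of a Hopf order lie in `A`.
-/
import Fermat.Agent.S15.HG.Statements
import Fermat.Agent.S19.BaseRing

set_option autoImplicit false

namespace Fermat.Agent.S15.HG

open Fermat.Agent.S19

theorem valStatement : ValStatement := by
  intro r _ A hA M _ _ _ H hH h hh x
  have h1 : IsIntegral (Rl r) h := IsIntegral.of_mem_of_fg H hH.fg h hh
  have h2 : IsIntegral (Rl r) (Pi.evalAlgHom (Rl r) (fun _ : M => Qb) x h) := h1.map _
  exact mem_of_isIntegral r (h x) h2 A hA

end Fermat.Agent.S15.HG
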