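/-
S15, block HG: assembly.  Owner: helper64.  Blueprint: report #1380.

* `theoremG_final`  : **Theorem G**: for a finite Eisenstein Galois module `U` with a Hopf order `H` at `r`,
                      unramified outside `r N`, and every subgroup `Y ≤ U^{I_N}`:
                      `|Y| ≤ |U^G ∩ Y| · |U⁰|`.
* `chain_final`     : **the chain inequality** `n ≤ |E^G| · |Hom_G(V, μ)|` for an extension
                      `0 → V → E → ℤ/n → 0` with `E` Eisenstein, flat at `r`, `(τ - 1)² = 0` on `E` for `τ ∈ I_N`.
-/
import Fermat.Agent.S15.HG.Val
import Fermat.Agent.S15.HG.Res
import Fermat.Agent.S15.HG.Quot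
import Fermat.Agent.S15.HG.Sub
import Fermat.Agent.S15.HG.Aspan
import Fermat.Agent.S15.HG.ConnSub
import Fermat.Agent.S15.HG.InertiaConn
import Fermat.Agent.S15.HG.Indicator
import Fermat.Agent.S15.HG.Saturation
import Fermat.Agent.S15.HG.L1
import Fermat.Agent.S15.HG.CardConn
import Fermat.Agent.S15.HG.L3
import Fermat.Agent.S15.HG.L4
import Fermat.Agent.S15.HG.Ram
import Fermat.Agent.S15.HG.L5
import Fermat.Agent.S15.HG.UnramVal
import Fermat.Agent.S15.HG.KummerQ
import Fermat.Agent.S15.HG.H90
import Fermat.Agent.S15.HG.Minkowski
import Fermat.Agent.S15.HG.Simple
import Fermat.Agent.S15.HG.HypQuot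
import Fermat.Agent.S15.HG.StepEtale
import Fermat.Agent.S15.HG.StepMu
import Fermat.Agent.S15.HG.Step
import Fermat.Agent.S15.HG.Main
import Fermat.Agent.S15.HG.DualMem
import Fermat.Agent.S15.HG.DualHopf
import Fermat.Agent.S15.HG.DualSES
import Fermat.Agent.S15.HG.DualOrderLe
import Fermat.Agent.S15.HG.DualSimple
import Fermat.Agent.S15.HG.DualConn
import Fermat.Agent.S15.HG.HypDual
import Fermat.Agent.S15.HG.Tame
import Fermat.Agent.S15.HG.L6
import Fermat.Agent.S15.HG.LocalN
import Fermat.Agent.S15.HG.Chain

set_option autoImplicit false

namespace Fermat.Agent.S15.HG

theorem connSub_final : ConnSubStatement := connSubStatement valStatement subStatement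

theorem aspan_final : AspanStatement := aspanStatement valStatement

theorem inertiaConn_final : InertiaConnStatement := inertiaConnStatement valStatement connSub_final

theorem l1_final : L1Statement :=
  l1Statement (indicatorStatement valStatement aspan_final) (saturationStatement quotStatement)
    aspan_final connSub_final quotStatement

theorem cardConn_final : CardConnStatement := cardConnStatement l1_final connSub_final

theorem l4_final : L4Statement := l4Statement valStatement connSub_final

theorem step_final : StepStatement :=
  stepStatement (stepEtaleStatement minkowskiStatement inertiaConn_final)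
    (stepMuStatement resStatement l3Statement (l5Statement valStatement subStatement)
      unramValStatement kummerQStatement h90Statement)
    cardConn_final l4_final (ramStatement connSub_final inertiaConn_final) connSub_final resStatement

/-- **Theorem G.** -/
theorem theoremG_final : TheoremG :=
  theoremG step_final simpleStatement hypQuotStatement quotStatement

theorem dualHopf_final : DualHopfStatement := dualHopfStatement dualMemStatement

theorem dualConn_final : DualConnStatement :=
  dualConnStatement simpleStatement cardConn_final hypQuotStatement quotStatement resStatement
    dualHopf_final dualSESStatement (dualOrderLeStatement quotStatement)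
    (dualSimpleStatement l4_final dualHopf_final dualSESStatement valStatement connSub_final)
    connSub_final

/-- **The chain inequality.** -/
theorem chain_final : ChainStatement :=
  chainStatement theoremG_final l6Statement resStatement hypSubStatement hypDualStatement
    dualHopf_final dualConn_final (localNStatement tameStatement) dualSESStatement

end Fermat.Agent.S15.HG
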