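/-
S15, block HG, nodes E2 and E3 (task HG-E2, helper99): the standing hypotheses `Hyp` pass to
quotients and to submodules.
-/
import Fermat.Agent.S15.HG.Statements

set_option autoImplicit false

noncomputable section

namespace Fermat.Agent.S15.HG

open Fermat.Agent.S19

/-- an equivariant homomorphism commutes with `eisOp`. -/
theorem hypQuotStatement_eisOp {U V : Type} [AddCommGroup U] [AddCommGroup V]
    [DistribMulAction Gal U] [DistribMulAction Gal V] (f : U →+ V)
    (hf : ∀ (g : Gal) (x : U), f (g • x) = g • f x) (g : Gal) (a : ℕ) (x : U) :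
    f (eisOp g a x) = eisOp g a (f x) := by
  unfold eisOp
  rw [map_add, map_sub, map_nsmul, map_nsmul, hf, hf]

/-- an equivariant homomorphism commutes with the iterates of `eisOp`. -/
theorem hypQuotStatement_iterate {U V : Type} [AddCommGroup U] [AddCommGroup V]
    [DistribMulAction Gal U] [DistribMulAction Gal V] (f : U →+ V)
    (hf : ∀ (g : Gal) (x : U), f (g • x) = g • f x) (g : Gal) (a m : ℕ) (x : U) :
    f ((eisOp g a)^[m] x) = (eisOp g a)^[m] (f x) :=
  (Function.Semiconj.iterate_right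
    (show Function.Semiconj f (eisOp g a) (eisOp g a) from hypQuotStatement_eisOp f hf g a) m) x

theorem hypQuotStatement : HypQuotStatement := by
  intro r k N U U'' _ _ _ _ π hπ he h
  refine ⟨fun y => ?_, fun y => ?_, fun ℓ hℓ h1 h2 => ?_, fun g a hg => ?_⟩
  · obtain ⟨x, rfl⟩ := hπ y
    rw [← map_nsmul, h.tors, map_zero]
  · obtain ⟨x, rfl⟩ := hπ y
    obtain ⟨F, hF, hx⟩ := h.smooth x
    exact ⟨F, hF, fun σ hσ => by rw [← he, hx σ hσ]⟩
  · obtain ⟨A, hA, hx⟩ := h.unram ℓ hℓ h1 h2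
    refine ⟨A, hA, fun σ hσ y => ?_⟩
    obtain ⟨x, rfl⟩ := hπ y
    rw [← he, hx σ hσ]
  · obtain ⟨m, hm⟩ := h.eis g a hg
    refine ⟨m, fun y => ?_⟩
    obtain ⟨x, rfl⟩ := hπ y
    rw [← hypQuotStatement_iterate π he, hm, map_zero]

theorem hypSubStatement : HypSubStatement := by
  intro r k N U' U _ _ _ _ ι hι he h
  refine ⟨fun x => hι ?_, fun x => ?_, fun ℓ hℓ h1 h2 => ?_, fun g a hg => ?_⟩
  · rw [map_nsmul, h.tors, map_zero]
  · obtain ⟨F, hF, hx⟩ := h.smooth (ι x)
    exact ⟨F, hF, fun σ hσ => hι (by rw [he, hx σ hσ])⟩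
  · obtain ⟨A, hA, hx⟩ := h.unram ℓ hℓ h1 h2
    exact ⟨A, hA, fun σ hσ x => hι (by rw [he, hx σ hσ])⟩
  · obtain ⟨m, hm⟩ := h.eis g a hg
    exact ⟨m, fun x => hι (by rw [hypQuotStatement_iterate ι he, hm, map_zero])⟩

end Fermat.Agent.S15.HG

end
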