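/-
S15, block HG, node O2 (helper145): the quotient order is a Hopf order.
Explicit form of the landed `S19.HasHopfOrder.of_surjective` (same proof).
-/
import Fermat.Agent.S15.HG.Statements
import Fermat.Agent.S19.ClosureQuot

set_option autoImplicit false

namespace Fermat.Agent.S15.HG

open Fermat.Agent.S19

theorem quotStatement : QuotStatement := by
  classical
  intro r _ M M'' _ _ _ _ _ φ hφ heq H hH
  have := Rl_isPrincipalIdealRing r
  have : Fintype M := Fintype.ofFinite M
  have hfix := exists_rat_of_fixed
  obtain ⟨ι, _, b, hli, hsp⟩ := hH.isFullLattice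
  let B : Module.Basis ι Qb (M → Qb) := Module.Basis.mk hli (by rw [hsp])
  have hBb : ∀ i, B i = ((b i : H) : M → Qb) := fun i => Module.Basis.mk_apply hli _ i
  have hB : ∀ i, B i ∈ H := fun i => by rw [hBb]; exact (b i).2
  have hH'' : ∀ g, g ∈ quotOrder φ H ↔ (fun z => g (φ z)) ∈ H := fun g => mem_quotOrder φ H g
  obtain ⟨PK, hPK1, hPK2, hPK3⟩ :=
    ClosureQuot.exists_projK hfix φ heq hH.equivariant hH.fg b B hBb
  refine ⟨?_, ?_, ?_, ?_⟩
  · -- equivariance
    intro g hg σ x'
    obtain ⟨x, rfl⟩ := hφ x'
    rw [← heq]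
    exact hH.equivariant _ ((hH'' g).mp hg) σ x
  · -- finite generation
    have h1 : Module.Finite (Rl r) H := Module.Finite.iff_fg.mpr hH.fg
    have h2 : IsNoetherian (Rl r) H := isNoetherian_of_isNoetherianRing_of_finite (Rl r) H
    let j : quotOrder φ H →ₗ[Rl r] H :=
      { toFun := fun g => ⟨pullback (Rl r) φ g, g.2⟩
        map_add' := fun a c => Subtype.ext (by simp)
        map_smul' := fun r a => Subtype.ext (by simp) }
    have hj : Function.Injective j := by
      intro a c hac
      have h3 : pullback (Rl r) φ (a : M'' → Qb) = pullback (Rl r) φ (c : M'' → Qb) :=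
        congrArg Subtype.val hac
      apply Subtype.ext
      funext x'
      obtain ⟨x, rfl⟩ := hφ x'
      exact congrFun h3 x
    have h4 : Module.Finite (Rl r) (quotOrder φ H) := Module.Finite.of_injective j hj
    exact Module.Finite.iff_fg.mp h4
  · -- separation
    intro x' y' hxy
    obtain ⟨x, rfl⟩ := hφ x'
    obtain ⟨y, rfl⟩ := hφ y'
    obtain ⟨h, hh, hinv, hne⟩ :=
      ClosureQuot.exists_separating hfix φ heq hH.equivariant B hB x y hxy
    refine ⟨fun z => h (Function.surjInv hφ z), ?_, ?_⟩
    · rw [hH'']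
      have : (fun z => h (Function.surjInv hφ (φ z))) = h :=
        funext fun z => hinv _ _ (Function.surjInv_eq hφ _)
      rw [this]; exact hh
    · simp only
      rw [hinv _ x (Function.surjInv_eq hφ _), hinv _ y (Function.surjInv_eq hφ _)]
      exact hne
  · -- comultiplication
    intro g hg
    refine ClosureQuot.comul_aux φ hφ PK hPK1 hPK2 hPK3 (quotOrder φ H) hH'' g ?_
    exact hH.comul _ ((hH'' g).mp hg)

end Fermat.Agent.S15.HG
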